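import Fermat.Agent.GK.Red.TwoRed
import Fermat.Agent.GK.MultiVal.Integral
import Fermat.Agent.GK.MultiVal.Bridges
import Fermat.Agent.GK.Lattice.ResFam
import Fermat.Agent.GJ.J1.ResDataOfRedData

/-!
# GATE-L / L7a : a finite FAMILY of reduction data over one Gauss chart  (helper96)

`R i : RedData K F k (Ft i)`, `i : ι` (`ι` finite, nonempty) : finitely many valuations of the
function field `F / K`, all restricting to the same valuation subring `A` of `K` with the same
residue map, pairwise distinct, and ONE element `t` which is a Gauss chart for every `R i`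
(the components of the special fibre of a model of `F`; `Fin 4` in the HYBRID design of GATE-L).
This is the family analogue of `GK/MultiVal/TwoRedData.lean` (helper90) and `GK/Red/TwoRed.lean`.

* `ballFam R = ⋂ Rw_i`, `radFam R`, `redFam R : ballFam R →+* ∀ i, Ft i`;
* `isNormPairFam`, `isRedSystemFam`;
* `sum_finrank_le_fam` : the fundamental inequality `∑ f_i ≤ [F : K(t)]`;
* `hasOrthoBases_fam`, `orthFam_fam` : equality gives orthonormal bases of the sup-norm ball;
* `finrank_redBallFam`, `exists_liftFam` : rank preservation and lifting;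
* `isIntegral_ballFam`, `redRegFinOn_ballFam`, `redRegFinOn_ballFam_inv` : K-RED relative to the ball;
* `red_mem_Lfib_ballFam`, `red_mem_Lfib_ballFam_of_pow` :
  `x ∈ L(n (t)_∞) ∩ ⋂ Rw_i ⟹ red_i x ∈ L~_i(n (t~_i)_∞)` for every `i`;
* `resFam_fam` : helper39's `ResFam` for the family.
-/

set_option autoImplicit false
set_option linter.unusedSectionVars false

namespace Fermat.Agent.GL.FamRed

open Module Polynomial IntermediateField Fermat.Agent.GK.MultiVal Fermat.Agent.GJ.J1
  Fermat.Agent.GK.Red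
open Fermat.Agent.GJ.Ortho (chartFamily)

variable {K F k : Type*} [Field K] [Field F] [Algebra K F] [Field k]
  {ι : Type*} {Ft : ι → Type*} [∀ i, Field (Ft i)] [∀ i, Algebra k (Ft i)]

/-- the valuation subrings of the family -/
abbrev Wfam (R : ∀ i, RedData K F k (Ft i)) : ι → ValuationSubring F := fun i => (R i).Rw

/-- the closed unit ball of `max_i |x|_i` -/
def ballFam (R : ∀ i, RedData K F k (Ft i)) : Subring F := ball (Wfam R)

/-- the open unit ball of `max_i |x|_i` -/
def radFam (R : ∀ i, RedData K F k (Ft i)) : AddSubgroup F := rad (Wfam R)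

/-- compatibility of the family over the base: same valuation subring of `K`, same residue map -/
structure FamCompat (R : ∀ i, RedData K F k (Ft i)) (A : ValuationSubring K) (π : A →+* k) :
    Prop where
  A_eq : ∀ i, (R i).A = A
  res_eq : ∀ i (a : K) (h : a ∈ (R i).A) (h' : a ∈ A), (R i).res ⟨a, h⟩ = π ⟨a, h'⟩

variable {R : ∀ i, RedData K F k (Ft i)}

theorem mem_ballFam {x : F} : x ∈ ballFam R ↔ ∀ i, x ∈ (R i).Rw := mem_ball

theorem mem_radFam {x : F} : x ∈ radFam R ↔ ∀ i, (R i).Rw.valuation x < 1 := mem_rad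

variable (R) in
/-- the family reduction `x ↦ (red_i x)_i` on `⋂ Rw_i` -/
def redFam : ballFam R →+* ∀ i, Ft i where
  toFun x := fun i => (R i).red ⟨x, mem_ballFam.mp x.2 i⟩
  map_one' := funext fun i => map_one (R i).red
  map_mul' x y := funext fun i =>
    map_mul (R i).red ⟨x, mem_ballFam.mp x.2 i⟩ ⟨y, mem_ballFam.mp y.2 i⟩
  map_zero' := funext fun i => map_zero (R i).red
  map_add' x y := funext fun i =>
    map_add (R i).red ⟨x, mem_ballFam.mp x.2 i⟩ ⟨y, mem_ballFam.mp y.2 i⟩

theorem redFam_apply (x : ballFam R) (i : ι) :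
    redFam R x i = (R i).red ⟨x, mem_ballFam.mp x.2 i⟩ := rfl

theorem redFam_mk {x : F} (h : ∀ i, x ∈ (R i).Rw) (i : ι) :
    redFam R ⟨x, mem_ballFam.mpr h⟩ i = (R i).red ⟨x, h i⟩ := rfl

section compat

variable {A : ValuationSubring K} {π : A →+* k} (hc : FamCompat R A π)
include hc

theorem FamCompat.mem_iff (i : ι) (a : K) : algebraMap K F a ∈ Wfam R i ↔ a ∈ A := by
  rw [← hc.A_eq i]
  exact ((R i).mem_A_iff a).symm

theorem FamCompat.isGaussChartFor {t : F} (i : ι) (ht : (R i).IsGaussChart t) :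
    IsGaussChartFor A (Wfam R i) t := by
  have h := (R i).isGaussChartFor ht
  rwa [hc.A_eq i] at h

theorem FamCompat.algebraMap_mem_ballFam (a : A) : algebraMap K F (a : K) ∈ ballFam R :=
  mem_ballFam.mpr fun i => (hc.mem_iff i a).mpr a.2

theorem FamCompat.algebraMap_mem_ballFam' (i : ι) (a : (R i).A) :
    algebraMap K F (a : K) ∈ ballFam R :=
  hc.algebraMap_mem_ballFam ⟨a, hc.A_eq i ▸ a.2⟩

theorem FamCompat.pi_surjective [Nonempty ι] : Function.Surjective π := by
  obtain ⟨i⟩ := ‹Nonempty ι›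
  intro c
  obtain ⟨a, ha⟩ := (R i).res_surjective c
  exact ⟨⟨a, hc.A_eq i ▸ a.2⟩, by rw [← ha, ← hc.res_eq i (a : K) a.2]⟩

theorem FamCompat.pi_ker [Nonempty ι] (a : A) : π a = 0 ↔ (a : K) ∈ A.nonunits := by
  obtain ⟨i⟩ := ‹Nonempty ι›
  have ha : (a : K) ∈ (R i).A := (hc.A_eq i).symm ▸ a.2
  rw [← hc.res_eq i (a : K) ha a.2, (R i).orthoRedSystem.res_ker ⟨a, ha⟩]
  show (a : K) ∈ (R i).A.nonunits ↔ _
  rw [hc.A_eq i]

theorem isNormPairFam [Nonempty ι] : IsNormPair A (ballFam R) (radFam R) :=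
  isNormPair_family hc.mem_iff

theorem isRedSystemFam [Nonempty ι] :
    IsRedSystem A (ballFam R) (radFam R) π (redFam R).toAddMonoidHom (isNormPairFam hc) where
  res_surj := hc.pi_surjective
  res_ker := hc.pi_ker
  red_ker := fun x => by
    show redFam R x = 0 ↔ _
    rw [mem_radFam, funext_iff]
    refine forall_congr' fun i => ?_
    rw [redFam_apply, Pi.zero_apply, (R i).orthoRedSystem.red_ker,
      ValuationSubring.mem_nonunits_iff]
  red_smul := fun a x => by
    show redFam R ⟨(a : K) • (x : F), _⟩ = π a • redFam R x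
    funext i
    have hx := mem_ballFam.mp x.2 i
    have hai : (a : K) ∈ (R i).A := (hc.A_eq i).symm ▸ a.2
    rw [Pi.smul_apply, redFam_apply, redFam_apply]
    have h1 : (⟨(a : K) • (x : F),
        mem_ballFam.mp ((isNormPairFam hc).smul_mem_ball a.2 x.2) i⟩ : (R i).Rw)
        = ⟨algebraMap K F (a : K), ((R i).mem_A_iff a).1 hai⟩ * ⟨x, hx⟩ := by
      apply Subtype.ext
      show (a : K) • (x : F) = algebraMap K F (a : K) * (x : F)
      rw [Algebra.smul_def]
    rw [h1, map_mul, (R i).red_algebraMap ⟨(a : K), hai⟩, Algebra.smul_def,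
      hc.res_eq i (a : K) hai a.2]

end compat

/-! ### The joint chart family of a family of reduction data -/

section chart

variable [Fintype ι] [Nonempty ι] {A : ValuationSubring K} {π : A →+* k}
  {t : F} (ht : ∀ i, (R i).IsGaussChart t)

/-- the residue degree of the `i`-th component over the chart -/
noncomputable abbrev resDeg (i : ι) : ℕ := finrank k⟮(R i).red ⟨t, (ht i).1⟩⟯ (Ft i)

/-- the index set of the joint chart family -/
abbrev JFam : Type _ := Σ i : ι, Fin (resDeg ht i)

/-- the fibre of `JFam → ι` over `i` is `Fin (f i)` -/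
def fibreFam (i : ι) : {j : JFam ht // j.1 = i} → Fin (resDeg ht i) :=
  fun j => j.2 ▸ j.1.2

theorem fibreFam_injective (i : ι) : Function.Injective (fibreFam ht i) := by
  rintro ⟨⟨i1, m1⟩, h1⟩ ⟨⟨i2, m2⟩, h2⟩ h
  dsimp only at h1 h2
  subst h1
  subst h2
  simp only [fibreFam] at h
  subst h
  rfl

theorem card_JFam : Fintype.card (JFam ht) = ∑ i, resDeg ht i := by
  rw [Fintype.card_sigma]
  simp

variable (hc : FamCompat R A π)
include hc

/-- a family of chart-orthonormal families, one for each component -/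
theorem exists_isChartOrtho_fam [∀ i, FiniteDimensional k⟮(R i).red ⟨t, (ht i).1⟩⟯ (Ft i)] :
    ∃ y : JFam ht → F,
      ∀ i, IsChartOrtho A (Wfam R i) t (fun j : {j : JFam ht // j.1 = i} => y j) := by
  choose y hy using fun i => (R i).exists_isChartOrtho (ht i)
  refine ⟨fun j => y j.1 j.2, fun i => ?_⟩
  have hyi : IsChartOrtho A (Wfam R i) t (y i) := by
    have h := hy i
    rwa [hc.A_eq i] at h
  have h := IsOrthoFamily.comp hyi
    (e := fun q : {j : JFam ht // j.1 = i} × ℕ => (fibreFam ht i q.1, q.2))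
    (fun a b h => Prod.ext
      (fibreFam_injective ht i (congrArg (fun z : Fin (resDeg ht i) × ℕ => z.1) h))
      (congrArg (fun z : Fin (resDeg ht i) × ℕ => z.2) h))
  have h' : (chartFamily t (y i) ∘
      fun q : {j : JFam ht // j.1 = i} × ℕ => (fibreFam ht i q.1, q.2))
      = chartFamily t (fun j : {j : JFam ht // j.1 = i} => y j.1.1 j.1.2) := by
    funext q
    obtain ⟨⟨⟨i', m⟩, hj⟩, n⟩ := q
    subst hj
    simp only [Function.comp, chartFamily, fibreFam]
  rw [h'] at h
  exact h

end chart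

/-! ### The fundamental inequality, orthonormal bases, K-RED -/

section main

variable [Fintype ι] [Nonempty ι] {A : ValuationSubring K} {π : A →+* k}
  (hc : FamCompat R A π) (hinj : Function.Injective (Wfam R))
  {t : F} (ht : ∀ i, (R i).IsGaussChart t) [FiniteDimensional K⟮t⟯ F]

omit [Fintype ι] [Nonempty ι] in
theorem finiteDimensional_resFam (i : ι) :
    FiniteDimensional k⟮(R i).red ⟨t, (ht i).1⟩⟯ (Ft i) :=
  (Fermat.Agent.GJ.S37.ResDeg.finrank_residue_le (R i).A (R i).Rw
    (fun a ha => ((R i).mem_A_iff a).1 ha) (R i).red (R i).res (R i).red_algebraMap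
    (R i).red_surjective ⟨t, (ht i).1⟩ (ht i).2).1

include hc hinj ht

/-- pairwise distinct valuations with a common Gauss chart are incomparable -/
theorem incomparableFam : Incomparable (Wfam R) :=
  incomparable_of_injective hinj hc.mem_iff fun i => hc.isGaussChartFor i (ht i)

/-- **the fundamental inequality** `∑ f_i ≤ [F : K(t)]` for a family of reduction data with a
common Gauss chart -/
theorem sum_finrank_le_fam : ∑ i, resDeg ht i ≤ finrank K⟮t⟯ F := by
  have hfd := fun i => finiteDimensional_resFam ht i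
  obtain ⟨y, hy⟩ := exists_isChartOrtho_fam ht hc
  have h := card_le_finrank (J := JFam ht) (π := Sigma.fst) (y := y)
    (incomparableFam hc hinj ht) hc.mem_iff (fun i => hc.isGaussChartFor i (ht i)) hy
  rwa [card_JFam] at h

/-- **orthonormal bases for `⋂ Rw_i`** when `[F : K(t)] ≤ ∑ f_i` -/
theorem hasOrthoBases_fam (hdeg : finrank K⟮t⟯ F ≤ ∑ i, resDeg ht i) :
    HasOrthoBases A (ballFam R) (radFam R) := by
  have hfd := fun i => finiteDimensional_resFam ht i
  obtain ⟨y, hy⟩ := exists_isChartOrtho_fam ht hc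
  exact hasOrthoBases_of_finrank_le (J := JFam ht) (π := Sigma.fst) (y := y)
    (incomparableFam hc hinj ht) hc.mem_iff (fun i => hc.isGaussChartFor i (ht i)) hy
    (by rwa [card_JFam])

/-- helper39's `OrthFam` for the family -/
theorem orthFam_fam (hdeg : finrank K⟮t⟯ F ≤ ∑ i, resDeg ht i) :
    Fermat.Agent.GK.Lattice.OrthFam A (Wfam R) :=
  orthFam_of_hasOrthoBases (hasOrthoBases_fam hc hinj ht hdeg)

/-- **`⋂ Rw_i` is integral over the Gauss ring of the chart**, seen from any component -/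
theorem isIntegral_ballFam (hdeg : finrank K⟮t⟯ F ≤ ∑ i, resDeg ht i) (i : ι) {z : F}
    (hz : z ∈ ballFam R) : IsIntegral (IntRed.Ov (R i) t) z := by
  have hfd := fun i => finiteDimensional_resFam ht i
  obtain ⟨y, hy⟩ := exists_isChartOrtho_fam ht hc
  exact isIntegral_of_finrank_le (J := JFam ht) (π := Sigma.fst) (y := y)
    (incomparableFam hc hinj ht) hc.mem_iff (fun i => hc.isGaussChartFor i (ht i)) hy
    (by rwa [card_JFam]) i hz

/-- **K-RED for the family**: the integrality transfer for every component, relative to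
`⋂ Rw_i` -/
theorem redRegFinOn_ballFam (hdeg : finrank K⟮t⟯ F ≤ ∑ i, resDeg ht i) (i : ι) :
    RedRegFinOn (R i) (ballFam R) t :=
  redRegFinOn_of_isIntegral (ht i) fun _ hzS _ => isIntegral_ballFam hc hinj ht hdeg i hzS

/-- the same for the chart `t⁻¹` -/
theorem redRegFinOn_ballFam_inv (hdeg : finrank K⟮t⟯ F ≤ ∑ i, resDeg ht i)
    (hti : ∀ i, t⁻¹ ∈ (R i).Rw) (i : ι) : RedRegFinOn (R i) (ballFam R) t⁻¹ :=
  redRegFinOn_inv_of_isIntegral (ht i) (hti i)
    fun _ hzS _ => isIntegral_ballFam hc hinj ht hdeg i hzS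

/-- **family reduction of `L(n (t)_∞)`**: every reduction of an element of
`L(n (t)_∞) ∩ ⋂ Rw_i` has poles of order at most `n` over `t~_i = ∞` and nowhere else. -/
theorem red_mem_Lfib_ballFam [IsAlgClosed K] (hdeg : finrank K⟮t⟯ F ≤ ∑ i, resDeg ht i)
    (hti : ∀ i, t⁻¹ ∈ (R i).Rw) (n : ℕ) {x : F} (hx : x ∈ Lfib K t (n : ℤ))
    (hxw : ∀ i, x ∈ (R i).Rw) (i : ι) :
    (R i).red ⟨x, hxw i⟩ ∈ Lfib k ((R i).red ⟨t, (ht i).1⟩) (n : ℤ) :=
  red_mem_Lfib_on (R i) (ballFam R) (hc.algebraMap_mem_ballFam' i) (ht i).1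
    (mem_ballFam.mpr fun j => (ht j).1) (mem_ballFam.mpr hti) (ht i).2
    (redRegFinOn_ballFam hc hinj ht hdeg i) (redRegFinOn_ballFam_inv hc hinj ht hdeg hti i)
    n hx (hxw i) (mem_ballFam.mpr hxw)

/-- **the `x ^ e * y` trick for the family**: `y ∈ ⋂ Rw_i` with constant nonzero reductions
`κ i`, `x ^ e * y ∈ L(e n (t)_∞)` `⟹` every reduction of `x` lies in `L~_i(n (t~_i)_∞)`. -/
theorem red_mem_Lfib_ballFam_of_pow [IsAlgClosed K]
    (hdeg : finrank K⟮t⟯ F ≤ ∑ i, resDeg ht i) (hti : ∀ i, t⁻¹ ∈ (R i).Rw) (n : ℕ) {e : ℕ}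
    (he : 0 < e) {x y : F} (hxw : ∀ i, x ∈ (R i).Rw) (hyw : ∀ i, y ∈ (R i).Rw)
    {κ : ι → k} (hκ : ∀ i, κ i ≠ 0)
    (hr : ∀ i, (R i).red ⟨y, hyw i⟩ = algebraMap k (Ft i) (κ i))
    (hxy : x ^ e * y ∈ Lfib K t ((e : ℤ) * (n : ℤ))) (i : ι) :
    (R i).red ⟨x, hxw i⟩ ∈ Lfib k ((R i).red ⟨t, (ht i).1⟩) (n : ℤ) :=
  red_mem_Lfib_on_of_pow (R i) (ballFam R) (hc.algebraMap_mem_ballFam' i) (ht i).1
    (mem_ballFam.mpr fun j => (ht j).1) (mem_ballFam.mpr hti) (ht i).2
    (redRegFinOn_ballFam hc hinj ht hdeg i) (redRegFinOn_ballFam_inv hc hinj ht hdeg hti i)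
    n he (hxw i) (mem_ballFam.mpr hxw) (hyw i) (mem_ballFam.mpr hyw) (hκ i) (hr i) hxy

end main

/-! ### Consequences of orthonormal bases: rank preservation and lifting -/

section consequences

variable [Nonempty ι] {A : ValuationSubring K} {π : A →+* k}
  (hc : FamCompat R A π) (ho : HasOrthoBases A (ballFam R) (radFam R))
include hc ho

/-- **rank preservation**: the family reduction of the lattice `V ∩ ⋂ Rw_i` has `k`-dimension
`dim_K V`. -/
theorem finrank_redBallFam (V : Submodule K F) [FiniteDimensional K V] :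
    finrank k (redBall (k := k) (ballFam R) (redFam R).toAddMonoidHom V) = finrank K V :=
  ho.finrank_redBall (isRedSystemFam hc) V

theorem finiteDimensional_redBallFam (V : Submodule K F) [FiniteDimensional K V] :
    FiniteDimensional k (redBall (k := k) (ballFam R) (redFam R).toAddMonoidHom V) :=
  ho.finiteDimensional_redBall (isRedSystemFam hc) V

/-- **lifting**: if the family reductions of `V ∩ ⋂ Rw_i` lie in `Wt` and `dim Wt ≤ dim V`, every
element of `Wt` is the family reduction of an element of `V ∩ ⋂ Rw_i`. -/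
theorem exists_liftFam (V : Submodule K F) [FiniteDimensional K V]
    (Wt : Submodule k (∀ i, Ft i)) [FiniteDimensional k Wt]
    (hle : ∀ x (h : ∀ i, x ∈ (R i).Rw), x ∈ V → (fun i => (R i).red ⟨x, h i⟩) ∈ Wt)
    (hdim : finrank k Wt ≤ finrank K V) {y : ∀ i, Ft i} (hy : y ∈ Wt) :
    ∃ x ∈ V, ∃ h : ∀ i, x ∈ (R i).Rw, (fun i => (R i).red ⟨x, h i⟩) = y := by
  have hle' : redBall (k := k) (ballFam R) (redFam R).toAddMonoidHom V ≤ Wt := by
    rw [redBall, Submodule.span_le]
    rintro _ ⟨x, hxV, rfl⟩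
    exact hle x (mem_ballFam.mp x.2) hxV
  obtain ⟨x, hxV, hxy⟩ := ho.exists_lift (isRedSystemFam hc) V Wt hle' hdim hy
  exact ⟨x, hxV, mem_ballFam.mp x.2, hxy⟩

end consequences

/-! ### helper39's `ResFam` for the family -/

section resfam

variable [Nonempty ι] {A : ValuationSubring K} {π : A →+* k} (hc : FamCompat R A π)
include hc

/-- the J1 `ResData` of each member, over the common base -/
theorem resData_fam
    (hunram : ∀ i, ∀ x : F, x ≠ 0 → ∃ c : K, c ≠ 0 ∧
      x / algebraMap K F c ∈ (R i).Rw ∧ (x / algebraMap K F c)⁻¹ ∈ (R i).Rw) (i : ι) :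
    AbsCore.ResData A (Wfam R i) π (R i).red := by
  have hA := hc.A_eq i
  subst hA
  have hπ : (R i).res = π := RingHom.ext fun a => hc.res_eq i a a.2 a.2
  subst hπ
  exact AbsCore.ResData.ofRedData (R i) (hunram i)

/-- **helper39's `ResFam`** for a family of unramified reduction data, with the componentwise
reduction extended by zero. -/
theorem resFam_fam
    (hunram : ∀ i, ∀ x : F, x ≠ 0 → ∃ c : K, c ≠ 0 ∧
      x / algebraMap K F c ∈ (R i).Rw ∧ (x / algebraMap K F c)⁻¹ ∈ (R i).Rw) :
    Fermat.Agent.GK.Lattice.ResFam A (Wfam R) π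
      (fun x => (fun i => AbsCore.redF (R i).red x : ∀ i, Ft i)) :=
  Fermat.Agent.GK.Lattice.ResFam.of_resData (fun i => resData_fam hc hunram i)
    hc.pi_surjective fun a => by
      rw [hc.pi_ker a, ValuationSubring.mem_nonunits_iff]

end resfam

end Fermat.Agent.GL.FamRed
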