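import Fermat.Agent.GL.Red.RatFinal
import Fermat.Agent.GL.Thick.KRedB

/-!
# GATE-L / L5e : the ring `B` of GATE-K over `R = A ∩ K₀` (helper96)

`ℓ ∥ N = N' ℓ`, `A | ℓ` a valuation subring of `ℚ̄`, `K₀ = ℚ̄^{I_A}`, `R = A ∩ K₀`,
`B = BRing N' ℓ A h` (helper15), `C = CRing N' A`, `redC1`, `redC2 : B → C` (helper65).

* `BRingK0` : the `K₀`-rational functions in `B`, i.e. `x0 ∈ K₀(X₀(N))` integral over `K₀[j₀]` with
  `w₁ x0 ≥ 0`, `w₂ x0 ≥ 0` (`mem_BRingK0`); `toBRing : BRingK0 →+* B` (injective);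
* `redC1K0`, `redC2K0 : BRingK0 →+* C`;
* `exists_redCK0_eq` : **`BRingK0` and `B` have the same image in `C × C`**;
* `pairK0_mem_gluedAlg`, `exists_pairK0_eq` : that image is `gluedAlg Ψ J'` for helper15's `J'`;
* `P2K0 = ker redC2K0 = {w₂ > 0}` (`mem_P2K0_iff`), and
  `exists_mem_P2K0_redC1K0_eq` : every `a ∈ J'` is `redC1K0 y` for some `y ∈ P2K0`
  (= `hJ` of helper28's `EtaThick.exists_lift_pow_eq`);
* `redC1K0_mem_of_mem_P2K0`, `eval_redC1K0_eq_eval_psi` : the node evaluations (helper65's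
  consumers) over `R`;
* `exists_ideal_K0` : everything in one statement.
-/

set_option autoImplicit false
set_option linter.unusedSectionVars false
set_option linter.style.haveILetI false

noncomputable section

namespace Fermat.Agent.GL.BRingK0

open HahnSeries ModularCurve IsLocalRing
open Fermat.Agent.S24 Fermat.Agent.S24_helper62
open Fermat.Agent.GJ.J1 Fermat.Agent.GJ.J1.G1 Fermat.Agent.GJ.J1.Val Fermat.Agent.GJ.FiniteLevel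
open Fermat.Agent.GK.AL Fermat.Agent.GK.MultiVal Fermat.Agent.GK.Red Fermat.Agent.GK.QS
open Fermat.Agent.GK.FrobGlue
open Fermat.Agent.GL.Val.GaussK0 Fermat.Agent.GL.Val.SecondK0 Fermat.Agent.GL.Val.DegBase
open Fermat.Agent.GL.RatLiftK0 Fermat.Agent.GL.RatBRing Fermat.Agent.GL.RatFinal
open Fermat.Agent.GL.Thick
open Fermat.Agent.Common_helper32 Fermat.Agent.GJ.J1.Haupt Fermat.Agent.GJ.HN

variable (N' : ℕ) [NeZero N'] (ℓ : ℕ) [Fact ℓ.Prime] [NeZero ℓ]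
variable (A : ValuationSubring Kbar) (h : ExactDvd ℓ (N' * ℓ))

local notation "kA" => IsLocalRing.ResidueField A
local notation "F0" => modularFunctionFieldFullC (K0 A) (N' * ℓ)

set_option linter.dupNamespace false in
/-- **the ring `B` over `R`**: the `K₀`-rational functions of `BRing N' ℓ A h` -/
def BRingK0 : Subring F0 := (BRing N' ℓ A h).comap (mapK0Bar A (N' * ℓ))

variable {N' ℓ A h}

theorem mem_BRingK0_iff_map {x0 : F0} :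
    x0 ∈ BRingK0 N' ℓ A h ↔ mapK0Bar A (N' * ℓ) x0 ∈ BRing N' ℓ A h := Iff.rfl

/-- `x0 ∈ B_R` iff `x0` is integral over `K₀[j₀]`, `w₁ x0 ≥ 0` and `w₂ x0 ≥ 0` -/
theorem mem_BRingK0 {x0 : F0} :
    x0 ∈ BRingK0 N' ℓ A h ↔ RegFin (K0 A) (jC (N' * ℓ) (K0 A)) x0 ∧ x0 ∈ RwK0 A (N' * ℓ) ∧
      x0 ∈ (redData2K0 A (N' * ℓ) h).Rw := by
  rw [mem_BRingK0_iff_map, mem_BRing, regFin_jC_iff, mem_Rw1K0_iff, mem_Rw2K0_iff]

variable (N' ℓ A h)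

/-- constants of `R` lie in `B_R` -/
theorem algebraMap_mem_BRingK0 (a : R0 A) :
    algebraMap (K0 A) F0 (a : K0 A) ∈ BRingK0 N' ℓ A h := by
  rw [mem_BRingK0_iff_map, mapK0Bar_algebraMap]
  exact algebraMap_mem_BRing (⟨ι0 A (a : K0 A), (hA0 A _).1 a.2⟩ : A)

/-- `j₀ ∈ B_R` -/
theorem jC_mem_BRingK0 : jC (N' * ℓ) (K0 A) ∈ BRingK0 N' ℓ A h := by
  rw [mem_BRingK0_iff_map, mapK0Bar_jC]
  exact ⟨regFin_self _, (isGaussChart_jF_1 (N' * ℓ) A).1, (isGaussChart_jF_2 (N' * ℓ) A h).1⟩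

/-- the inclusion `B_R → B` -/
def toBRing : BRingK0 N' ℓ A h →+* BRing N' ℓ A h :=
  (mapK0Bar A (N' * ℓ)).restrict (BRingK0 N' ℓ A h) (BRing N' ℓ A h) fun _ hx => hx

@[simp] theorem coe_toBRing (x0 : BRingK0 N' ℓ A h) :
    ((toBRing N' ℓ A h x0 : BRing N' ℓ A h) : FN (N' * ℓ)) = mapK0Bar A (N' * ℓ) (x0 : F0) := rfl

theorem toBRing_injective : Function.Injective (toBRing N' ℓ A h) := fun _ _ hab =>
  Subtype.ext ((mapK0Bar A (N' * ℓ)).injective (congrArg Subtype.val hab))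

variable {N' ℓ A}
variable (hℓN : ¬ ℓ ∣ N') (hA : A.LiesOverPrime ℓ)

/-- **`red₁ : B_R → C`** -/
def redC1K0 : BRingK0 N' ℓ A h →+* CRing N' A := (redC1Hom hℓN hA).comp (toBRing N' ℓ A h)

/-- **`red₂ : B_R → C`** -/
def redC2K0 : BRingK0 N' ℓ A h →+* CRing N' A := (redC2Hom hℓN hA).comp (toBRing N' ℓ A h)

theorem redC1K0_apply (x0 : BRingK0 N' ℓ A h) :
    redC1K0 h hℓN hA x0 = redC1 hℓN hA (toBRing N' ℓ A h x0) := rfl

theorem redC2K0_apply (x0 : BRingK0 N' ℓ A h) :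
    redC2K0 h hℓN hA x0 = redC2 hℓN hA (toBRing N' ℓ A h x0) := rfl

theorem cVal_redC1K0 (x0 : BRingK0 N' ℓ A h) :
    cVal N' A (redC1K0 h hℓN hA x0) = rho1 N' ℓ A h (toBRing N' ℓ A h x0) :=
  cVal_redC1 hℓN hA _

theorem cVal_redC2K0 (x0 : BRingK0 N' ℓ A h) :
    cVal N' A (redC2K0 h hℓN hA x0) = rho2 N' ℓ A h (toBRing N' ℓ A h x0) :=
  cVal_redC2 hℓN hA _

/-- **`rd(B_R) = rd(B)`** : every element of `B` has the same reductions in `C` as an element of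
`B_R`. -/
theorem exists_redCK0_eq (x : BRing N' ℓ A h) :
    ∃ x0 : BRingK0 N' ℓ A h, redC1K0 h hℓN hA x0 = redC1 hℓN hA x ∧
      redC2K0 h hℓN hA x0 = redC2 hℓN hA x := by
  obtain ⟨x0, -, -, -, hB, e1, e2⟩ := ratLift_BRing N' ℓ A h hA x
  refine ⟨⟨x0, hB⟩, ?_, ?_⟩
  · refine redC1_eq_of_cVal hℓN hA _ ?_
    rw [cVal_redC1]
    exact e1.symm
  · refine redC2_eq_of_cVal hℓN hA _ ?_
    rw [cVal_redC2]
    exact e2.symm

/-- the pair of reductions of an element of `B_R` lies in `B~` -/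
theorem pairK0_mem_BT (x0 : BRingK0 N' ℓ A h) :
    (redC1K0 h hℓN hA x0, redC2K0 h hℓN hA x0) ∈ BT N' ℓ A h :=
  pair_mem_BT hℓN hA (toBRing N' ℓ A h x0)

/-- every element of `B~` is the pair of reductions of an element of `B_R` -/
theorem exists_pairK0_eq_of_mem_BT {z : CRing N' A × CRing N' A} (hz : z ∈ BT N' ℓ A h) :
    ∃ x0 : BRingK0 N' ℓ A h, redC1K0 h hℓN hA x0 = z.1 ∧ redC2K0 h hℓN hA x0 = z.2 := by
  obtain ⟨x, hx1, hx2⟩ := (mem_BT N' ℓ A h).mp hz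
  obtain ⟨x0, e1, e2⟩ := exists_redCK0_eq h hℓN hA x
  exact ⟨x0, e1.trans (redC1_eq_of_cVal hℓN hA x hx1.symm),
    e2.trans (redC2_eq_of_cVal hℓN hA x hx2.symm)⟩

section Glued

variable {J' : Ideal (CRing N' A)} (hJ' : BT N' ℓ A h = gluedAlg (psiC N' ℓ A hℓN hA) J')
include hJ'

/-- `rd(B_R) ⊆ gluedAlg Ψ J'` -/
theorem pairK0_mem_gluedAlg (x0 : BRingK0 N' ℓ A h) :
    (redC1K0 h hℓN hA x0, redC2K0 h hℓN hA x0) ∈ gluedAlg (psiC N' ℓ A hℓN hA) J' := by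
  rw [← hJ']
  exact pairK0_mem_BT h hℓN hA x0

/-- `gluedAlg Ψ J' ⊆ rd(B_R)` -/
theorem exists_pairK0_eq {z : CRing N' A × CRing N' A}
    (hz : z ∈ gluedAlg (psiC N' ℓ A hℓN hA) J') :
    ∃ x0 : BRingK0 N' ℓ A h, redC1K0 h hℓN hA x0 = z.1 ∧ redC2K0 h hℓN hA x0 = z.2 :=
  exists_pairK0_eq_of_mem_BT h hℓN hA (by rw [hJ']; exact hz)

/-- the glueing condition over `R` -/
theorem sub_psi_mem_K0 (x0 : BRingK0 N' ℓ A h) :
    redC1K0 h hℓN hA x0 - psiC N' ℓ A hℓN hA (redC2K0 h hℓN hA x0) ∈ J' :=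
  sub_psi_mem_of_BT_eq hℓN hA hJ' (toBRing N' ℓ A h x0)

/-- the two branches of a node carry the same value of `x0 ∈ B_R` -/
theorem eval_redC1K0_eq_eval_psi (x0 : BRingK0 N' ℓ A h) (φ : CRing N' A →ₐ[kA] kA)
    (hφ : J' ≤ RingHom.ker φ.toRingHom) :
    φ (redC1K0 h hℓN hA x0) = φ (psiC N' ℓ A hℓN hA (redC2K0 h hℓN hA x0)) :=
  eval_redC1_eq_eval_psi hℓN hA hJ' (toBRing N' ℓ A h x0) φ hφ

end Glued

/-! ### The vertical prime `P'₂ = {w₂ > 0}` of `B_R` -/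

/-- **`P'₂`** : the kernel of `red₂` on `B_R` -/
def P2K0 : Ideal (BRingK0 N' ℓ A h) := RingHom.ker (redC2K0 h hℓN hA)

theorem mem_P2K0 {x0 : BRingK0 N' ℓ A h} : x0 ∈ P2K0 h hℓN hA ↔ redC2K0 h hℓN hA x0 = 0 :=
  RingHom.mem_ker

/-- `P'₂ = {x0 ∈ B_R | w₂ x0 > 0}` -/
theorem mem_P2K0_iff {x0 : BRingK0 N' ℓ A h} :
    x0 ∈ P2K0 h hℓN hA ↔ (x0 : F0) ∈ (redData2K0 A (N' * ℓ) h).Rw.nonunits := by
  rw [mem_P2K0, mem_nonunits_Rw2K0_iff]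
  have hx2 : mapK0Bar A (N' * ℓ) (x0 : F0) ∈ (redData2 (N' * ℓ) A h).Rw :=
    (toBRing N' ℓ A h x0).2.2.2
  constructor
  · intro h0
    have h1 : rho2 N' ℓ A h (toBRing N' ℓ A h x0) = 0 := by
      rw [← cVal_redC2K0 h hℓN hA, h0, map_zero]
    rw [rho2_apply] at h1
    have h2 : (redData2 (N' * ℓ) A h).red ⟨mapK0Bar A (N' * ℓ) (x0 : F0), hx2⟩ = 0 :=
      Subtype.ext h1
    have h3 := ((redData2 (N' * ℓ) A h).red_eq_zero_iff _).1 h2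
    rw [ValuationSubring.mem_nonunits_iff]
    exact (ValuationSubring.valuation_lt_one_iff _ _).1 h3
  · intro hn
    rw [ValuationSubring.mem_nonunits_iff] at hn
    have h3 : (⟨mapK0Bar A (N' * ℓ) (x0 : F0), hx2⟩ : (redData2 (N' * ℓ) A h).Rw) ∈
        IsLocalRing.maximalIdeal (redData2 (N' * ℓ) A h).Rw :=
      (ValuationSubring.valuation_lt_one_iff _ _).2 hn
    have h2 := ((redData2 (N' * ℓ) A h).red_eq_zero_iff _).2 h3
    refine cVal_injective N' A ?_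
    rw [cVal_redC2K0, map_zero, rho2_apply]
    exact congrArg Subtype.val h2

section Glued2

variable {J' : Ideal (CRing N' A)} (hJ' : BT N' ℓ A h = gluedAlg (psiC N' ℓ A hℓN hA) J')
include hJ'

/-- `red₁ (P'₂) ⊆ J'` -/
theorem redC1K0_mem_of_mem_P2K0 {x0 : BRingK0 N' ℓ A h} (hx : x0 ∈ P2K0 h hℓN hA) :
    redC1K0 h hℓN hA x0 ∈ J' := by
  have h1 := sub_psi_mem_K0 h hℓN hA hJ' x0
  rwa [(mem_P2K0 h hℓN hA).1 hx, map_zero, sub_zero] at h1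

/-- **`J' ⊆ red₁ (P'₂)`** (= `hJ` of helper28's `EtaThick.exists_lift_pow_eq` with
`rd1 := redC1K0`, `P2' := P2K0`) -/
theorem exists_mem_P2K0_redC1K0_eq {a : CRing N' A} (ha : a ∈ J') :
    ∃ y ∈ P2K0 h hℓN hA, redC1K0 h hℓN hA y = a := by
  have hz : ((a, 0) : CRing N' A × CRing N' A) ∈ gluedAlg (psiC N' ℓ A hℓN hA) J' := by
    rw [mk_mem_gluedAlg, map_zero, sub_zero]
    exact ha
  obtain ⟨x0, e1, e2⟩ := exists_pairK0_eq h hℓN hA hJ' hz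
  exact ⟨x0, (mem_P2K0 h hℓN hA).2 e2, e1⟩

/-- `red₁ (P'₂) = J'` -/
theorem map_P2K0_eq : (P2K0 h hℓN hA).map (redC1K0 h hℓN hA) = J' := by
  apply le_antisymm
  · rw [Ideal.map_le_iff_le_comap]
    intro x0 hx
    exact redC1K0_mem_of_mem_P2K0 h hℓN hA hJ' hx
  · intro a ha
    obtain ⟨y, hy, rfl⟩ := exists_mem_P2K0_redC1K0_eq h hℓN hA hJ' ha
    exact Ideal.mem_map_of_mem _ hy

end Glued2

/-- `red₁ : B_R → C` is onto (at the aux levels) -/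
theorem redC1K0_surjective (h2 : ℓ = 2 → 3 ∣ N') (h3 : ℓ = 3 → 2 ∣ N') :
    Function.Surjective (redC1K0 h hℓN hA) := by
  intro a
  obtain ⟨x0, e1, -⟩ := exists_pairK0_eq_of_mem_BT h hℓN hA
    (left_mem_BT N' ℓ A h hℓN hA h2 h3 a)
  exact ⟨x0, e1⟩

/-- **K-N6 over `R`, one statement**: there is an ideal `J' ⊇ (a − Ψ² a)` of `C` with
`rd(B_R) = gluedAlg Ψ J'` and `red₁ (P'₂) = J'`. -/
theorem exists_ideal_K0 (h2 : ℓ = 2 → 3 ∣ N') (h3 : ℓ = 3 → 2 ∣ N') :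
    ∃ J' : Ideal (CRing N' A), fixIdeal (psiC N' ℓ A hℓN hA) ≤ J' ∧
      BT N' ℓ A h = gluedAlg (psiC N' ℓ A hℓN hA) J' ∧
      (∀ x0 : BRingK0 N' ℓ A h,
        (redC1K0 h hℓN hA x0, redC2K0 h hℓN hA x0) ∈ gluedAlg (psiC N' ℓ A hℓN hA) J') ∧
      (∀ z ∈ gluedAlg (psiC N' ℓ A hℓN hA) J',
        ∃ x0 : BRingK0 N' ℓ A h, redC1K0 h hℓN hA x0 = z.1 ∧ redC2K0 h hℓN hA x0 = z.2) ∧
      (∀ a ∈ J', ∃ y ∈ P2K0 h hℓN hA, redC1K0 h hℓN hA y = a) ∧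
      (P2K0 h hℓN hA).map (redC1K0 h hℓN hA) = J' := by
  obtain ⟨J', hJ, hBT⟩ := exists_ideal_BT N' ℓ A h hℓN hA h2 h3
  exact ⟨J', hJ, hBT, pairK0_mem_gluedAlg h hℓN hA hBT,
    fun z hz => exists_pairK0_eq h hℓN hA hBT hz,
    fun a ha => exists_mem_P2K0_redC1K0_eq h hℓN hA hBT ha, map_P2K0_eq h hℓN hA hBT⟩

end Fermat.Agent.GL.BRingK0
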