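import Mathlib
import Fermat.Agent.GJ.J1.Defs
import Fermat.Agent.GL.Alg.IntClosureSplit

/-!
# GATE-L / L5e bridge : `B_R = (integral closure of K[t]) ∩ (vertical valuation rings)` (helper96)

`A ⊂ K` a discrete valuation subring with uniformiser `q`, `F / K` a field, `t ∈ F`.

* `exists_pow_mul_mem_adjoin` : `K[t] = A[t][1/q]`;
* `exists_pow_mul_isIntegral` : `x` integral over `K[t]` `⟹` `q ^ n * x` integral over `A[t]` for
  some `n`;
* `regFin_of_isIntegral_adjoin` : the converse direction `IsIntegral A[t] x → RegFin K t x`;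
* `isIntegral_adjoin_iff_regFin_of_family` : helper79's `isIntegral_adjoin_iff_of_family` with its
  first conjunct replaced by `RegFin K t x` :
  **`x` is integral over `A[t]` iff it is integral over `K[t]` and lies in every `W i`**, for a
  family `W` of valuation subrings containing `A[t]` and (up to inclusion) every extension of the
  Gauss valuation (NOEXT, helper75/helper90).
-/

set_option autoImplicit false

open Polynomial

namespace Fermat.Agent.GL.IntegralBridge

open Fermat.Agent.GJ.J1 Fermat.Agent.GL.IntClosureSplit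

variable {K F : Type*} [Field K] [Field F] [Algebra K F]
variable {A : ValuationSubring K} [Algebra A F] [IsScalarTower A K F]

theorem algebraMap_eq' (a : A) : algebraMap A F a = algebraMap K F (a : K) :=
  IsScalarTower.algebraMap_apply A K F a

/-- every element of `K` becomes integral after multiplication by a power of the uniformiser -/
theorem exists_pow_mul_mem [IsDiscreteValuationRing A] {q : A} (hq : Irreducible q) (c : K) :
    ∃ n : ℕ, (q : K) ^ n * c ∈ A := by
  rcases A.mem_or_inv_mem c with hc | hc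
  · exact ⟨0, by simpa using hc⟩
  · by_cases hc0 : c = 0
    · exact ⟨0, by simp [hc0]⟩
    have hb0 : (⟨c⁻¹, hc⟩ : A) ≠ 0 := fun h0 => inv_ne_zero hc0 (congrArg Subtype.val h0)
    obtain ⟨n, u, hu⟩ := IsDiscreteValuationRing.eq_unit_mul_pow_irreducible hb0 hq
    refine ⟨n, ?_⟩
    have h1 : c⁻¹ = ((u : A) : K) * (q : K) ^ n := by
      have := congrArg Subtype.val hu
      simpa using this
    have h3 : (((u⁻¹ : Aˣ) : A) : K) * ((u : A) : K) = 1 := by
      show ((((u⁻¹ : Aˣ) : A) * (u : A) : A) : K) = 1
      rw [Units.inv_mul]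
      rfl
    have hc' : c = (((u : A) : K) * (q : K) ^ n)⁻¹ := by rw [← h1, inv_inv]
    have hqn : (q : K) ^ n ≠ 0 := pow_ne_zero _ fun h0 => hq.ne_zero (Subtype.ext h0)
    have h2 : (q : K) ^ n * c = (((u⁻¹ : Aˣ) : A) : K) := by
      rw [hc', mul_inv, ← mul_assoc, mul_comm ((q : K) ^ n), mul_assoc, mul_inv_cancel₀ hqn,
        mul_one]
      exact (eq_inv_of_mul_eq_one_left h3).symm
    rw [h2]
    exact ((u⁻¹ : Aˣ) : A).2

/-- `K[t] = A[t][1/q]` -/
theorem exists_pow_mul_mem_adjoin [IsDiscreteValuationRing A] {q : A} (hq : Irreducible q)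
    {t z : F} (hz : z ∈ Algebra.adjoin K {t}) :
    ∃ n : ℕ, algebraMap A F q ^ n * z ∈ Algebra.adjoin A {t} := by
  have hqR : algebraMap A F q ∈ Algebra.adjoin A {t} := Subalgebra.algebraMap_mem _ _
  induction hz using Algebra.adjoin_induction with
  | mem y hy =>
    rw [Set.mem_singleton_iff.mp hy]
    exact ⟨0, by simp [Algebra.self_mem_adjoin_singleton A t]⟩
  | algebraMap c =>
    obtain ⟨n, hn⟩ := exists_pow_mul_mem hq c
    refine ⟨n, ?_⟩
    have : algebraMap A F q ^ n * algebraMap K F c = algebraMap A F ⟨(q : K) ^ n * c, hn⟩ := by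
      rw [algebraMap_eq', algebraMap_eq', ← map_pow, ← map_mul]
    rw [this]
    exact Subalgebra.algebraMap_mem _ _
  | add z1 z2 _ _ h1 h2 =>
    obtain ⟨n1, h1⟩ := h1
    obtain ⟨n2, h2⟩ := h2
    refine ⟨n1 + n2, ?_⟩
    have : algebraMap A F q ^ (n1 + n2) * (z1 + z2) =
        algebraMap A F q ^ n2 * (algebraMap A F q ^ n1 * z1) +
          algebraMap A F q ^ n1 * (algebraMap A F q ^ n2 * z2) := by ring
    rw [this]
    exact add_mem (mul_mem (pow_mem hqR _) h1) (mul_mem (pow_mem hqR _) h2)
  | mul z1 z2 _ _ h1 h2 =>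
    obtain ⟨n1, h1⟩ := h1
    obtain ⟨n2, h2⟩ := h2
    refine ⟨n1 + n2, ?_⟩
    have : algebraMap A F q ^ (n1 + n2) * (z1 * z2) =
        (algebraMap A F q ^ n1 * z1) * (algebraMap A F q ^ n2 * z2) := by ring
    rw [this]
    exact mul_mem h1 h2

/-- `x` integral over `K[t]` `⟹` `q ^ n * x` integral over `A[t]` for some `n` -/
theorem exists_pow_mul_isIntegral [IsDiscreteValuationRing A] {q : A} (hq : Irreducible q)
    {t x : F} (hx : RegFin K t x) :
    ∃ n : ℕ, IsIntegral (Algebra.adjoin A {t}) (algebraMap A F q ^ n * x) := by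
  classical
  obtain ⟨P, hP, hPx⟩ := hx
  set S := Algebra.adjoin K {t} with hS
  set R := Algebra.adjoin A {t} with hR
  have hqR : algebraMap A F q ∈ R := Subalgebra.algebraMap_mem _ _
  -- a uniform exponent for all the coefficients of `P`
  choose e he using fun i : ℕ => exists_pow_mul_mem_adjoin hq (t := t) (P.coeff i).2
  set n := ∑ i ∈ Finset.range (P.natDegree + 1), e i with hn
  have hcoef : ∀ i, algebraMap A F q ^ n * ((P.coeff i : S) : F) ∈ R := by
    intro i
    by_cases hi : i ∈ Finset.range (P.natDegree + 1)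
    · have hle : e i ≤ n := Finset.single_le_sum (f := e) (fun _ _ => Nat.zero_le _) hi
      obtain ⟨m, hm⟩ := Nat.exists_eq_add_of_le hle
      rw [hm, add_comm, pow_add, mul_assoc]
      exact mul_mem (pow_mem hqR _) (he i)
    · have : P.coeff i = 0 := by
        apply Polynomial.coeff_eq_zero_of_natDegree_lt
        rw [Finset.mem_range, not_lt] at hi
        omega
      rw [this]
      simp
  -- the scaled polynomial over `F` lifts to `R[X]`
  set Pf : F[X] := C (algebraMap A F q ^ n) * P.map (algebraMap S F) with hPf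
  have hlift : Pf ∈ Polynomial.lifts (algebraMap R F) := by
    rw [Polynomial.lifts_iff_coeff_lifts]
    intro i
    rw [hPf, Polynomial.coeff_C_mul, Polynomial.coeff_map]
    exact ⟨⟨_, hcoef i⟩, rfl⟩
  obtain ⟨P', hP'⟩ := (Polynomial.mem_lifts _).1 hlift
  have hq0 : algebraMap A F q ≠ 0 := by
    rw [algebraMap_eq']
    intro h0
    have : (q : K) = 0 := (map_eq_zero_iff _ (algebraMap K F).injective).1 h0
    exact hq.ne_zero (Subtype.ext this)
  have hroot : Polynomial.aeval x P' = 0 := by
    rw [Polynomial.aeval_def, ← Polynomial.eval_map, hP', hPf, Polynomial.eval_mul,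
      Polynomial.eval_C, Polynomial.eval_map, hPx, mul_zero]
  have hlead : algebraMap R F P'.leadingCoeff = algebraMap A F q ^ n := by
    have hinj : Function.Injective (algebraMap R F) := Subtype.val_injective
    rw [← Polynomial.leadingCoeff_map_of_injective hinj, hP', hPf, Polynomial.leadingCoeff_mul,
      Polynomial.leadingCoeff_C, (hP.map _).leadingCoeff, mul_one]
  refine ⟨n, ?_⟩
  have := isIntegral_leadingCoeff_smul P' x hroot
  rwa [Algebra.smul_def, hlead] at this

/-- integral over `A[t]` `⟹` integral over `K[t]` -/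
theorem regFin_of_isIntegral_adjoin {t x : F} (hx : IsIntegral (Algebra.adjoin A {t}) x) :
    RegFin K t x := by
  have hmaps' : ∀ z ∈ Algebra.adjoin A {t}, z ∈ Algebra.adjoin K {t} := by
    intro z hz
    induction hz using Algebra.adjoin_induction with
    | mem y hy => exact Algebra.subset_adjoin hy
    | algebraMap c => rw [algebraMap_eq']; exact Subalgebra.algebraMap_mem _ _
    | add _ _ _ _ hx hy => exact add_mem hx hy
    | mul _ _ _ _ hx hy => exact mul_mem hx hy
  let θ : Algebra.adjoin A {t} →+* Algebra.adjoin K {t} :=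
    ((Algebra.adjoin A {t}).val.toRingHom).codRestrict (Algebra.adjoin K {t}).toSubring
      fun z => hmaps' z z.2
  exact IsIntegral.map_of_comp_eq θ (RingHom.id F) (RingHom.ext fun _ => rfl) hx

/-- **`B_R = (integral closure of K[t]) ∩ ⋂ W i`** : for a family `W` of valuation subrings of `F`
containing `A[t]` and (up to inclusion) every extension of the Gauss valuation. -/
theorem isIntegral_adjoin_iff_regFin_of_family [IsDiscreteValuationRing A] {q : A}
    (hq : Irreducible q) {t : F} (ht : Transcendental A t)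
    [Algebra.IsAlgebraic (Algebra.adjoin A {t}) F] {ι : Type*} (W : ι → ValuationSubring F)
    (hW : ∀ i, ∀ g : A[X], aeval t g ∈ W i)
    (hnoext : ∀ V : ValuationSubring F, IsGaussExt q t V → ∃ i, W i ≤ V) (x : F) :
    IsIntegral (Algebra.adjoin A {t}) x ↔ RegFin K t x ∧ ∀ i, x ∈ W i := by
  have hqp : Prime q := hq.prime
  rw [isIntegral_adjoin_iff_of_family hqp ht W hW hnoext x]
  constructor
  · rintro ⟨⟨n, hn⟩, hx⟩
    refine ⟨?_, hx⟩
    have h1 := regFin_of_isIntegral_adjoin (K := K) hn
    -- divide by `q ^ n` in `K[t]`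
    have hq0 : algebraMap A F q ≠ 0 := by
      rw [algebraMap_eq']
      intro h0
      have : (q : K) = 0 := (map_eq_zero_iff _ (algebraMap K F).injective).1 h0
      exact hq.ne_zero (Subtype.ext this)
    have h2 : RegFin K t (algebraMap K F ((q : K) ^ n)⁻¹) := regFin_algebraMap _ _
    have h3 := h2.mul h1
    have e : algebraMap K F ((q : K) ^ n)⁻¹ * (algebraMap A F q ^ n * x) = x := by
      rw [algebraMap_eq', ← map_pow, ← mul_assoc, ← map_mul, inv_mul_cancel₀, map_one, one_mul]
      exact pow_ne_zero _ fun h0 => hq.ne_zero (Subtype.ext h0)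
    rwa [e] at h3
  · rintro ⟨hr, hx⟩
    exact ⟨exists_pow_mul_isIntegral hq hr, hx⟩

end Fermat.Agent.GL.IntegralBridge
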