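import Mathlib
import Fermat.Agent.GL.Red.BRingK0
import Fermat.Agent.GL.Red.IntegralBridge
import Fermat.Agent.GL.Frame.FrameInst
import Fermat.Agent.GL.Frame.GaussExtBridge
import Fermat.Agent.GL.Val.L1eJC
import Fermat.Agent.GL.Val.L1eThm

/-!
# GATE-L / BRING-CHART : the chart ring `B_j` over `R₀` in valuation form (helper96)

`A | q` a valuation subring of `ℚ̄`, `K₀ = ℚ̄^{I_A}`, `R₀ = A ∩ K₀` (a DVR), `F₀ = K₀(X₀(N))`,
`B_j = chartRing (R0 A) (jC N (K0 A))` = the integral closure of `R₀[j]` in `F₀` (helper80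
`FrameInst`).  By helper75's NOEXT (`L1eLower`, `L1eThm`), helper90's `GaussExtBridge` and
`IntegralBridge.isIntegral_adjoin_iff_regFin_of_family` :

* `mem_chartRing_jC_iff_of_family` : generic form, for a family `W` exhausting the Gauss points;
* `mem_chartRing_jC_iff_one` (`q ∤ N`) : `x ∈ B_j ↔ RegFin K₀ j x ∧ w₁ x ≥ 0`;
* `mem_chartRing_jC_iff_two` (`q ∥ N`) : `x ∈ B_j ↔ RegFin K₀ j x ∧ w₁ x ≥ 0 ∧ w₂ x ≥ 0`;
* `mem_chartRing_jC_iff_three` (`N = M' q²`) : `… ∧ w₁ x ≥ 0 ∧ w₂ x ≥ 0 ∧ w₃ x ≥ 0`;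
* `bRingK0_eq_chartRing` : **`BRingK0 N' ℓ A h = chartRing (R0 A) (jC (N' ℓ) (K0 A))`**, hence
  `isNoetherianRing_BRingK0`, `isIntegrallyClosed_BRingK0`, `isFractionRing_BRingK0`,
  `mem_BRingK0_iff_isIntegral`, `bRingK0Equiv`;
* `redC1K0_eq_zero_iff` : `ker redC1K0 = {w₁ > 0}` (twin of `BRingK0.mem_P2K0_iff`);
* helpers: `isScalarTower_R0`, `finiteDimensional_jC`, `isSeparable_jC`, `transcendental_jC_K0`,
  `transcendental_jC_R0`, `q0_dvd_of_not_isUnit`, `isAlgebraic_adjoin`.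
-/

set_option autoImplicit false
set_option linter.unusedSectionVars false
set_option linter.style.haveILetI false
set_option synthInstance.maxHeartbeats 400000

noncomputable section

namespace Fermat.Agent.GL.BRingChart

open ModularCurve IntermediateField Polynomial IsLocalRing
open Fermat.Agent.GJ.J1
open Fermat.Agent.GK.AL Fermat.Agent.GL.AL
open Fermat.Agent.GL.Val.GaussK0 Fermat.Agent.GL.Val.SecondK0 Fermat.Agent.GL.Val.DegBase
open Fermat.Agent.GL.GaussAt Fermat.Agent.GL.IntClosureSplit Fermat.Agent.GL.GaussExtBridge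
open Fermat.Agent.GL.Frame.Inst
open Fermat.Agent.GL.Val.GaussAtK0 Fermat.Agent.GL.Val.L1eAsmK0 Fermat.Agent.GL.Val.L1eLower
open Fermat.Agent.GL.Val.L1eJC Fermat.Agent.GL.Val.SecondK0Hall Fermat.Agent.GL.Val.ThirdK0
open Fermat.Agent.GL.W3
open Fermat.Agent.GJ.J1.Val Fermat.Agent.GK.QS Fermat.Agent.GK.Red Fermat.Agent.GK.MultiVal
open Fermat.Agent.Common_helper32

/-! ### generic: `F` is algebraic over `R[t]` -/

section Generic

variable {R K F : Type*} [CommRing R] [IsDomain R] [Field K] [Field F]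
  [Algebra R K] [IsFractionRing R K] [Algebra K F] [Algebra R F] [IsScalarTower R K F]

theorem isAlgebraic_adjoin (t : F) [FiniteDimensional (IntermediateField.adjoin K {t}) F] :
    Algebra.IsAlgebraic (Algebra.adjoin R {t}) F := by
  letI := algAdjoinK (R := R) (K := K) t
  haveI := isFractionRing_adjoinK (R := R) (K := K) t
  haveI := isScalarTower_adjoinK (R := R) (K := K) t
  exact (IsFractionRing.comap_isAlgebraic_iff (A := Algebra.adjoin R {t})
    (K := IntermediateField.adjoin K {t}) (C := F)).2 inferInstance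

end Generic

variable (A : ValuationSubring Qb) (N : ℕ) [NeZero N]

local notation "F0" => modularFunctionFieldFullC (K0 A) N

/-- the scalar tower `R₀ → K₀ → K₀(X₀(N))` (instance search is slow here) -/
theorem isScalarTower_R0 : IsScalarTower (R0 A) (K0 A) F0 :=
  IsScalarTower.of_algebraMap_eq fun _ => rfl

theorem finiteDimensional_jC : FiniteDimensional (K0 A)⟮jC N (K0 A)⟯ F0 :=
  finiteDimensional_fullC N (K0 A)

theorem isSeparable_jC : Algebra.IsSeparable (K0 A)⟮jC N (K0 A)⟯ F0 := by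
  haveI := finiteDimensional_jC A N
  haveI : CharZero (K0 A)⟮jC N (K0 A)⟯ :=
    charZero_of_injective_algebraMap (algebraMap (K0 A) _).injective
  infer_instance

/-- `j` is transcendental over `K₀` -/
theorem transcendental_jC_K0 : Transcendental (K0 A) (jC N (K0 A)) := by
  rw [transcendental_iff]
  intro f hf
  by_contra hne
  exact (Fermat.Agent.GL.Val.GaussAtK0.isGaussAt_Rw1K0 A N).aeval_ne_zero hne hf

/-- `j` is transcendental over `R₀` -/
theorem transcendental_jC_R0 : Transcendental (R0 A) (jC N (K0 A)) := by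
  haveI := isScalarTower_R0 A N
  intro halg
  exact transcendental_jC_K0 A N
    (halg.extendScalars (S := K0 A) (IsFractionRing.injective (R0 A) (K0 A)))

section Prime

variable {q : ℕ} (hq : q.Prime) (hA : A.LiesOverPrime q)

include hq hA in
/-- every non-unit of `R₀` is divisible by `q` -/
theorem q0_dvd_of_not_isUnit (a : R0 A) (ha : ¬ IsUnit a) : q0 A q ∣ a := by
  haveI := isDiscreteValuationRing_R0 A hq hA
  have h1 := (IsDiscreteValuationRing.irreducible_iff_uniformizer _).1 (irreducible_q0 A hq hA)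
  have h2 : a ∈ maximalIdeal (R0 A) := (mem_maximalIdeal a).2 ha
  rw [h1, Ideal.mem_span_singleton] at h2
  exact h2

variable {ι : Type*} (W : ι → ValuationSubring (modularFunctionFieldFullC (K0 A) N))

include hq hA in
/-- **the chart ring `B_j` over `R₀` in valuation form** : for a family `W` of valuation subrings
of `K₀(X₀(N))` over `R₀`, Gauss at `j`, and exhausting the Gauss points (NOEXT, helper75),
`x` is integral over `R₀[j]` iff it is integral over `K₀[j]` and lies in every `W i`. -/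
theorem mem_chartRing_jC_iff_of_family
    (hWover : ∀ i, ∀ a : K0 A, algebraMap (K0 A) F0 a ∈ W i ↔ a ∈ R0 A)
    (hWG : ∀ i, IsGaussAt (R0 A) (W i) (jC N (K0 A)))
    (hnoext : ∀ V : ValuationSubring F0,
      (∀ a : K0 A, algebraMap (K0 A) F0 a ∈ V ↔ a ∈ R0 A) →
        IsGaussAt (R0 A) V (jC N (K0 A)) → ∃ i, V = W i) (x : F0) :
    x ∈ chartRing (R0 A) (jC N (K0 A)) ↔
      RegFin (K0 A) (jC N (K0 A)) x ∧ ∀ i, x ∈ W i := by
  haveI := isScalarTower_R0 A N
  haveI := isDiscreteValuationRing_R0 A hq hA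
  haveI := finiteDimensional_jC A N
  haveI : Algebra.IsAlgebraic (Algebra.adjoin (R0 A) {jC N (K0 A)}) F0 :=
    isAlgebraic_adjoin (K := K0 A) (jC N (K0 A))
  have hirr := irreducible_q0 A hq hA
  have hgen := q0_dvd_of_not_isUnit A hq hA
  rw [mem_icRing]
  refine Fermat.Agent.GL.IntegralBridge.isIntegral_adjoin_iff_regFin_of_family hirr
    (transcendental_jC_R0 A N) W (fun i g => ?_) (fun V hV => ?_) x
  · rw [← aeval_map_subtype]
    exact aeval_map_mem (hWover i) (hWG i).1 g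
  · obtain ⟨i, hi⟩ := hnoext V (over_of_isGaussExt hgen hV)
      (isGaussAt_of_isGaussExt hirr.not_isUnit hV)
    exact ⟨i, hi ▸ le_rfl⟩

end Prime

/-! ### `q ∤ N` : one vertical valuation -/

section One

variable {q : ℕ} (hq : q.Prime) (hA : A.LiesOverPrime q) (hqN : ¬ q ∣ N)

include hq hA hqN in
/-- **`q ∤ N`** : the chart ring `B_j` of level `N` over `R₀` is `{RegFin, w₁ ≥ 0}`. -/
theorem mem_chartRing_jC_iff_one (x : F0) :
    x ∈ chartRing (R0 A) (jC N (K0 A)) ↔ RegFin (K0 A) (jC N (K0 A)) x ∧ x ∈ RwK0 A N := by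
  have key := mem_chartRing_jC_iff_of_family A N hq hA (fun _ : Unit => RwK0 A N)
    (fun _ => over_Rw1K0 A hq hA) (fun _ => isGaussAt_Rw1K0 A N)
    (fun V hV hG => ⟨(), eq_Rw1K0_of_isGaussAt_jC A N hq hA hqN hV hG⟩) x
  rw [key]
  exact ⟨fun hx => ⟨hx.1, hx.2 ()⟩, fun hx => ⟨hx.1, fun _ => hx.2⟩⟩

end One

/-! ### `q ∥ N` : two vertical valuations -/

section Two

variable {q : ℕ} (h : ExactDvd q N) (hA : A.LiesOverPrime q)

include hA in
/-- **`q ∥ N`** : the chart ring `B_j` of level `N` over `R₀` is `{RegFin, w₁ ≥ 0, w₂ ≥ 0}`. -/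
theorem mem_chartRing_jC_iff_two (x : F0) :
    x ∈ chartRing (R0 A) (jC N (K0 A)) ↔
      RegFin (K0 A) (jC N (K0 A)) x ∧ x ∈ RwK0 A N ∧ x ∈ (redData2K0 A N h).Rw := by
  have hq := h.prime
  have key := mem_chartRing_jC_iff_of_family A N hq hA (W2 A N h)
    (fun i => by
      fin_cases i
      · exact over_Rw1K0 A hq hA
      · exact fun a => ((redData2K0 A N h).mem_A_iff a).symm)
    (fun i => by
      have := isGaussAt_W2 A N h i
      rwa [Fermat.Agent.GL.Val.OrthK0.jK0_eq_jC] at this)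
    (fun V hV hG => by
      rcases exists_eq_W2_of_isGaussAt_jC A N h hA hV hG with h1 | h1
      · exact ⟨0, h1⟩
      · exact ⟨1, h1⟩) x
  rw [key, Fin.forall_fin_two]
  rfl

end Two

/-! ### `N = M' q²` : three vertical valuations -/

section Three

variable {q M' : ℕ} [NeZero M'] (hq : q.Prime) (hN : N = M' * q ^ 2) (hqM : ¬ q ∣ M')
  (hA : A.LiesOverPrime q) (h : HallDvd (q ^ 2) N)

include hq hN hqM hA in
/-- **`N = M' q²`** : the chart ring `B_j` of level `N` over `R₀` is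
`{RegFin, w₁ ≥ 0, w₂ ≥ 0, w₃ ≥ 0}`. -/
theorem mem_chartRing_jC_iff_three (x : F0) :
    x ∈ chartRing (R0 A) (jC N (K0 A)) ↔
      RegFin (K0 A) (jC N (K0 A)) x ∧ x ∈ RwK0 A N ∧ x ∈ (redData2QK0 A N h).Rw ∧
        x ∈ Rw3K0 A N q := by
  have hq2 : q ^ 2 * 1 ∣ N := by rw [mul_one, hN]; exact dvd_mul_left _ _
  haveI : NeZero (q ^ 2 * 1) := ⟨by rw [mul_one]; exact pow_ne_zero 2 hq.ne_zero⟩
  have key := mem_chartRing_jC_iff_of_family A N hq hA
    ![RwK0 A N, (redData2QK0 A N h).Rw, Rw3K0 A N q]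
    (fun i => by
      fin_cases i
      · exact over_Rw1K0 A hq hA
      · exact fun a => ((redData2QK0 A N h).mem_A_iff a).symm
      · exact (isRamified_Rw3K0 A hq hN hqM hA (one_dvd M') hq2 (one_dvd N)).mem_iff)
    (fun i => by
      fin_cases i
      · exact isGaussAt_Rw1K0 A N
      · exact isGaussAt_Rw2QK0 A h
      · exact isGaussAt_Rw3K0 A q)
    (fun V hV hG => by
      rcases Fermat.Agent.GL.Val.L1eThm.exists_eq_of_isGaussAt_jC A hq hN hqM hA h hV hG with
        h1 | h1 | h1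
      · exact ⟨0, h1⟩
      · exact ⟨1, h1⟩
      · exact ⟨2, h1⟩) x
  rw [key, Fin.forall_fin_succ, Fin.forall_fin_two]
  rfl

end Three

/-! ### The ring `BRingK0` of GATE-K over `R₀` is the chart ring -/

section BRing

open Fermat.Agent.GL.BRingK0

variable {A} {N' : ℕ} [NeZero N'] {ℓ : ℕ} [Fact ℓ.Prime] [NeZero ℓ]
  (h : ExactDvd ℓ (N' * ℓ)) (hA : A.LiesOverPrime ℓ)

include hA in
/-- **`BRingK0 = B_j`** : the ring `B` of level `N' ℓ` over `R₀` is the integral closure of `R₀[j]`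
in `K₀(X₀(N' ℓ))` (helper80's `chartRing`). -/
theorem bRingK0_eq_chartRing :
    BRingK0 N' ℓ A h = chartRing (R0 A) (jC (N' * ℓ) (K0 A)) := by
  ext x
  rw [mem_BRingK0, mem_chartRing_jC_iff_two A (N' * ℓ) h hA]

include hA in
theorem mem_BRingK0_iff_isIntegral {x : modularFunctionFieldFullC (K0 A) (N' * ℓ)} :
    x ∈ BRingK0 N' ℓ A h ↔ IsIntegral (Algebra.adjoin (R0 A) {jC (N' * ℓ) (K0 A)}) x := by
  rw [bRingK0_eq_chartRing h hA]
  exact mem_icRing (R0 A)

include hA in
/-- **`BRingK0` is noetherian** -/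
theorem isNoetherianRing_BRingK0 : IsNoetherianRing (BRingK0 N' ℓ A h) := by
  haveI := isScalarTower_R0 A (N' * ℓ)
  haveI := isDiscreteValuationRing_R0 A h.prime hA
  haveI := finiteDimensional_jC A (N' * ℓ)
  haveI := isSeparable_jC A (N' * ℓ)
  rw [bRingK0_eq_chartRing h hA]
  exact isNoetherianRing_chartRing (K := K0 A) _ (transcendental_jC_R0 A (N' * ℓ))

include hA in
/-- **`BRingK0` is integrally closed** -/
theorem isIntegrallyClosed_BRingK0 : IsIntegrallyClosed (BRingK0 N' ℓ A h) := by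
  haveI := isScalarTower_R0 A (N' * ℓ)
  haveI := isDiscreteValuationRing_R0 A h.prime hA
  haveI := finiteDimensional_jC A (N' * ℓ)
  haveI := isSeparable_jC A (N' * ℓ)
  rw [bRingK0_eq_chartRing h hA]
  exact isIntegrallyClosed_chartRing (K := K0 A) _ (transcendental_jC_R0 A (N' * ℓ))

include hA in
/-- **`K₀(X₀(N' ℓ))` is the fraction field of `BRingK0`** -/
theorem isFractionRing_BRingK0 :
    IsFractionRing (BRingK0 N' ℓ A h) (modularFunctionFieldFullC (K0 A) (N' * ℓ)) := by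
  haveI := isScalarTower_R0 A (N' * ℓ)
  haveI := isDiscreteValuationRing_R0 A h.prime hA
  haveI := finiteDimensional_jC A (N' * ℓ)
  haveI := isSeparable_jC A (N' * ℓ)
  rw [bRingK0_eq_chartRing h hA]
  exact isFractionRing_chartRing (K := K0 A) _ (transcendental_jC_R0 A (N' * ℓ))

/-- the ring isomorphism `BRingK0 ≃ B_j` (identity on elements of `K₀(X₀(N' ℓ))`) -/
def bRingK0Equiv : BRingK0 N' ℓ A h ≃+* chartRing (R0 A) (jC (N' * ℓ) (K0 A)) :=
  RingEquiv.subringCongr (bRingK0_eq_chartRing h hA)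

@[simp] theorem coe_bRingK0Equiv (x : BRingK0 N' ℓ A h) :
    ((bRingK0Equiv h hA x : chartRing (R0 A) (jC (N' * ℓ) (K0 A))) :
      modularFunctionFieldFullC (K0 A) (N' * ℓ)) = x := rfl

@[simp] theorem coe_bRingK0Equiv_symm (x : chartRing (R0 A) (jC (N' * ℓ) (K0 A))) :
    (((bRingK0Equiv h hA).symm x : BRingK0 N' ℓ A h) :
      modularFunctionFieldFullC (K0 A) (N' * ℓ)) = x := rfl

variable (hℓN : ¬ ℓ ∣ N')

/-- `P'₁ = ker redC1K0 = {x0 ∈ B_R | w₁ x0 > 0}` (twin of `mem_P2K0_iff`) -/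
theorem redC1K0_eq_zero_iff {x0 : BRingK0 N' ℓ A h} :
    redC1K0 h hℓN hA x0 = 0 ↔
      (x0 : modularFunctionFieldFullC (K0 A) (N' * ℓ)) ∈ (RwK0 A (N' * ℓ)).nonunits := by
  rw [mem_nonunits_Rw1K0_iff]
  have hx1 : mapK0Bar A (N' * ℓ) (x0 : modularFunctionFieldFullC (K0 A) (N' * ℓ)) ∈
      (redDataBar (N' * ℓ) A).Rw := (toBRing N' ℓ A h x0).2.2.1
  constructor
  · intro h0
    have h1 : rho1 N' ℓ A h (toBRing N' ℓ A h x0) = 0 := by
      rw [← cVal_redC1K0 h hℓN hA, h0, map_zero]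
    rw [rho1_apply] at h1
    have h2 : (redDataBar (N' * ℓ) A).red ⟨mapK0Bar A (N' * ℓ)
        (x0 : modularFunctionFieldFullC (K0 A) (N' * ℓ)), hx1⟩ = 0 := Subtype.ext h1
    have h3 := ((redDataBar (N' * ℓ) A).red_eq_zero_iff _).1 h2
    rw [ValuationSubring.mem_nonunits_iff]
    exact (ValuationSubring.valuation_lt_one_iff _ _).1 h3
  · intro hn
    rw [ValuationSubring.mem_nonunits_iff] at hn
    have h3 : (⟨mapK0Bar A (N' * ℓ) (x0 : modularFunctionFieldFullC (K0 A) (N' * ℓ)), hx1⟩ :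
        (redDataBar (N' * ℓ) A).Rw) ∈ IsLocalRing.maximalIdeal (redDataBar (N' * ℓ) A).Rw :=
      (ValuationSubring.valuation_lt_one_iff _ _).2 hn
    have h2 := ((redDataBar (N' * ℓ) A).red_eq_zero_iff _).2 h3
    refine cVal_injective N' A ?_
    rw [cVal_redC1K0, map_zero, rho1_apply]
    exact congrArg Subtype.val h2

end BRing

end Fermat.Agent.GL.BRingChart
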