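import Mathlib
import Fermat.Agent.GL.Red.BRingChart
import Fermat.Agent.GL.Frame.FrameInstVal

/-!
# GATE-L / BRING-CHART-INV : the chart rings `B_t` over `R₀` in valuation form, `t = 1/j` and
general charts (helper96)

Same setting as `GL/Red/BRingChart.lean`.  For a chart `t ∈ F₀ = K₀(X₀(N))` whose Gauss points are
Gauss points at `j` (and conversely on the vertical family `W`), `B_t = chartRing (R0 A) t` is
`{x | RegFin K₀ t x ∧ ∀ i, x ∈ W i}` :

* `mem_chartRing_iff_of_family_chart` : generic form;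
* `jC_ne_zero`, `finiteDimensional_jC_inv`, `isSeparable_jC_inv`, `transcendental_jC_inv_R0`;
* `mem_chartRing_jC_inv_iff_one` (`q ∤ N`), `mem_chartRing_jC_inv_iff_two` (`q ∥ N`),
  `mem_chartRing_jC_inv_iff_three` (`N = M' q²`) : the chart `t = 1/j`.
-/

set_option autoImplicit false
set_option linter.unusedSectionVars false
set_option linter.style.haveILetI false
set_option synthInstance.maxHeartbeats 400000

noncomputable section

namespace Fermat.Agent.GL.BRingChartInv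

open ModularCurve IntermediateField Polynomial IsLocalRing
open Fermat.Agent.GJ.J1 Fermat.Agent.GJ.J1.Val
open Fermat.Agent.GK.AL Fermat.Agent.GL.AL
open Fermat.Agent.GL.Val.GaussK0 Fermat.Agent.GL.Val.SecondK0 Fermat.Agent.GL.Val.DegBase
open Fermat.Agent.GL.GaussAt Fermat.Agent.GL.IntClosureSplit Fermat.Agent.GL.GaussExtBridge
open Fermat.Agent.GL.Frame.Inst Fermat.Agent.GL.Frame.InstVal
open Fermat.Agent.GL.Val.GaussAtK0 Fermat.Agent.GL.Val.L1eAsmK0 Fermat.Agent.GL.Val.L1eLower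
open Fermat.Agent.GL.Val.L1eJC Fermat.Agent.GL.Val.SecondK0Hall Fermat.Agent.GL.Val.ThirdK0
open Fermat.Agent.GL.W3
open Fermat.Agent.GL.BRingChart
open Fermat.Agent.Common_helper32

variable (A : ValuationSubring Qb) (N : ℕ) [NeZero N]

local notation "F0" => modularFunctionFieldFullC (K0 A) N

section Prime

variable {q : ℕ} (hq : q.Prime) (hA : A.LiesOverPrime q)

variable {ι : Type*} (W : ι → ValuationSubring (modularFunctionFieldFullC (K0 A) N))

include hq hA in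
/-- **the chart ring `B_t` over `R₀` in valuation form**, for a chart `t` whose Gauss points are
Gauss points at `j`. -/
theorem mem_chartRing_iff_of_family_chart {t : modularFunctionFieldFullC (K0 A) N}
    [FiniteDimensional (K0 A)⟮t⟯ (modularFunctionFieldFullC (K0 A) N)]
    (hWover : ∀ i, ∀ a : K0 A, algebraMap (K0 A) F0 a ∈ W i ↔ a ∈ R0 A)
    (hWG : ∀ i, IsGaussAt (R0 A) (W i) t)
    (hfrom : ∀ V : ValuationSubring F0, (∀ a : K0 A, algebraMap (K0 A) F0 a ∈ V ↔ a ∈ R0 A) →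
      IsGaussAt (R0 A) V t → IsGaussAt (R0 A) V (jC N (K0 A)))
    (hnoext : ∀ V : ValuationSubring F0,
      (∀ a : K0 A, algebraMap (K0 A) F0 a ∈ V ↔ a ∈ R0 A) →
        IsGaussAt (R0 A) V (jC N (K0 A)) → ∃ i, V = W i) (i₀ : ι) (x : F0) :
    x ∈ chartRing (R0 A) t ↔ RegFin (K0 A) t x ∧ ∀ i, x ∈ W i := by
  haveI := isScalarTower_R0 A N
  haveI := isDiscreteValuationRing_R0 A hq hA
  haveI : Algebra.IsAlgebraic (Algebra.adjoin (R0 A) {t}) F0 :=
    isAlgebraic_adjoin (K := K0 A) t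
  have hirr := irreducible_q0 A hq hA
  have hgen := q0_dvd_of_not_isUnit A hq hA
  rw [mem_icRing]
  refine Fermat.Agent.GL.IntegralBridge.isIntegral_adjoin_iff_regFin_of_family hirr
    (transcendental_of_isGaussAt (hWG i₀)) W (fun i g => ?_) (fun V hV => ?_) x
  · rw [← aeval_map_subtype]
    exact aeval_map_mem (hWover i) (hWG i).1 g
  · exact exists_le_of_chain hirr.not_isUnit hgen W hnoext hfrom V hV

end Prime

/-! ### the chart `1/j` -/

theorem jC_ne_zero : jC N (K0 A) ≠ 0 := by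
  intro h0
  have h1 := transcendental_jC_K0 A N
  rw [h0] at h1
  exact h1 isAlgebraic_zero

theorem finiteDimensional_jC_inv : FiniteDimensional (K0 A)⟮(jC N (K0 A))⁻¹⟯ F0 := by
  haveI := finiteDimensional_jC A N
  exact finiteDimensional_adjoin_inv (K := K0 A) (jC N (K0 A))

theorem isSeparable_jC_inv : Algebra.IsSeparable (K0 A)⟮(jC N (K0 A))⁻¹⟯ F0 := by
  haveI := finiteDimensional_jC_inv A N
  haveI : CharZero (K0 A)⟮(jC N (K0 A))⁻¹⟯ :=
    charZero_of_injective_algebraMap (algebraMap (K0 A) _).injective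
  infer_instance

theorem transcendental_jC_inv_R0 : Transcendental (R0 A) (jC N (K0 A))⁻¹ := by
  haveI := isScalarTower_R0 A N
  exact transcendental_of_isGaussAt
    (isGaussAt_inv (fun a => algebraMap_mem_Rw_iff (hGF := _) a) (jC_ne_zero A N)
      (isGaussAt_Rw1K0 A N))

/-- Gauss at `j` ⟹ Gauss at `1/j` (over `R₀`) -/
theorem isGaussAt_jC_inv {V : ValuationSubring (modularFunctionFieldFullC (K0 A) N)}
    (hV : ∀ a : K0 A, algebraMap (K0 A) F0 a ∈ V ↔ a ∈ R0 A)
    (hj : IsGaussAt (R0 A) V (jC N (K0 A))) : IsGaussAt (R0 A) V (jC N (K0 A))⁻¹ :=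
  isGaussAt_inv hV (jC_ne_zero A N) hj

/-- Gauss at `1/j` ⟹ Gauss at `j` (over `R₀`) -/
theorem isGaussAt_jC_of_inv {V : ValuationSubring (modularFunctionFieldFullC (K0 A) N)}
    (hV : ∀ a : K0 A, algebraMap (K0 A) F0 a ∈ V ↔ a ∈ R0 A)
    (hj : IsGaussAt (R0 A) V (jC N (K0 A))⁻¹) : IsGaussAt (R0 A) V (jC N (K0 A)) :=
  isGaussAt_of_inv hV (jC_ne_zero A N) hj

section Family

variable {q : ℕ} (hq : q.Prime) (hA : A.LiesOverPrime q)

variable {ι : Type*} (W : ι → ValuationSubring (modularFunctionFieldFullC (K0 A) N))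

include hq hA in
/-- the chart ring `B_{1/j}` over `R₀` in valuation form, generic family -/
theorem mem_chartRing_jC_inv_iff_of_family
    (hWover : ∀ i, ∀ a : K0 A, algebraMap (K0 A) F0 a ∈ W i ↔ a ∈ R0 A)
    (hWG : ∀ i, IsGaussAt (R0 A) (W i) (jC N (K0 A)))
    (hnoext : ∀ V : ValuationSubring F0,
      (∀ a : K0 A, algebraMap (K0 A) F0 a ∈ V ↔ a ∈ R0 A) →
        IsGaussAt (R0 A) V (jC N (K0 A)) → ∃ i, V = W i) (i₀ : ι) (x : F0) :
    x ∈ chartRing (R0 A) (jC N (K0 A))⁻¹ ↔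
      RegFin (K0 A) (jC N (K0 A))⁻¹ x ∧ ∀ i, x ∈ W i := by
  haveI := finiteDimensional_jC_inv A N
  exact mem_chartRing_iff_of_family_chart A N hq hA W hWover
    (fun i => isGaussAt_jC_inv A N (hWover i) (hWG i))
    (fun V hV hG => isGaussAt_jC_of_inv A N hV hG) hnoext i₀ x

end Family

section One

variable {q : ℕ} (hq : q.Prime) (hA : A.LiesOverPrime q) (hqN : ¬ q ∣ N)

include hq hA hqN in
/-- **`q ∤ N`** : the chart ring `B_{1/j}` of level `N` over `R₀` is `{RegFin (1/j), w₁ ≥ 0}`. -/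
theorem mem_chartRing_jC_inv_iff_one (x : F0) :
    x ∈ chartRing (R0 A) (jC N (K0 A))⁻¹ ↔
      RegFin (K0 A) (jC N (K0 A))⁻¹ x ∧ x ∈ RwK0 A N := by
  have key := mem_chartRing_jC_inv_iff_of_family A N hq hA (fun _ : Unit => RwK0 A N)
    (fun _ => over_Rw1K0 A hq hA) (fun _ => isGaussAt_Rw1K0 A N)
    (fun V hV hG => ⟨(), eq_Rw1K0_of_isGaussAt_jC A N hq hA hqN hV hG⟩) () x
  rw [key]
  exact ⟨fun hx => ⟨hx.1, hx.2 ()⟩, fun hx => ⟨hx.1, fun _ => hx.2⟩⟩

end One

section Two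

variable {q : ℕ} (h : ExactDvd q N) (hA : A.LiesOverPrime q)

include hA in
/-- **`q ∥ N`** : the chart ring `B_{1/j}` of level `N` over `R₀` is
`{RegFin (1/j), w₁ ≥ 0, w₂ ≥ 0}`. -/
theorem mem_chartRing_jC_inv_iff_two (x : F0) :
    x ∈ chartRing (R0 A) (jC N (K0 A))⁻¹ ↔
      RegFin (K0 A) (jC N (K0 A))⁻¹ x ∧ x ∈ RwK0 A N ∧ x ∈ (redData2K0 A N h).Rw := by
  have hq := h.prime
  have key := mem_chartRing_jC_inv_iff_of_family A N hq hA (W2 A N h)
    (fun i => by
      fin_cases i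
      · exact over_Rw1K0 A hq hA
      · exact fun a => ((redData2K0 A N h).mem_A_iff a).symm)
    (fun i => by
      have := isGaussAt_W2 A N h i
      rwa [Fermat.Agent.GL.Val.OrthK0.jK0_eq_jC] at this)
    (fun V hV hG => by
      rcases exists_eq_W2_of_isGaussAt_jC A N h hA hV hG with h1 | h1
      · exact ⟨0, h1⟩
      · exact ⟨1, h1⟩) 0 x
  rw [key, Fin.forall_fin_two]
  rfl

end Two

section Three

variable {q M' : ℕ} [NeZero M'] (hq : q.Prime) (hN : N = M' * q ^ 2) (hqM : ¬ q ∣ M')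
  (hA : A.LiesOverPrime q) (h : HallDvd (q ^ 2) N)

include hq hN hqM hA in
/-- **`N = M' q²`** : the chart ring `B_{1/j}` of level `N` over `R₀` is
`{RegFin (1/j), w₁ ≥ 0, w₂ ≥ 0, w₃ ≥ 0}`. -/
theorem mem_chartRing_jC_inv_iff_three (x : F0) :
    x ∈ chartRing (R0 A) (jC N (K0 A))⁻¹ ↔
      RegFin (K0 A) (jC N (K0 A))⁻¹ x ∧ x ∈ RwK0 A N ∧ x ∈ (redData2QK0 A N h).Rw ∧
        x ∈ Rw3K0 A N q := by
  have hq2 : q ^ 2 * 1 ∣ N := by rw [mul_one, hN]; exact dvd_mul_left _ _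
  haveI : NeZero (q ^ 2 * 1) := ⟨by rw [mul_one]; exact pow_ne_zero 2 hq.ne_zero⟩
  have key := mem_chartRing_jC_inv_iff_of_family A N hq hA
    ![RwK0 A N, (redData2QK0 A N h).Rw, Rw3K0 A N q]
    (fun i => by
      fin_cases i
      · exact over_Rw1K0 A hq hA
      · exact fun a => ((redData2QK0 A N h).mem_A_iff a).symm
      · exact (isRamified_Rw3K0 A hq hN hqM hA (one_dvd M') hq2 (one_dvd N)).mem_iff)
    (fun i => by
      fin_cases i
      · exact isGaussAt_Rw1K0 A N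
      · exact isGaussAt_Rw2QK0 A h
      · exact isGaussAt_Rw3K0 A q)
    (fun V hV hG => by
      rcases Fermat.Agent.GL.Val.L1eThm.exists_eq_of_isGaussAt_jC A hq hN hqM hA h hV hG with
        h1 | h1 | h1
      · exact ⟨0, h1⟩
      · exact ⟨1, h1⟩
      · exact ⟨2, h1⟩) 0 x
  rw [key, Fin.forall_fin_succ, Fin.forall_fin_two]
  rfl

end Three

end Fermat.Agent.GL.BRingChartInv
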