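import Fermat.Agent.GL.Red.BRingK0Inv
import Fermat.Agent.GL.Red.BRingChartInv

/-!
# GATE-L / BRING-K0-INV, chart form (helper30)

`BRingK0Inv N' ℓ A h` (level `N' ℓ`, `ℓ ∥ N' ℓ`, two vertical components) IS helper80's chart ring
`chartRing (R0 A) (1/j)` = the integral closure of `R₀[1/j]` in `K₀(X₀(N' ℓ))`
(helper96 `BRingChartInv.mem_chartRing_jC_inv_iff_two`); hence it is noetherian, integrally closed
and has fraction field `K₀(X₀(N' ℓ))`.
-/

set_option autoImplicit false
set_option linter.unusedSectionVars false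
set_option linter.style.haveILetI false
set_option synthInstance.maxHeartbeats 400000

noncomputable section

namespace Fermat.Agent.GL.Red.BRingK0InvChart

open ModularCurve
open Fermat.Agent.GJ.J1
open Fermat.Agent.GK.AL
open Fermat.Agent.GL.Val.GaussK0 Fermat.Agent.GL.Val.SecondK0 Fermat.Agent.GL.Val.DegBase
open Fermat.Agent.GL.Frame.Inst
open Fermat.Agent.GL.BRingChart Fermat.Agent.GL.BRingChartInv
open Fermat.Agent.GL.Red.BRingK0Inv
open Fermat.Agent.Common_helper32

variable {A : ValuationSubring Qb} {N' : ℕ} [NeZero N'] {ℓ : ℕ} [Fact ℓ.Prime] [NeZero ℓ]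
  (h : ExactDvd ℓ (N' * ℓ)) (hA : A.LiesOverPrime ℓ)

include hA in
/-- **`BRingK0Inv = B_{1/j}`** : the ring `B∞` of level `N' ℓ` over `R₀` is the integral closure of
`R₀[1/j]` in `K₀(X₀(N' ℓ))` (helper80's `chartRing`). -/
theorem bRingK0Inv_eq_chartRing :
    BRingK0Inv N' ℓ A h = chartRing (R0 A) (jC (N' * ℓ) (K0 A))⁻¹ := by
  ext x
  rw [mem_BRingK0Inv, mem_chartRing_jC_inv_iff_two A (N' * ℓ) h hA]

include hA in
theorem mem_BRingK0Inv_iff_isIntegral {x : modularFunctionFieldFullC (K0 A) (N' * ℓ)} :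
    x ∈ BRingK0Inv N' ℓ A h ↔ IsIntegral (Algebra.adjoin (R0 A) {(jC (N' * ℓ) (K0 A))⁻¹}) x := by
  rw [bRingK0Inv_eq_chartRing h hA]
  exact mem_icRing (R0 A)

include hA in
/-- **`BRingK0Inv` is noetherian** -/
theorem isNoetherianRing_BRingK0Inv : IsNoetherianRing (BRingK0Inv N' ℓ A h) := by
  haveI := isScalarTower_R0 A (N' * ℓ)
  haveI := isDiscreteValuationRing_R0 A h.prime hA
  haveI := finiteDimensional_jC_inv A (N' * ℓ)
  haveI := isSeparable_jC_inv A (N' * ℓ)
  rw [bRingK0Inv_eq_chartRing h hA]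
  exact isNoetherianRing_chartRing (K := K0 A) _ (transcendental_jC_inv_R0 A (N' * ℓ))

include hA in
/-- **`BRingK0Inv` is integrally closed** -/
theorem isIntegrallyClosed_BRingK0Inv : IsIntegrallyClosed (BRingK0Inv N' ℓ A h) := by
  haveI := isScalarTower_R0 A (N' * ℓ)
  haveI := isDiscreteValuationRing_R0 A h.prime hA
  haveI := finiteDimensional_jC_inv A (N' * ℓ)
  haveI := isSeparable_jC_inv A (N' * ℓ)
  rw [bRingK0Inv_eq_chartRing h hA]
  exact isIntegrallyClosed_chartRing (K := K0 A) _ (transcendental_jC_inv_R0 A (N' * ℓ))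

include hA in
/-- **`K₀(X₀(N' ℓ))` is the fraction field of `BRingK0Inv`** -/
theorem isFractionRing_BRingK0Inv :
    IsFractionRing (BRingK0Inv N' ℓ A h) (modularFunctionFieldFullC (K0 A) (N' * ℓ)) := by
  haveI := isScalarTower_R0 A (N' * ℓ)
  haveI := isDiscreteValuationRing_R0 A h.prime hA
  haveI := finiteDimensional_jC_inv A (N' * ℓ)
  haveI := isSeparable_jC_inv A (N' * ℓ)
  rw [bRingK0Inv_eq_chartRing h hA]
  exact isFractionRing_chartRing (K := K0 A) _ (transcendental_jC_inv_R0 A (N' * ℓ))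

end Fermat.Agent.GL.Red.BRingK0InvChart
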