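import Fermat.Agent.GL.Red.RatLiftK0
import Fermat.Agent.GL.Val.DegBase
import Fermat.Agent.GK.QS.BTildeFull
import Fermat.Agent.GK.Red.SurjFin

/-!
# GATE-L / L5e : `rd(B_R) = rd(B_A)` — the rings of GATE-K have `K₀`-rational representatives
(helper96)

`A | q` a valuation subring of `ℚ̄`, `K₀ = ℚ̄^{I_A}`, `R = A ∩ K₀`, `j₀ = jC N K₀` the `j`-function
of `K₀(X₀(N))`.

* `regFin_of_map` : descent of integrality over `K[s]` along an algebraic extension of constants;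
* `exists_rat_lift_w1_regFin` : `x ∈ F_N` integral over `ℚ̄[j]` with `w₁ x ≥ 0` has the same
  reduction as a `K₀`-rational `x0`, integral over `K₀[j₀]`, `w₁ x0 ≥ 0` (any level);
* `exists_rat_lift_BRing` : the same for helper15's ring `B = BRing N' ℓ A h` at `ℓ ∥ N' ℓ` and
  both reductions `ρ₁, ρ₂` — **`rd(B_R) = rd(B_A)`**;
* `exists_lift_K0` : **J1-SURJ over `R`** at a good level.

ORTH over `K₀` (helper45, `GL/Val/OrthK0.lean`) enters as the hypothesis `ho`.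
-/

set_option autoImplicit false
set_option linter.style.haveILetI false

noncomputable section

namespace Fermat.Agent.GL.RatBRing

open HahnSeries ModularCurve IsLocalRing
open Fermat.Agent.S24 Fermat.Agent.S24_helper62
open Fermat.Agent.GJ.J1 Fermat.Agent.GJ.J1.G1 Fermat.Agent.GJ.J1.Val Fermat.Agent.GJ.FiniteLevel
open Fermat.Agent.GK.AL Fermat.Agent.GK.MultiVal Fermat.Agent.GK.Red Fermat.Agent.GK.QS
open Fermat.Agent.GL.Val.GaussK0 Fermat.Agent.GL.Val.SecondK0 Fermat.Agent.GL.Val.DegBase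
open Fermat.Agent.GL.RatLiftK0
open Fermat.Agent.Common_helper32 Fermat.Agent.GJ.J1.Haupt Fermat.Agent.GJ.HN

/-! ### Generic lemmas -/

section Generic

/-- **descent of integrality over `K[s]`** along an algebraic extension `K₀ ⊆ K` of the constants:
a `K₀`-rational element which is integral over `K[s]` (`s` rational) is integral over `K₀[s]`. -/
theorem regFin_of_map {K0 K F0 F : Type*} [Field K0] [Field K] [Field F0] [Field F]
    [Algebra K0 F0] [Algebra K F] (ι0 : K0 →+* K) (ι : F0 →+* F)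
    (hι : ∀ a : K0, ι (algebraMap K0 F0 a) = algebraMap K F (ι0 a))
    (halg : ∀ c : K, ι0.IsIntegralElem c) {s0 x0 : F0}
    (h : RegFin K (ι s0) (ι x0)) : RegFin K0 s0 x0 := by
  let R := Algebra.adjoin K0 {s0}
  letI : Algebra R F := (ι.comp (algebraMap R F0)).toAlgebra
  have h1 : ∀ z ∈ Algebra.adjoin K {ι s0}, IsIntegral R z := by
    intro z hz
    induction hz using Algebra.adjoin_induction with
    | mem y hy =>
      rw [Set.mem_singleton_iff.mp hy]
      exact isIntegral_algebraMap (x := (⟨s0, Algebra.self_mem_adjoin_singleton K0 s0⟩ : R))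
    | algebraMap c =>
      obtain ⟨p, hp, hpc⟩ := halg c
      refine ⟨p.map (algebraMap K0 R), hp.map _, ?_⟩
      rw [Polynomial.eval₂_map]
      have hcomp : (algebraMap R F).comp (algebraMap K0 R) = (algebraMap K F).comp ι0 :=
        RingHom.ext fun a => by
          show ι ((algebraMap K0 R a : R) : F0) = algebraMap K F (ι0 a)
          rw [← hι]; rfl
      rw [hcomp, ← Polynomial.hom_eval₂, hpc, map_zero]
    | add _ _ _ _ hx hy => exact hx.add hy
    | mul _ _ _ _ hx hy => exact hx.mul hy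
  have h2 : IsIntegral R (ι x0) := by
    let θ : Algebra.adjoin K {ι s0} →+* integralClosure R F :=
      { toFun := fun z => ⟨(z : F), h1 z z.2⟩
        map_one' := rfl
        map_mul' := fun _ _ => rfl
        map_zero' := rfl
        map_add' := fun _ _ => rfl }
    have h3 : IsIntegral (integralClosure R F) (ι x0) := by
      have := IsIntegral.map_of_comp_eq θ (RingHom.id F) (RingHom.ext fun _ => rfl) h
      simpa using this
    exact isIntegral_trans _ h3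
  let ιa : F0 →ₐ[R] F := { ι with commutes' := fun r => rfl }
  exact (isIntegral_algHom_iff ιa ι.injective).mp h2

/-- integrality over `K₀[s]` goes up along a semilinear map -/
theorem regFin_map {K0 K F0 F : Type*} [Field K0] [Field K] [Field F0] [Field F]
    [Algebra K0 F0] [Algebra K F] (ι0 : K0 →+* K) (ι : F0 →+* F)
    (hι : ∀ a : K0, ι (algebraMap K0 F0 a) = algebraMap K F (ι0 a)) {s0 x0 : F0}
    (h : RegFin K0 s0 x0) : RegFin K (ι s0) (ι x0) := by
  have hmaps' : ∀ z ∈ Algebra.adjoin K0 {s0}, ι z ∈ Algebra.adjoin K {ι s0} := by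
    intro z hz
    induction hz using Algebra.adjoin_induction with
    | mem y hy =>
      rw [Set.mem_singleton_iff.mp hy]; exact Algebra.self_mem_adjoin_singleton K _
    | algebraMap c => rw [hι]; exact Subalgebra.algebraMap_mem _ _
    | add _ _ _ _ hx hy => rw [map_add]; exact add_mem hx hy
    | mul _ _ _ _ hx hy => rw [map_mul]; exact mul_mem hx hy
  have hmaps : ∀ z : Algebra.adjoin K0 {s0}, ι (z : F0) ∈ Algebra.adjoin K {ι s0} :=
    fun z => hmaps' z z.2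
  let θ : Algebra.adjoin K0 {s0} →+* Algebra.adjoin K {ι s0} :=
    (ι.comp (Algebra.adjoin K0 {s0}).val.toRingHom).codRestrict
      (Algebra.adjoin K {ι s0}).toSubring hmaps
  exact IsIntegral.map_of_comp_eq θ ι (RingHom.ext fun _ => rfl) h

variable {K F k Ft : Type*} [Field K] [Field F] [Algebra K F] [Field k] [Field Ft] [Algebra k Ft]

/-- congruent elements have the same reduction -/
theorem red_eq_of_valuation_sub_lt (R : RedData K F k Ft) {x y : F} (hx : x ∈ R.Rw)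
    (hy : y ∈ R.Rw) (h : R.Rw.valuation (x - y) < 1) : R.red ⟨y, hy⟩ = R.red ⟨x, hx⟩ := by
  have hm : (⟨x, hx⟩ - ⟨y, hy⟩ : R.Rw) ∈ IsLocalRing.maximalIdeal R.Rw :=
    (ValuationSubring.valuation_lt_one_iff R.Rw _).2 h
  have h0 := (R.red_eq_zero_iff _).2 hm
  rw [map_sub, sub_eq_zero] at h0
  exact h0.symm

end Generic

/-! ### The modular function fields -/

variable (A : ValuationSubring Qb) (N : ℕ) [NeZero N]

/-- `j` is `K₀`-rational -/
theorem mapK0Bar_jC : mapK0Bar A N (jC N (K0 A)) = jF N := by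
  rw [← genC_one_eq_jC N (K0 A) (R0 A), jF_eq_gen]
  exact mapK0Bar_genC A N (idxOne N)

theorem galF_jF (σ : Qb ≃ₐ[ℚ] Qb) : galF N σ (jF N) = jF N := by
  rw [jF_eq_gen, galF_gen]

theorem jF_ne_zero' : jF N ≠ 0 := fun h0 =>
  (Fermat.Agent.S24_helper62.isGen_jF N).1 (h0 ▸ isAlgebraic_zero)

theorem isIntegralElem_ι0 (c : Qb) : (ι0 A).IsIntegralElem c := by
  letI := algK0 A
  haveI := isAlgebraic_K0 A
  exact (Algebra.IsIntegral.isIntegral (R := K0 A) c)

/-- **integrality over `K₀[j₀]` can be tested over `ℚ̄`** -/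
theorem regFin_jC_iff (x0 : modularFunctionFieldFullC (K0 A) N) :
    RegFin (K0 A) (jC N (K0 A)) x0 ↔ RegFin Qb (jF N) (mapK0Bar A N x0) := by
  constructor
  · intro h
    have := regFin_map (ι0 A) (mapK0Bar A N) (mapK0Bar_algebraMap A N) h
    rwa [mapK0Bar_jC] at this
  · intro h
    refine regFin_of_map (ι0 A) (mapK0Bar A N) (mapK0Bar_algebraMap A N) (isIntegralElem_ι0 A) ?_
    rwa [mapK0Bar_jC]

section Main

variable {q : ℕ} (hq : q.Prime) (hA : (q : Qb) ∈ A.nonunits)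

include hq hA in
/-- **`K₀`-rational representatives for `w₁`** (any level): `x` integral over `ℚ̄[j]`, `w₁ x ≥ 0`
`⟹` a `K₀`-rational `x0`, integral over `K₀[j₀]`, `w₁ x0 ≥ 0`, with the same reduction. -/
theorem exists_rat_lift_w1_regFin
    (ho : HasOrthoBases (R0 A) (RwK0 A N).toSubring (vrad (RwK0 A N)))
    {x : FN N} (hx : x ∈ (redDataBar N A).Rw) (hr : RegFin Qb (jF N) x) :
    ∃ x0 : modularFunctionFieldFullC (K0 A) N, x0 ∈ RwK0 A N ∧
      RegFin (K0 A) (jC N (K0 A)) x0 ∧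
      ∃ hx0 : mapK0Bar A N x0 ∈ (redDataBar N A).Rw,
        (redDataBar N A).red ⟨mapK0Bar A N x0, hx0⟩ = (redDataBar N A).red ⟨x, hx⟩ := by
  obtain ⟨n0, hn0⟩ := regFin_mem_Lfib_large (jF_ne_zero' N) hr
  obtain ⟨x0, hx0, hx0L, hx0v⟩ := exists_rat_lift_w1 A N hq hA ho
    (fun σ _ => galF_jF N σ) (n0 : ℤ) hx (hn0 n0 le_rfl)
  have hx0' : mapK0Bar A N x0 ∈ (redDataBar N A).Rw := (mem_Rw1K0_iff A N x0).1 hx0
  refine ⟨x0, hx0, ?_, hx0', red_eq_of_valuation_sub_lt _ hx hx0' hx0v⟩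
  rw [regFin_jC_iff]
  exact (mem_Lfib_iff_of_isAlgClosed.1 hx0L).1

end Main

section Pair

variable {q : ℕ} (hq : q.Prime) (hA : (q : Qb) ∈ A.nonunits) (h : ExactDvd q N)

include hq hA in
/-- **`K₀`-rational representatives for the pair `w₁, w₂`** (`q ∥ N`): `x` integral over `ℚ̄[j]`,
`w₁ x ≥ 0`, `w₂ x ≥ 0` `⟹` a `K₀`-rational `x0` with the same properties and the same two
reductions. -/
theorem exists_rat_lift_ball2_regFin
    (ho : HasOrthoBases (R0 A) (ball2 (redDataK0 A N) (redData2K0 A N h))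
      (rad2 (redDataK0 A N) (redData2K0 A N h)))
    {x : FN N} (hx1 : x ∈ (redDataBar N A).Rw) (hx2 : x ∈ (redData2 N A h).Rw)
    (hr : RegFin Qb (jF N) x) :
    ∃ x0 : modularFunctionFieldFullC (K0 A) N, x0 ∈ RwK0 A N ∧ x0 ∈ (redData2K0 A N h).Rw ∧
      RegFin (K0 A) (jC N (K0 A)) x0 ∧
      ∃ (h1 : mapK0Bar A N x0 ∈ (redDataBar N A).Rw)
        (h2 : mapK0Bar A N x0 ∈ (redData2 N A h).Rw),
        (redDataBar N A).red ⟨mapK0Bar A N x0, h1⟩ = (redDataBar N A).red ⟨x, hx1⟩ ∧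
        (redData2 N A h).red ⟨mapK0Bar A N x0, h2⟩ = (redData2 N A h).red ⟨x, hx2⟩ := by
  haveI : NeZero q := ⟨hq.ne_zero⟩
  obtain ⟨n0, hn0⟩ := regFin_mem_Lfib_large (jF_ne_zero' N) hr
  obtain ⟨x0, hx01, hx02, hx0L, hv1, hv2⟩ := exists_rat_lift_ball2 A N hq hA h
    (Fermat.Agent.GK.BallTwo.redCompatFN N A h) ho
    (fun σ _ => galF_jF N σ) (n0 : ℤ) hx1 hx2 (hn0 n0 le_rfl)
  have h1 : mapK0Bar A N x0 ∈ (redDataBar N A).Rw := (mem_Rw1K0_iff A N x0).1 hx01
  have h2 : mapK0Bar A N x0 ∈ (redData2 N A h).Rw := (mem_Rw2K0_iff A N h x0).1 hx02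
  refine ⟨x0, hx01, hx02, ?_, h1, h2, red_eq_of_valuation_sub_lt _ hx1 h1 hv1,
    red_eq_of_valuation_sub_lt _ hx2 h2 hv2⟩
  rw [regFin_jC_iff]
  exact (mem_Lfib_iff_of_isAlgClosed.1 hx0L).1

end Pair

/-! ### helper15's ring `B` and J1-SURJ, over `R` -/

section BRing

variable (N' : ℕ) [NeZero N'] (ℓ : ℕ) [Fact ℓ.Prime] [NeZero ℓ]
variable (A : ValuationSubring Kbar) (h : ExactDvd ℓ (N' * ℓ)) (hA : A.LiesOverPrime ℓ)

local notation "kA" => IsLocalRing.ResidueField A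

include hA in
/-- **`rd(B_R) = rd(B_A)`** : every element of `B = BRing N' ℓ A h` has the same two reductions
`ρ₁, ρ₂` as (the image of) a `K₀`-rational function `x0`, integral over `K₀[j₀]`, with `w₁ x0 ≥ 0`
and `w₂ x0 ≥ 0`. -/
theorem exists_rat_lift_BRing
    (ho : HasOrthoBases (R0 A)
      (ball2 (redDataK0 A (N' * ℓ)) (redData2K0 A (N' * ℓ) h))
      (rad2 (redDataK0 A (N' * ℓ)) (redData2K0 A (N' * ℓ) h)))
    (x : BRing N' ℓ A h) :
    ∃ x0 : modularFunctionFieldFullC (K0 A) (N' * ℓ),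
      RegFin (K0 A) (jC (N' * ℓ) (K0 A)) x0 ∧ x0 ∈ RwK0 A (N' * ℓ) ∧
      x0 ∈ (redData2K0 A (N' * ℓ) h).Rw ∧
      ∃ hB : mapK0Bar A (N' * ℓ) x0 ∈ BRing N' ℓ A h,
        rho1 N' ℓ A h ⟨mapK0Bar A (N' * ℓ) x0, hB⟩ = rho1 N' ℓ A h x ∧
        rho2 N' ℓ A h ⟨mapK0Bar A (N' * ℓ) x0, hB⟩ = rho2 N' ℓ A h x := by
  have hℓ : ℓ.Prime := Fact.out
  obtain ⟨x0, hx01, hx02, hreg, h1, h2, e1, e2⟩ :=
    exists_rat_lift_ball2_regFin A (N' * ℓ) hℓ hA h ho x.2.2.1 x.2.2.2 x.2.1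
  have hB : mapK0Bar A (N' * ℓ) x0 ∈ BRing N' ℓ A h :=
    ⟨(regFin_jC_iff A (N' * ℓ) x0).1 hreg, h1, h2⟩
  refine ⟨x0, hreg, hx01, hx02, hB, ?_, ?_⟩
  · rw [rho1_apply, rho1_apply]
    exact congrArg (fun y : FresBar (N' * ℓ) A => (y : LaurentSeries kA)) e1
  · rw [rho2_apply, rho2_apply]
    exact congrArg (fun y : FresBar (N' * ℓ) A => (y : LaurentSeries kA)) e2

include hA in
/-- the same, with the reductions computed over `K₀` -/
theorem exists_rat_lift_BRing'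
    (ho : HasOrthoBases (R0 A)
      (ball2 (redDataK0 A (N' * ℓ)) (redData2K0 A (N' * ℓ) h))
      (rad2 (redDataK0 A (N' * ℓ)) (redData2K0 A (N' * ℓ) h)))
    (x : BRing N' ℓ A h) :
    ∃ x0 : modularFunctionFieldFullC (K0 A) (N' * ℓ),
      RegFin (K0 A) (jC (N' * ℓ) (K0 A)) x0 ∧
      ∃ (h1 : x0 ∈ RwK0 A (N' * ℓ)) (h2 : x0 ∈ (redData2K0 A (N' * ℓ) h).Rw),
        coeffMap (resMapK0 A)
          (((redDataK0 A (N' * ℓ)).red ⟨x0, h1⟩ : FresK0 A (N' * ℓ)) :
            LaurentSeries (ResidueField (R0 A))) = rho1 N' ℓ A h x ∧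
        coeffMap (resMapK0 A)
          (((redData2K0 A (N' * ℓ) h).red ⟨x0, h2⟩ : FresK0 A (N' * ℓ)) :
            LaurentSeries (ResidueField (R0 A))) = rho2 N' ℓ A h x := by
  obtain ⟨x0, hreg, h1, h2, hB, e1, e2⟩ := exists_rat_lift_BRing N' ℓ A h hA ho x
  refine ⟨x0, hreg, h1, h2, ?_, ?_⟩
  · rw [← e1, rho1_apply]
    exact (coe_red1K0 A (N' * ℓ) x0 h1 hB.2.1).symm
  · rw [← e2, rho2_apply]
    exact (coe_red2K0 A (N' * ℓ) h x0 h2 hB.2.2).symm

end BRing

section Surj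

variable (N' : ℕ) [NeZero N'] {ℓ : ℕ} [Fact ℓ.Prime] (A : ValuationSubring Kbar)

local notation "kA" => IsLocalRing.ResidueField A

/-- **J1-SURJ over `R`** at a good level `N'` (`ℓ ∤ N'`): every element of `F~_{N'}` integral
over `k[j~]` is the reduction of a `K₀`-rational function integral over `K₀[j₀]` with
`w₁ ≥ 0`. -/
theorem exists_lift_K0 (hℓN : ¬ ℓ ∣ N') (hA : A.LiesOverPrime ℓ)
    (h2 : ℓ = 2 → 3 ∣ N') (h3 : ℓ = 3 → 2 ∣ N')
    (ho : HasOrthoBases (R0 A) (RwK0 A N').toSubring (vrad (RwK0 A N')))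
    {y : FresBar N' A}
    (hy : RegFin kA ((redDataBar N' A).red ⟨jF N', jF_mem_Rw N' A⟩) y) :
    ∃ x0 : modularFunctionFieldFullC (K0 A) N', x0 ∈ RwK0 A N' ∧
      RegFin (K0 A) (jC N' (K0 A)) x0 ∧
      ∃ hx0 : mapK0Bar A N' x0 ∈ (redDataBar N' A).Rw,
        (redDataBar N' A).red ⟨mapK0Bar A N' x0, hx0⟩ = y := by
  have hℓ : ℓ.Prime := Fact.out
  obtain ⟨x, hx, hreg, rfl⟩ := exists_lift_bar N' A hℓN hA h2 h3 hy
  exact exists_rat_lift_w1_regFin A N' hℓ hA ho hx hreg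

/-- the same, with the reduction computed over `K₀` -/
theorem exists_lift_K0' (hℓN : ¬ ℓ ∣ N') (hA : A.LiesOverPrime ℓ)
    (h2 : ℓ = 2 → 3 ∣ N') (h3 : ℓ = 3 → 2 ∣ N')
    (ho : HasOrthoBases (R0 A) (RwK0 A N').toSubring (vrad (RwK0 A N')))
    {y : FresBar N' A}
    (hy : RegFin kA ((redDataBar N' A).red ⟨jF N', jF_mem_Rw N' A⟩) y) :
    ∃ x0 : modularFunctionFieldFullC (K0 A) N', RegFin (K0 A) (jC N' (K0 A)) x0 ∧
      ∃ hx0 : x0 ∈ RwK0 A N',
        coeffMap (resMapK0 A)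
          (((redDataK0 A N').red ⟨x0, hx0⟩ : FresK0 A N') :
            LaurentSeries (ResidueField (R0 A))) = (y : LaurentSeries kA) := by
  obtain ⟨x0, hx0, hreg, hx0', e⟩ := exists_lift_K0 N' A hℓN hA h2 h3 ho hy
  refine ⟨x0, hreg, hx0, ?_⟩
  rw [← e]
  exact (coe_red1K0 A N' x0 hx0 hx0').symm

end Surj

end Fermat.Agent.GL.RatBRing
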