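import Fermat.Agent.GL.Red.RatLiftGal
import Fermat.Agent.GL.Val.SecondK0
import Fermat.Agent.GL.Base.RatDescentFullC
import Fermat.Agent.GK.MultiVal.TwoRedData

/-!
# GATE-L / L5e : `K over R` — rational lifts from `F_N = ℚ̄(X₀(N))` to `K₀(X₀(N))`  (helper96)

`A | q` a valuation subring of `ℚ̄`, `K₀ = ℚ̄^{I_A}`, `R = A ∩ K₀` (helper26, helper45).
The instance of `RatLiftGal.exists_rational_lift_Lfib` for
`F0 = K₀(X₀(N)) ⊂ F = F_N`, `H = I_A` acting on the coefficients: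

* `exists_rat_lift_w1` : one valuation `w₁` (any level);
* `exists_rat_lift_ball2` : the two valuations `w₁, w₂` at `q ∥ N`.

Both take ORTH over `K₀` (`HasOrthoBases (R0 A) …`) as a hypothesis.
-/

set_option autoImplicit false
set_option linter.style.haveILetI false

noncomputable section

namespace Fermat.Agent.GL.RatLiftK0

open HahnSeries ModularCurve IsLocalRing
open Fermat.Agent.S24 Fermat.Agent.S24_helper62
open Fermat.Agent.GJ.J1 Fermat.Agent.GJ.J1.Val Fermat.Agent.GJ.FiniteLevel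
open Fermat.Agent.GK.AL Fermat.Agent.GK.MultiVal
open Fermat.Agent.GL.Val.GaussK0 Fermat.Agent.GL.Val.SecondK0
open Fermat.Agent.GL.Local.InertiaField
open Fermat.Agent.GL.Coh.InvDescentFK Fermat.Agent.GL.Base.RatDescent
open Fermat.Agent.GL.RatLift
open Fermat.Agent.Common_helper32

variable (A : ValuationSubring Qb) (N : ℕ) [NeZero N]

/-- the inertia group of `A`, acting on the coefficients of `F_N` -/
@[reducible] def inertiaAction : MulSemiringAction ↥(A.inertiaSubgroupIn ℚ) (FN N) :=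
  galAction (modularFunctionFieldFull N) (A.inertiaSubgroupIn ℚ)

theorem inertiaAction_smul (σ : ↥(A.inertiaSubgroupIn ℚ)) (x : FN N) :
    (letI := inertiaAction A N; σ • x) = galF N (σ : Qb ≃ₐ[ℚ] Qb) x := rfl

/-- `mapK0Bar` is semilinear -/
theorem mapK0Bar_smul (a : K0 A) (x : modularFunctionFieldFullC (K0 A) N) :
    mapK0Bar A N (a • x) = ι0 A a • mapK0Bar A N x := by
  rw [Algebra.smul_def, Algebra.smul_def, map_mul, mapK0Bar_algebraMap]

/-- the image of `K₀(X₀(N))` is fixed by the inertia group -/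
theorem galF_mapK0Bar (σ : Qb ≃ₐ[ℚ] Qb) (hσ : σ ∈ A.inertiaSubgroupIn ℚ)
    (x : modularFunctionFieldFullC (K0 A) N) : galF N σ (mapK0Bar A N x) = mapK0Bar A N x := by
  apply Subtype.ext
  show coeffMap (σ : Qb →+* Qb) (coeffMap (ι0 A) (x : LaurentSeries (K0 A))) = _
  rw [coe_mapK0Bar, coeffMap_coeffMap]
  refine coeffMap_congr (RingHom.ext fun a => ?_) _
  exact (mem_inertiaField_iff A ((toK0 A).symm a : Qb)).1 ((toK0 A).symm a).2 σ hσ

/-- `ℚ̄` as a `K₀`-algebra -/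
@[reducible] def algK0 : Algebra (K0 A) Qb := (ι0 A).toAlgebra

theorem isAlgebraic_K0 : letI := algK0 A; Algebra.IsAlgebraic (K0 A) Qb := by
  letI := algK0 A
  refine ⟨fun x => ?_⟩
  obtain ⟨p, hp0, hp⟩ := Algebra.IsAlgebraic.isAlgebraic (R := ℚ) x
  refine ⟨p.map (algebraMap ℚ (K0 A)),
    (Polynomial.map_ne_zero_iff (algebraMap ℚ (K0 A)).injective).mpr hp0, ?_⟩
  rw [Polynomial.aeval_def, Polynomial.eval₂_map, ← hp, Polynomial.aeval_def]
  congr 1

/-- `F_N^{I_A} = K₀(X₀(N))` (helper80), in `mapK0Bar` form -/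
theorem exists_mapK0Bar_of_fixed (x : FN N)
    (hx : ∀ σ ∈ A.inertiaSubgroupIn ℚ, galF N σ x = x) :
    ∃ x0 : modularFunctionFieldFullC (K0 A) N, mapK0Bar A N x0 = x := by
  letI := algK0 A
  haveI := isAlgebraic_K0 A
  have hxF : (x : LaurentSeries Qb) ∈ modularFunctionFieldFullC Qb N := by
    rw [← modularFunctionFieldBar_eq N]; exact x.2
  have hc : ∀ k : ℤ, (x : LaurentSeries Qb).coeff k ∈ Set.range (algebraMap (K0 A) Qb) := by
    intro k
    have h1 : (x : LaurentSeries Qb).coeff k ∈ (ι0 A).range := by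
      rw [mem_range_ι0_iff]
      intro σ hσ
      have h2 := congrArg (fun z : FN N => (z : LaurentSeries Qb).coeff k) (hx σ hσ)
      simpa using h2
    exact h1
  obtain ⟨y, hy, hyx⟩ := exists_fullC_of_coeff_mem_range (L := K0 A) N hxF hc
  exact ⟨⟨y, hy⟩, Subtype.ext hyx⟩

/-- smoothness of the action: every element of `F_N` is fixed by the pointwise stabiliser of a
finite Galois-stable set of constants -/
theorem exists_smooth (x : FN N) :
    ∃ Y : Set (FN N), Y.Finite ∧ Y ⊆ Set.range (algebraMap Qb (FN N)) ∧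
      (∀ σ : Qb ≃ₐ[ℚ] Qb, ∀ y ∈ Y, galF N σ y ∈ Y) ∧
      ∀ σ : Qb ≃ₐ[ℚ] Qb, (∀ y ∈ Y, galF N σ y = y) → galF N σ x = x := by
  classical
  obtain ⟨E, hEfd, hE⟩ := hasLevel_arithmeticRingAut_eq (modularFunctionFieldFull N) x
  have := hEfd
  -- a finite generating set of `E` and all its conjugates
  let b := Module.finBasis ℚ E
  let P : Polynomial ℚ := ∏ i, minpoly ℚ ((b i : E) : Qb)
  have hP0 : P ≠ 0 := Finset.prod_ne_zero_iff.mpr fun i _ =>
    minpoly.ne_zero (Algebra.IsIntegral.isIntegral _)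
  let Z : Set Qb := P.rootSet Qb
  have hZfin : Z.Finite := Polynomial.rootSet_finite P Qb
  have hbZ : ∀ i, ((b i : E) : Qb) ∈ Z := fun i => by
    rw [Polynomial.mem_rootSet]
    refine ⟨hP0, ?_⟩
    rw [map_prod]
    exact Finset.prod_eq_zero (Finset.mem_univ i) (minpoly.aeval ℚ _)
  have hZstab : ∀ σ : Qb ≃ₐ[ℚ] Qb, ∀ z ∈ Z, σ z ∈ Z := fun σ z hz => by
    rw [Polynomial.mem_rootSet] at hz ⊢
    refine ⟨hz.1, ?_⟩
    have := Polynomial.aeval_algHom_apply (σ : Qb →ₐ[ℚ] Qb) z P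
    rw [show ((σ : Qb →ₐ[ℚ] Qb) z) = σ z from rfl] at this
    rw [this, hz.2, map_zero]
  refine ⟨algebraMap Qb (FN N) '' Z, hZfin.image _, Set.image_subset_range _ _, ?_, ?_⟩
  · rintro σ _ ⟨z, hz, rfl⟩
    exact ⟨σ z, hZstab σ z hz, (galF_algebraMap σ z).symm⟩
  · intro σ hσ
    refine hE σ fun a ha => ?_
    -- `σ` fixes the basis of `E`, hence `E`
    have hfix : ∀ i, σ ((b i : E) : Qb) = ((b i : E) : Qb) := fun i => by
      have h1 := hσ _ ⟨_, hbZ i, rfl⟩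
      rw [galF_algebraMap] at h1
      exact (algebraMap Qb (FN N)).injective h1
    have ha' : (⟨a, ha⟩ : E) ∈ Submodule.span ℚ (Set.range b) := by
      rw [b.span_eq]; exact Submodule.mem_top
    have key : ∀ e : E, e ∈ Submodule.span ℚ (Set.range b) → σ (e : Qb) = (e : Qb) := by
      intro e he
      induction he using Submodule.span_induction with
      | mem e he => obtain ⟨i, rfl⟩ := he; exact hfix i
      | zero => simp
      | add e f _ _ he hf => simp [he, hf]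
      | smul c e _ he =>
        rw [IntermediateField.coe_smul, Algebra.smul_def, map_mul, he, AlgEquiv.commutes]
    exact key ⟨a, ha⟩ ha'

section Prime

variable {q : ℕ} (hq : q.Prime) (hA : (q : Qb) ∈ A.nonunits)

include hq hA in
/-- the residue field of `R = A ∩ K₀` is the residue field of `A` -/
theorem exists_R0_sub_mem_nonunits (a : Qb) (ha : a ∈ A) :
    ∃ a0 ∈ R0 A, a - ι0 A a0 ∈ A.nonunits := by
  obtain ⟨b, hb⟩ := exists_baseRing_sub_mem_nonunits A hq hA a ha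
  exact ⟨toK0 A (b : inertiaField A), b.2, hb⟩

end Prime

/-! ### The rational lifts -/

section Main

variable {q : ℕ} (hq : q.Prime) (hA : (q : Qb) ∈ A.nonunits)

include hq hA in
/-- **rational lifts for `w₁`** (any level): `x ∈ L(n (t)_∞)` with `w₁(x) ≥ 0` is congruent modulo
`𝔪_{w₁}` to (the image of) a `K₀`-rational `x0 ∈ L(n (t)_∞)` with `w₁(x0) ≥ 0`. -/
theorem exists_rat_lift_w1
    (ho : HasOrthoBases (R0 A) (RwK0 A N).toSubring (vrad (RwK0 A N)))
    {t : FN N} (ht : ∀ σ ∈ A.inertiaSubgroupIn ℚ, galF N σ t = t) (n : ℤ) {x : FN N}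
    (hx : x ∈ (redDataBar N A).Rw) (hxL : x ∈ Lfib Qb t n) :
    ∃ x0 : modularFunctionFieldFullC (K0 A) N, x0 ∈ RwK0 A N ∧
      mapK0Bar A N x0 ∈ Lfib Qb t n ∧
      (redDataBar N A).Rw.valuation (x - mapK0Bar A N x0) < 1 := by
  letI := inertiaAction A N
  have hnp : IsNormPair A (redDataBar N A).Rw.toSubring (vrad (redDataBar N A).Rw) :=
    isNormPair_single (redDataBar N A).algebraMap_mem_iff'
  obtain ⟨x0, hx0B, hx0L, hx0I⟩ := exists_rational_lift_Lfib
    (ι0 := ι0 A) (ι := mapK0Bar A N) (mapK0Bar_smul A N) (hA0 A)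
    (exists_R0_sub_mem_nonunits A hq hA)
    (B0 := (RwK0 A N).toSubring) (I0 := vrad (RwK0 A N))
    (B := (redDataBar N A).Rw.toSubring) (I := vrad (redDataBar N A).Rw)
    (fun y => mem_Rw1K0_iff A N y)
    (fun y => by
      show y ∈ (RwK0 A N).nonunits ↔ mapK0Bar A N y ∈ (redDataBar N A).Rw.nonunits
      exact mem_nonunits_Rw1K0_iff A N y) hnp ho
    (H := ↥(A.inertiaSubgroupIn ℚ))
    (fun σ c => ⟨(σ : Qb ≃ₐ[ℚ] Qb) c, galF_algebraMap (σ : Qb ≃ₐ[ℚ] Qb) c⟩)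
    (fun y hy => exists_mapK0Bar_of_fixed A N y fun σ hσ => hy ⟨σ, hσ⟩)
    (fun y => by
      obtain ⟨Y, h1, h2, h3, h4⟩ := exists_smooth N y
      exact ⟨Y, h1, h2, fun σ z hz => h3 σ z hz, fun σ hσ => h4 σ hσ⟩)
    (fun σ => ((σ : Qb ≃ₐ[ℚ] Qb)).toRingEquiv)
    (fun σ c => galF_algebraMap (σ : Qb ≃ₐ[ℚ] Qb) c)
    (t := t) (fun σ => ht σ σ.2) n hx hxL
  exact ⟨x0, hx0B, hx0L, hx0I⟩

variable (h : ExactDvd q N)

include hq hA in
/-- **rational lifts for the pair `w₁, w₂`** (`q ∥ N`): `x ∈ L(n (t)_∞) ∩ Rw₁ ∩ Rw₂` is congruent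
modulo `𝔪_{w₁} ∩ 𝔪_{w₂}` to (the image of) a `K₀`-rational `x0` with the same properties. -/
theorem exists_rat_lift_ball2
    (hc : RedCompat (redDataBar N A) (redData2 N A h))
    (ho : HasOrthoBases (R0 A) (ball2 (redDataK0 A N) (redData2K0 A N h))
      (rad2 (redDataK0 A N) (redData2K0 A N h)))
    {t : FN N} (ht : ∀ σ ∈ A.inertiaSubgroupIn ℚ, galF N σ t = t) (n : ℤ) {x : FN N}
    (hx1 : x ∈ (redDataBar N A).Rw) (hx2 : x ∈ (redData2 N A h).Rw) (hxL : x ∈ Lfib Qb t n) :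
    ∃ x0 : modularFunctionFieldFullC (K0 A) N, x0 ∈ RwK0 A N ∧ x0 ∈ (redData2K0 A N h).Rw ∧
      mapK0Bar A N x0 ∈ Lfib Qb t n ∧
      (redDataBar N A).Rw.valuation (x - mapK0Bar A N x0) < 1 ∧
      (redData2 N A h).Rw.valuation (x - mapK0Bar A N x0) < 1 := by
  letI := inertiaAction A N
  have hnp := isNormPair2 hc
  obtain ⟨x0, hx0B, hx0L, hx0I⟩ := exists_rational_lift_Lfib
    (ι0 := ι0 A) (ι := mapK0Bar A N) (mapK0Bar_smul A N) (hA0 A)
    (exists_R0_sub_mem_nonunits A hq hA)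
    (B0 := ball2 (redDataK0 A N) (redData2K0 A N h))
    (I0 := rad2 (redDataK0 A N) (redData2K0 A N h))
    (B := ball2 (redDataBar N A) (redData2 N A h))
    (I := rad2 (redDataBar N A) (redData2 N A h))
    (fun y => by
      rw [mem_ball2, mem_ball2]
      exact and_congr (mem_Rw1K0_iff A N y) (mem_Rw2K0_iff A N h y))
    (fun y => by
      rw [mem_rad2, mem_rad2]
      exact and_congr (mem_nonunits_Rw1K0_iff A N y) (mem_nonunits_Rw2K0_iff A N h y))
    hnp ho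
    (H := ↥(A.inertiaSubgroupIn ℚ))
    (fun σ c => ⟨(σ : Qb ≃ₐ[ℚ] Qb) c, galF_algebraMap (σ : Qb ≃ₐ[ℚ] Qb) c⟩)
    (fun y hy => exists_mapK0Bar_of_fixed A N y fun σ hσ => hy ⟨σ, hσ⟩)
    (fun y => by
      obtain ⟨Y, h1, h2, h3, h4⟩ := exists_smooth N y
      exact ⟨Y, h1, h2, fun σ z hz => h3 σ z hz, fun σ hσ => h4 σ hσ⟩)
    (fun σ => ((σ : Qb ≃ₐ[ℚ] Qb)).toRingEquiv)
    (fun σ c => galF_algebraMap (σ : Qb ≃ₐ[ℚ] Qb) c)
    (t := t) (fun σ => ht σ σ.2) n (mem_ball2.mpr ⟨hx1, hx2⟩) hxL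
  have h1 := mem_ball2.mp hx0B
  have h2 := mem_rad2.mp hx0I
  exact ⟨x0, h1.1, h1.2, hx0L, h2.1, h2.2⟩

end Main

end Fermat.Agent.GL.RatLiftK0
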