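import Fermat.Agent.GL.Red.RatChart
import Fermat.Agent.GL.Val.OrthK0

/-!
# GATE-L / L5e : `K over R`, UNCONDITIONAL (helper96)

helper45's ORTH over `K₀` (`GL/Val/OrthK0.lean`) plugged into `RatLiftK0` / `RatBRing` / `RatChart`:
no hypothesis left.

`A | ℓ` a valuation subring of `ℚ̄`, `K₀ = ℚ̄^{I_A}`, `R = A ∩ K₀`, `j₀ = jC N K₀`.

* `ratLift_w1`, `ratLift_ball2` : `K₀`-rational representatives on `L(n (t)_∞)`;
* `ratLift_w1_chart`, `ratLift_ball2_chart` : the same on integral closures, any rational chart;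
* **`ratLift_BRing`** : `rd(B_R) = rd(B_A)` for helper15's `BRing N' ℓ A h` (level `N' ℓ`);
* **`lift_K0`**, **`lift_K0_inv`** : J1-SURJ over `R` at a good level for the charts `j`, `1/j`.
-/

set_option autoImplicit false
set_option linter.style.haveILetI false

noncomputable section

namespace Fermat.Agent.GL.RatFinal

open HahnSeries ModularCurve IsLocalRing
open Fermat.Agent.S24 Fermat.Agent.S24_helper62
open Fermat.Agent.GJ.J1 Fermat.Agent.GJ.J1.G1 Fermat.Agent.GJ.J1.Val Fermat.Agent.GJ.FiniteLevel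
open Fermat.Agent.GK.AL Fermat.Agent.GK.MultiVal Fermat.Agent.GK.Red Fermat.Agent.GK.QS
open Fermat.Agent.GL.Val.GaussK0 Fermat.Agent.GL.Val.SecondK0 Fermat.Agent.GL.Val.DegBase
open Fermat.Agent.GL.Val.OrthK0
open Fermat.Agent.GL.RatLiftK0 Fermat.Agent.GL.RatBRing Fermat.Agent.GL.RatChart
open Fermat.Agent.Common_helper32 Fermat.Agent.GJ.J1.Haupt Fermat.Agent.GJ.HN
open Fermat.Agent.GK.CuspSep

variable (A : ValuationSubring Qb) (N : ℕ) [NeZero N]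

section Single

variable {q : ℕ} (hq : q.Prime) (hA : (q : Qb) ∈ A.nonunits) (hqN : ¬ q ∣ N)

include hq hA hqN

/-- K-RED over `R`, one valuation (`q ∤ N`) -/
theorem ratLift_w1 {t : FN N} (ht : ∀ σ ∈ A.inertiaSubgroupIn ℚ, galF N σ t = t) (n : ℤ)
    {x : FN N} (hx : x ∈ (redDataBar N A).Rw) (hxL : x ∈ Lfib Qb t n) :
    ∃ x0 : modularFunctionFieldFullC (K0 A) N, x0 ∈ RwK0 A N ∧
      mapK0Bar A N x0 ∈ Lfib Qb t n ∧
      (redDataBar N A).Rw.valuation (x - mapK0Bar A N x0) < 1 :=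
  exists_rat_lift_w1 A N hq hA (hasOrthoK0_single A N hq hA hqN) ht n hx hxL

/-- `K₀`-rational representatives on the integral closure of `ℚ̄[t0]`, one valuation (`q ∤ N`) -/
theorem ratLift_w1_chart (t0 : modularFunctionFieldFullC (K0 A) N) (ht0 : t0 ≠ 0)
    {x : FN N} (hx : x ∈ (redDataBar N A).Rw) (hr : RegFin Qb (mapK0Bar A N t0) x) :
    ∃ x0 : modularFunctionFieldFullC (K0 A) N, x0 ∈ RwK0 A N ∧ RegFin (K0 A) t0 x0 ∧
      ∃ hx0 : mapK0Bar A N x0 ∈ (redDataBar N A).Rw,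
        (redDataBar N A).red ⟨mapK0Bar A N x0, hx0⟩ = (redDataBar N A).red ⟨x, hx⟩ :=
  exists_rat_lift_w1_chart A N hq hA (hasOrthoK0_single A N hq hA hqN) t0 ht0 hx hr

end Single

section Pair

variable {q : ℕ} (hq : q.Prime) (hA : (q : Qb) ∈ A.nonunits) (h : ExactDvd q N)

include hq hA

/-- K-RED over `R`, two valuations (`q ∥ N`) -/
theorem ratLift_ball2 {t : FN N} (ht : ∀ σ ∈ A.inertiaSubgroupIn ℚ, galF N σ t = t) (n : ℤ)
    {x : FN N} (hx1 : x ∈ (redDataBar N A).Rw) (hx2 : x ∈ (redData2 N A h).Rw)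
    (hxL : x ∈ Lfib Qb t n) :
    ∃ x0 : modularFunctionFieldFullC (K0 A) N, x0 ∈ RwK0 A N ∧ x0 ∈ (redData2K0 A N h).Rw ∧
      mapK0Bar A N x0 ∈ Lfib Qb t n ∧
      (redDataBar N A).Rw.valuation (x - mapK0Bar A N x0) < 1 ∧
      (redData2 N A h).Rw.valuation (x - mapK0Bar A N x0) < 1 := by
  haveI : NeZero q := ⟨hq.ne_zero⟩
  exact exists_rat_lift_ball2 A N hq hA h (Fermat.Agent.GK.BallTwo.redCompatFN N A h)
    (hasOrthoBasesK0 A N h hA) ht n hx1 hx2 hxL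

/-- `K₀`-rational representatives on the integral closure of `ℚ̄[t0]`, two valuations
(`q ∥ N`) -/
theorem ratLift_ball2_chart (t0 : modularFunctionFieldFullC (K0 A) N) (ht0 : t0 ≠ 0)
    {x : FN N} (hx1 : x ∈ (redDataBar N A).Rw) (hx2 : x ∈ (redData2 N A h).Rw)
    (hr : RegFin Qb (mapK0Bar A N t0) x) :
    ∃ x0 : modularFunctionFieldFullC (K0 A) N, x0 ∈ RwK0 A N ∧ x0 ∈ (redData2K0 A N h).Rw ∧
      RegFin (K0 A) t0 x0 ∧
      ∃ (h1 : mapK0Bar A N x0 ∈ (redDataBar N A).Rw)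
        (h2 : mapK0Bar A N x0 ∈ (redData2 N A h).Rw),
        (redDataBar N A).red ⟨mapK0Bar A N x0, h1⟩ = (redDataBar N A).red ⟨x, hx1⟩ ∧
        (redData2 N A h).red ⟨mapK0Bar A N x0, h2⟩ = (redData2 N A h).red ⟨x, hx2⟩ :=
  exists_rat_lift_ball2_chart A N hq hA h (hasOrthoBasesK0 A N h hA) t0 ht0 hx1 hx2 hr

end Pair

/-! ### helper15's ring `B` and J1-SURJ -/

section BRing

variable (N' : ℕ) [NeZero N'] (ℓ : ℕ) [Fact ℓ.Prime] [NeZero ℓ]
variable (A : ValuationSubring Kbar) (h : ExactDvd ℓ (N' * ℓ)) (hA : A.LiesOverPrime ℓ)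

local notation "kA" => IsLocalRing.ResidueField A

include hA in
/-- **`rd(B_R) = rd(B_A)`, unconditional** : every element of `B = BRing N' ℓ A h` has the same two
reductions `ρ₁, ρ₂` as (the image of) a `K₀`-rational function `x0`, integral over `K₀[j₀]`, with
`w₁ x0 ≥ 0` and `w₂ x0 ≥ 0`. -/
theorem ratLift_BRing (x : BRing N' ℓ A h) :
    ∃ x0 : modularFunctionFieldFullC (K0 A) (N' * ℓ),
      RegFin (K0 A) (jC (N' * ℓ) (K0 A)) x0 ∧ x0 ∈ RwK0 A (N' * ℓ) ∧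
      x0 ∈ (redData2K0 A (N' * ℓ) h).Rw ∧
      ∃ hB : mapK0Bar A (N' * ℓ) x0 ∈ BRing N' ℓ A h,
        rho1 N' ℓ A h ⟨mapK0Bar A (N' * ℓ) x0, hB⟩ = rho1 N' ℓ A h x ∧
        rho2 N' ℓ A h ⟨mapK0Bar A (N' * ℓ) x0, hB⟩ = rho2 N' ℓ A h x :=
  exists_rat_lift_BRing N' ℓ A h hA (hasOrthoBasesK0 A (N' * ℓ) h hA) x

include hA in
/-- the same, with the reductions computed over `K₀` -/
theorem ratLift_BRing' (x : BRing N' ℓ A h) :
    ∃ x0 : modularFunctionFieldFullC (K0 A) (N' * ℓ),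
      RegFin (K0 A) (jC (N' * ℓ) (K0 A)) x0 ∧
      ∃ (h1 : x0 ∈ RwK0 A (N' * ℓ)) (h2 : x0 ∈ (redData2K0 A (N' * ℓ) h).Rw),
        coeffMap (resMapK0 A)
          (((redDataK0 A (N' * ℓ)).red ⟨x0, h1⟩ : FresK0 A (N' * ℓ)) :
            LaurentSeries (ResidueField (R0 A))) = rho1 N' ℓ A h x ∧
        coeffMap (resMapK0 A)
          (((redData2K0 A (N' * ℓ) h).red ⟨x0, h2⟩ : FresK0 A (N' * ℓ)) :
            LaurentSeries (ResidueField (R0 A))) = rho2 N' ℓ A h x :=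
  exists_rat_lift_BRing' N' ℓ A h hA (hasOrthoBasesK0 A (N' * ℓ) h hA) x

end BRing

section Surj

variable (N' : ℕ) [NeZero N'] {ℓ : ℕ} [Fact ℓ.Prime] (A : ValuationSubring Kbar)

local notation "kA" => IsLocalRing.ResidueField A

/-- **J1-SURJ over `R`, unconditional, chart `j`** (`ℓ ∤ N'`): every element of `F~_{N'}` integral
over `k[j~]` is the reduction of a `K₀`-rational function integral over `K₀[j₀]` with `w₁ ≥ 0`. -/
theorem lift_K0 (hℓN : ¬ ℓ ∣ N') (hA : A.LiesOverPrime ℓ)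
    (h2 : ℓ = 2 → 3 ∣ N') (h3 : ℓ = 3 → 2 ∣ N') {y : FresBar N' A}
    (hy : RegFin kA ((redDataBar N' A).red ⟨jF N', jF_mem_Rw N' A⟩) y) :
    ∃ x0 : modularFunctionFieldFullC (K0 A) N', x0 ∈ RwK0 A N' ∧
      RegFin (K0 A) (jC N' (K0 A)) x0 ∧
      ∃ hx0 : mapK0Bar A N' x0 ∈ (redDataBar N' A).Rw,
        (redDataBar N' A).red ⟨mapK0Bar A N' x0, hx0⟩ = y :=
  exists_lift_K0 N' A hℓN hA h2 h3 (hasOrthoK0_single A N' Fact.out hA hℓN) hy

/-- the same, with the reduction computed over `K₀` -/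
theorem lift_K0' (hℓN : ¬ ℓ ∣ N') (hA : A.LiesOverPrime ℓ)
    (h2 : ℓ = 2 → 3 ∣ N') (h3 : ℓ = 3 → 2 ∣ N') {y : FresBar N' A}
    (hy : RegFin kA ((redDataBar N' A).red ⟨jF N', jF_mem_Rw N' A⟩) y) :
    ∃ x0 : modularFunctionFieldFullC (K0 A) N', RegFin (K0 A) (jC N' (K0 A)) x0 ∧
      ∃ hx0 : x0 ∈ RwK0 A N',
        coeffMap (resMapK0 A)
          (((redDataK0 A N').red ⟨x0, hx0⟩ : FresK0 A N') :
            LaurentSeries (ResidueField (R0 A))) = (y : LaurentSeries kA) :=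
  exists_lift_K0' N' A hℓN hA h2 h3 (hasOrthoK0_single A N' Fact.out hA hℓN) hy

/-- **J1-SURJ over `R`, unconditional, chart `1/j`** (cusps included) -/
theorem lift_K0_inv (hℓN : ¬ ℓ ∣ N') (hA : A.LiesOverPrime ℓ)
    (h2 : ℓ = 2 → 3 ∣ N') (h3 : ℓ = 3 → 2 ∣ N') {y : FresBar N' A}
    (hy : RegFin kA (tauF N' A)⁻¹ y) :
    ∃ x0 : modularFunctionFieldFullC (K0 A) N', x0 ∈ RwK0 A N' ∧
      RegFin (K0 A) (jC N' (K0 A))⁻¹ x0 ∧
      ∃ hx0 : mapK0Bar A N' x0 ∈ (redDataBar N' A).Rw,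
        (redDataBar N' A).red ⟨mapK0Bar A N' x0, hx0⟩ = y :=
  exists_lift_K0_inv N' A hℓN hA h2 h3 (hasOrthoK0_single A N' Fact.out hA hℓN) hy

end Surj

end Fermat.Agent.GL.RatFinal
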