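import Mathlib
import Fermat.Agent.GL.Red.BRingChart
import Fermat.Agent.GL.Red.RatFinal

/-!
# GATE-L / B1-RED : the `j`-chart ring of a good level over `R₀` and its reduction (helper96)

`ℓ ∤ N'`, `A | ℓ` a valuation subring of `ℚ̄`, `K₀ = ℚ̄^{I_A}`, `R₀ = A ∩ K₀`, `F₀ = K₀(X₀(N'))`,
`B₁ = B1 N' A = chartRing (R0 A) (jC N' (K0 A))` (the integral closure of `R₀[j]` in `F₀`),
`C = CRing N' A` (the integral closure of `k[j~]` in the residue function field, Dedekind).
The `j`-chart twin of `GL/Red/BRing1Inv.lean` :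

* `mem_B1_iff` : `x0 ∈ B₁ ↔ RegFin K₀ j x0 ∧ w₁ x0 ≥ 0`;
* `regFin_red` : integrality of the reduction (`redRegFin_bar`);
* `red1 : B₁ →+* C` (`coe_red1` : it is `(redDataBar N' A).red ∘ mapK0Bar`), `cVal_red1`;
* `red1_surjective` (= `RatFinal.lift_K0`);
* `red1_eq_zero_iff` : `ker = {w₁ > 0}`; `dvd_of_mem_nonunits`, `ker_red1` : **`ker = (q)`**;
* `jB1`, `red1_jB1` : `red₁ j = j~`; `cstB`, `red1_cstB` : constants.
-/

set_option autoImplicit false
set_option linter.unusedSectionVars false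
set_option linter.style.haveILetI false
set_option synthInstance.maxHeartbeats 400000

noncomputable section

namespace Fermat.Agent.GL.BRing1

open ModularCurve IntermediateField Polynomial IsLocalRing
open Fermat.Agent.S24 Fermat.Agent.S24_helper62
open Fermat.Agent.GJ.J1 Fermat.Agent.GJ.J1.Val Fermat.Agent.GJ.J1.Haupt
open Fermat.Agent.GK.AL Fermat.Agent.GL.AL Fermat.Agent.GK.QS Fermat.Agent.GK.CuspSep
open Fermat.Agent.GL.Val.GaussK0 Fermat.Agent.GL.Val.SecondK0 Fermat.Agent.GL.Val.DegBase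
open Fermat.Agent.GL.Frame.Inst
open Fermat.Agent.GL.RatLiftK0 Fermat.Agent.GL.RatBRing Fermat.Agent.GL.RatChart
open Fermat.Agent.GL.RatFinal
open Fermat.Agent.GL.BRingChart
open Fermat.Agent.Common_helper32

variable (N' : ℕ) [NeZero N'] {ℓ : ℕ} [Fact ℓ.Prime] (A : ValuationSubring Qb)
variable (hℓN : ¬ ℓ ∣ N') (hA : A.LiesOverPrime ℓ)

local notation "kA" => IsLocalRing.ResidueField A

/-- the `j`-chart ring of level `N'` over `R₀` -/
abbrev B1 : Subring (modularFunctionFieldFullC (K0 A) N') :=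
  chartRing (R0 A) (jC N' (K0 A))

include hℓN hA in
theorem mem_B1_iff {x0 : modularFunctionFieldFullC (K0 A) N'} :
    x0 ∈ B1 N' A ↔ RegFin (K0 A) (jC N' (K0 A)) x0 ∧ x0 ∈ RwK0 A N' :=
  mem_chartRing_jC_iff_one A N' Fact.out hA hℓN x0

include hℓN hA in
theorem mapK0Bar_mem_Rw (x0 : B1 N' A) :
    mapK0Bar A N' (x0 : modularFunctionFieldFullC (K0 A) N') ∈ (redDataBar N' A).Rw :=
  (mem_Rw1K0_iff A N' _).1 ((mem_B1_iff N' A hℓN hA).1 x0.2).2

include hℓN hA in
theorem regFin_mapK0Bar (x0 : B1 N' A) :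
    RegFin Qb (jF N') (mapK0Bar A N' (x0 : modularFunctionFieldFullC (K0 A) N')) := by
  have h1 := ((mem_B1_iff N' A hℓN hA).1 x0.2).1
  rw [regFin_iff_map, mapK0Bar_jC] at h1
  exact h1

include hℓN hA in
/-- **integrality of the reduction** : the `w₁`-reduction of an element of `B₁` is integral
over `k[j~]`. -/
theorem regFin_red (x0 : B1 N' A) :
    RegFin kA (Fermat.Agent.GK.QS.jt N' A)
      ((redDataBar N' A).red ⟨mapK0Bar A N' (x0 : modularFunctionFieldFullC (K0 A) N'),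
        mapK0Bar_mem_Rw N' A hℓN hA x0⟩) :=
  Fermat.Agent.GJ.Gauss.redRegFin_bar N' hℓN A hA le_rfl
    (Fermat.Agent.GJ.Gauss.isGaussChart_jF N' A) (jF_mem_Rw N' A) _
    (mapK0Bar_mem_Rw N' A hℓN hA x0) (regFin_mapK0Bar N' A hℓN hA x0)

/-- `B₁ → Rw₁` (base extension to `ℚ̄`) -/
def toRw : B1 N' A →+* (redDataBar N' A).Rw :=
  (mapK0Bar A N').restrict (B1 N' A) (redDataBar N' A).Rw.toSubring
    fun x hx => mapK0Bar_mem_Rw N' A hℓN hA ⟨x, hx⟩

@[simp] theorem coe_toRw (x0 : B1 N' A) :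
    ((toRw N' A hℓN hA x0 : (redDataBar N' A).Rw) : FN N') =
      mapK0Bar A N' (x0 : modularFunctionFieldFullC (K0 A) N') := rfl

/-- **`red₁ : B₁ → C`** : the reduction of the `j`-chart ring of level `N'` over `R₀` onto the
coordinate ring `CRing N' A` of the special fibre. -/
def red1 : B1 N' A →+* CRing N' A :=
  (((redDataBar N' A).red).comp (toRw N' A hℓN hA)).codRestrict (CRing N' A)
    fun x0 => regFin_red N' A hℓN hA x0

theorem coe_red1 (x0 : B1 N' A) :
    ((red1 N' A hℓN hA x0 : CRing N' A) : FresBar N' A) =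
      (redDataBar N' A).red ⟨mapK0Bar A N' (x0 : modularFunctionFieldFullC (K0 A) N'),
        mapK0Bar_mem_Rw N' A hℓN hA x0⟩ := rfl

theorem cVal_red1 (x0 : B1 N' A) :
    cVal N' A (red1 N' A hℓN hA x0) =
      (((redDataBar N' A).red ⟨mapK0Bar A N' (x0 : modularFunctionFieldFullC (K0 A) N'),
        mapK0Bar_mem_Rw N' A hℓN hA x0⟩ : FresBar N' A) : LaurentSeries kA) := rfl

/-- **`red₁ : B₁ → C` is surjective** (J1-SURJ over `R₀`) -/
theorem red1_surjective (h2 : ℓ = 2 → 3 ∣ N') (h3 : ℓ = 3 → 2 ∣ N') :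
    Function.Surjective (red1 N' A hℓN hA) := by
  intro y
  obtain ⟨x0, hw, hreg, hx0, hred⟩ :=
    lift_K0 N' A hℓN hA h2 h3 (y := (y : FresBar N' A)) y.2
  exact ⟨⟨x0, (mem_B1_iff N' A hℓN hA).2 ⟨hreg, hw⟩⟩, Subtype.ext hred⟩

/-- **`ker red₁ = {w₁ > 0}`** -/
theorem red1_eq_zero_iff {x0 : B1 N' A} :
    red1 N' A hℓN hA x0 = 0 ↔
      (x0 : modularFunctionFieldFullC (K0 A) N') ∈ (RwK0 A N').nonunits := by
  rw [mem_nonunits_Rw1K0_iff]
  have hx1 := mapK0Bar_mem_Rw N' A hℓN hA x0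
  constructor
  · intro h0
    have h2 : (redDataBar N' A).red ⟨mapK0Bar A N'
        (x0 : modularFunctionFieldFullC (K0 A) N'), hx1⟩ = 0 := by
      rw [← coe_red1 N' A hℓN hA x0, h0]; rfl
    have h3 := ((redDataBar N' A).red_eq_zero_iff _).1 h2
    rw [ValuationSubring.mem_nonunits_iff]
    exact (ValuationSubring.valuation_lt_one_iff _ _).1 h3
  · intro hn
    rw [ValuationSubring.mem_nonunits_iff] at hn
    have h3 : (⟨mapK0Bar A N' (x0 : modularFunctionFieldFullC (K0 A) N'), hx1⟩ :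
        (redDataBar N' A).Rw) ∈ IsLocalRing.maximalIdeal (redDataBar N' A).Rw :=
      (ValuationSubring.valuation_lt_one_iff _ _).2 hn
    have h2 := ((redDataBar N' A).red_eq_zero_iff _).2 h3
    apply Subtype.ext
    rw [coe_red1, h2]
    rfl

/-- `j` as an element of `B₁` -/
def jB1 : B1 N' A :=
  ⟨jC N' (K0 A), subset_icRing (R0 A) {jC N' (K0 A)} rfl⟩

/-- `red₁ j = j~` -/
theorem red1_jB1 :
    ((red1 N' A hℓN hA (jB1 N' A) : CRing N' A) : FresBar N' A) =
      Fermat.Agent.GK.QS.jt N' A := by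
  rw [coe_red1]
  have e : (⟨mapK0Bar A N' ((jB1 N' A : B1 N' A) :
      modularFunctionFieldFullC (K0 A) N'), mapK0Bar_mem_Rw N' A hℓN hA (jB1 N' A)⟩ :
      (redDataBar N' A).Rw) = ⟨jF N', jF_mem_Rw N' A⟩ :=
    Subtype.ext (mapK0Bar_jC A N')
  rw [e]
  rfl

/-- the constants `R₀ → B₁` -/
def cstB : R0 A →+* B1 N' A :=
  ((algebraMap (K0 A) (modularFunctionFieldFullC (K0 A) N')).comp (R0 A).subtype).codRestrict
    (B1 N' A) fun a => algebraMap_mem_icRing (R0 A) {jC N' (K0 A)} a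

@[simp] theorem coe_cstB (a : R0 A) :
    ((cstB N' A a : B1 N' A) : modularFunctionFieldFullC (K0 A) N') =
      algebraMap (K0 A) _ (a : K0 A) := rfl

/-- `red₁` on the constants is the residue map `R₀ → k₀ → k` -/
theorem red1_cstB (a : R0 A) :
    red1 N' A hℓN hA (cstB N' A a) =
      algebraMap kA (CRing N' A) (resMapK0 A (IsLocalRing.residue (R0 A) a)) := by
  apply Subtype.ext
  rw [coe_red1]
  have e : (⟨mapK0Bar A N' ((cstB N' A a : B1 N' A) :
      modularFunctionFieldFullC (K0 A) N'), mapK0Bar_mem_Rw N' A hℓN hA (cstB N' A a)⟩ :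
      (redDataBar N' A).Rw) =
      ⟨algebraMap Qb (FN N') ((Fermat.Agent.GK.Val.BaseChange.ιA (ι0 A) (R0 A) A (hA0 A) a : A) : Qb),
        ((redDataBar N' A).mem_A_iff _).1
          (Fermat.Agent.GK.Val.BaseChange.ιA (ι0 A) (R0 A) A (hA0 A) a).2⟩ :=
    Subtype.ext (mapK0Bar_algebraMap A N' (a : K0 A))
  have key := (redDataBar N' A).red_algebraMap
    (Fermat.Agent.GK.Val.BaseChange.ιA (ι0 A) (R0 A) A (hA0 A) a)
  rw [e]
  refine key.trans ?_
  rw [Fermat.Agent.GK.Val.BaseChange.resMap_residue]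
  rfl

/-- the uniformiser `q` in `B₁` -/
abbrev qB : B1 N' A := cstB N' A (q0 A ℓ)

include hℓN hA in
/-- `{w₁ > 0} ∩ B₁ = q B₁` (`e₁ = 1`) -/
theorem dvd_of_mem_nonunits {x0 : B1 N' A}
    (hx : (x0 : modularFunctionFieldFullC (K0 A) N') ∈ (RwK0 A N').nonunits) :
    qB N' A (ℓ := ℓ) ∣ x0 := by
  have hℓ : ℓ.Prime := Fact.out
  obtain ⟨y, hy, hxy⟩ := exists_eq_q_mul₁ A N' hℓ hA _ hx
  have hq0 : ((q0 A ℓ : R0 A) : K0 A) ≠ 0 := fun h0 =>
    (irreducible_q0 A hℓ hA).ne_zero (Subtype.ext h0)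
  have hy' : y = algebraMap (K0 A) _ ((q0 A ℓ : R0 A) : K0 A)⁻¹ *
      (x0 : modularFunctionFieldFullC (K0 A) N') := by
    rw [hxy, ← mul_assoc, ← map_mul, inv_mul_cancel₀ hq0, map_one, one_mul]
  have hreg : RegFin (K0 A) (jC N' (K0 A)) y := by
    rw [hy']
    exact (regFin_algebraMap _ _).mul ((mem_B1_iff N' A hℓN hA).1 x0.2).1
  exact ⟨⟨y, (mem_B1_iff N' A hℓN hA).2 ⟨hreg, hy⟩⟩, Subtype.ext hxy⟩

/-- **`ker red₁ = (q)`** -/
theorem ker_red1 :
    RingHom.ker (red1 N' A hℓN hA) = Ideal.span {qB N' A (ℓ := ℓ)} := by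
  have hℓ : ℓ.Prime := Fact.out
  ext x0
  rw [RingHom.mem_ker, Ideal.mem_span_singleton]
  constructor
  · intro h0
    exact dvd_of_mem_nonunits N' A hℓN hA ((red1_eq_zero_iff N' A hℓN hA).1 h0)
  · rintro ⟨y, rfl⟩
    rw [map_mul]
    have : red1 N' A hℓN hA (qB N' A (ℓ := ℓ)) = 0 := by
      rw [red1_eq_zero_iff]
      exact (ValuationSubring.mem_nonunits_iff _).2
        (Fermat.Agent.GL.Val.RamK0.isRamified_Rw1K0 A N' hℓ hA).lt_one
    rw [this, zero_mul]

include hA in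
theorem qB_ne_zero : qB N' A (ℓ := ℓ) ≠ 0 := by
  have hℓ : ℓ.Prime := Fact.out
  intro h0
  have h1 : algebraMap (K0 A) (modularFunctionFieldFullC (K0 A) N') ((q0 A ℓ : R0 A) : K0 A) = 0 :=
    congrArg Subtype.val h0
  rw [map_eq_zero] at h1
  exact (irreducible_q0 A hℓ hA).ne_zero (Subtype.ext h1)

/-! ### the three instances on `B₁` (helper80 `FrameInst` (A1)) -/

include hA in
theorem isNoetherianRing_B1 : IsNoetherianRing (B1 N' A) := by
  haveI := isScalarTower_R0 A N'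
  haveI := isDiscreteValuationRing_R0 A (Fact.out : ℓ.Prime) hA
  haveI := finiteDimensional_jC A N'
  haveI := isSeparable_jC A N'
  exact isNoetherianRing_chartRing (K := K0 A) _ (transcendental_jC_R0 A N')

include hA in
theorem isIntegrallyClosed_B1 : IsIntegrallyClosed (B1 N' A) := by
  haveI := isScalarTower_R0 A N'
  haveI := isDiscreteValuationRing_R0 A (Fact.out : ℓ.Prime) hA
  haveI := finiteDimensional_jC A N'
  haveI := isSeparable_jC A N'
  exact isIntegrallyClosed_chartRing (K := K0 A) _ (transcendental_jC_R0 A N')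

include hA in
theorem isFractionRing_B1 :
    IsFractionRing (B1 N' A) (modularFunctionFieldFullC (K0 A) N') := by
  haveI := isScalarTower_R0 A N'
  haveI := isDiscreteValuationRing_R0 A (Fact.out : ℓ.Prime) hA
  haveI := finiteDimensional_jC A N'
  haveI := isSeparable_jC A N'
  exact isFractionRing_chartRing (K := K0 A) _ (transcendental_jC_R0 A N')

end Fermat.Agent.GL.BRing1
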