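import Mathlib
import Fermat.Agent.GL.Red.BRingChart
import Fermat.Agent.GL.Gate.H4Producers

/-!
# GATE-L / H4 arm : `hLunit` over `K₀` (helper96)

`hLunit` of helper46's `H4Arm.h4_arm` / helper40's `TripleBuildArm.h4_arm_of_build` : a constant
`d ∈ K₀` with `w₁(d) = 0` is a unit of the node rings `locRing (P' n')` of the lower chart ring
`B'`.  Indeed `d, d⁻¹ ∈ R₀ ⊆ B'`.

* `mem_R0_of_valuation_eq_one`, `inv_mem_R0_of_valuation_eq_one`;
* `hLunit_of_le` : for ANY subring `B'` of `K₀(X₀(N))` containing the constants `R₀` and any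
  valuation subring `V` over `R₀`;
* `hLunit_BRingK0` (`B' = BRingK0 N' ℓ A h`, `V = RwK0`), `hLunit_chartRing`
  (`B' = chartRing (R0 A) t`).
-/

set_option autoImplicit false
set_option linter.unusedSectionVars false
set_option linter.style.haveILetI false
set_option synthInstance.maxHeartbeats 400000

noncomputable section

namespace Fermat.Agent.GL.LunitK0

open ModularCurve
open Fermat.Agent.GK.AL Fermat.Agent.GL.AL
open Fermat.Agent.GL.Val.GaussK0 Fermat.Agent.GL.Val.SecondK0
open Fermat.Agent.GL.Val.L1eAsmK0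
open Fermat.Agent.GL.Frame.Inst Fermat.Agent.GL.H4Producers
open Fermat.Agent.Common_helper32

variable (A : ValuationSubring Qb) (N : ℕ) [NeZero N]

section Generic

variable {V : ValuationSubring (modularFunctionFieldFullC (K0 A) N)}
  (hV : ∀ a : K0 A, algebraMap (K0 A) (modularFunctionFieldFullC (K0 A) N) a ∈ V ↔ a ∈ R0 A)

include hV in
theorem mem_R0_of_valuation_eq_one {d : K0 A}
    (hd : V.valuation (algebraMap (K0 A) (modularFunctionFieldFullC (K0 A) N) d) = 1) :
    d ∈ R0 A :=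
  (hV d).1 ((V.valuation_le_one_iff _).1 hd.le)

include hV in
theorem inv_mem_R0_of_valuation_eq_one {d : K0 A}
    (hd : V.valuation (algebraMap (K0 A) (modularFunctionFieldFullC (K0 A) N) d) = 1) :
    d⁻¹ ∈ R0 A := by
  refine (hV d⁻¹).1 ((V.valuation_le_one_iff _).1 ?_)
  rw [map_inv₀, map_inv₀, hd, inv_one]

include hV in
/-- **`hLunit`, generic form** : `B'` any subring containing the constants `R₀`. -/
theorem hLunit_of_le {B' : Subring (modularFunctionFieldFullC (K0 A) N)}
    (hB' : ∀ a : R0 A,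
      algebraMap (K0 A) (modularFunctionFieldFullC (K0 A) N) (a : K0 A) ∈ B')
    (d : K0 A)
    (hd : V.valuation (algebraMap (K0 A) (modularFunctionFieldFullC (K0 A) N) d) = 1)
    (n' : Ideal B') [n'.IsPrime] :
    algebraMap (K0 A) (modularFunctionFieldFullC (K0 A) N) d ∈
        locRing (E := modularFunctionFieldFullC (K0 A) N) n' ∧
      (algebraMap (K0 A) (modularFunctionFieldFullC (K0 A) N) d)⁻¹ ∈
        locRing (E := modularFunctionFieldFullC (K0 A) N) n' := by
  have h1 := mem_R0_of_valuation_eq_one A N hV hd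
  have h2 := inv_mem_R0_of_valuation_eq_one A N hV hd
  refine ⟨algebraMap_mem_locRing n' ⟨_, hB' ⟨d, h1⟩⟩, ?_⟩
  have := algebraMap_mem_locRing (E := modularFunctionFieldFullC (K0 A) N) n'
    ⟨_, hB' ⟨d⁻¹, h2⟩⟩
  rw [← map_inv₀]
  exact this

end Generic

section Chart

variable {q : ℕ} (hq : q.Prime) (hA : A.LiesOverPrime q)

include hq hA in
/-- **`hLunit`** at `B' = chartRing (R0 A) t`, `A₁ = w₁` -/
theorem hLunit_chartRing (t : modularFunctionFieldFullC (K0 A) N) (d : K0 A)
    (hd : (RwK0 A N).valuation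
      (algebraMap (K0 A) (modularFunctionFieldFullC (K0 A) N) d) = 1)
    (n' : Ideal (chartRing (R0 A) t)) [n'.IsPrime] :
    algebraMap (K0 A) (modularFunctionFieldFullC (K0 A) N) d ∈
        locRing (E := modularFunctionFieldFullC (K0 A) N) n' ∧
      (algebraMap (K0 A) (modularFunctionFieldFullC (K0 A) N) d)⁻¹ ∈
        locRing (E := modularFunctionFieldFullC (K0 A) N) n' :=
  hLunit_of_le A N (over_Rw1K0 A hq hA)
    (fun a => algebraMap_mem_icRing (R0 A) {t} a) d hd n'

end Chart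

section BRing

open Fermat.Agent.GL.BRingK0

variable {A} {N' : ℕ} [NeZero N'] {ℓ : ℕ} [Fact ℓ.Prime] [NeZero ℓ]
  (h : ExactDvd ℓ (N' * ℓ)) (hA : A.LiesOverPrime ℓ)

include hA in
/-- **`hLunit`** at `B' = BRingK0 N' ℓ A h`, `A₁ = w₁` -/
theorem hLunit_BRingK0 (d : K0 A)
    (hd : (RwK0 A (N' * ℓ)).valuation
      (algebraMap (K0 A) (modularFunctionFieldFullC (K0 A) (N' * ℓ)) d) = 1)
    (n' : Ideal (BRingK0 N' ℓ A h)) [n'.IsPrime] :
    algebraMap (K0 A) (modularFunctionFieldFullC (K0 A) (N' * ℓ)) d ∈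
        locRing (E := modularFunctionFieldFullC (K0 A) (N' * ℓ)) n' ∧
      (algebraMap (K0 A) (modularFunctionFieldFullC (K0 A) (N' * ℓ)) d)⁻¹ ∈
        locRing (E := modularFunctionFieldFullC (K0 A) (N' * ℓ)) n' :=
  hLunit_of_le A (N' * ℓ) (over_Rw1K0 A h.prime hA)
    (algebraMap_mem_BRingK0 N' ℓ A h) d hd n'

end BRing

end Fermat.Agent.GL.LunitK0
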