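import Mathlib
import Fermat.Agent.GL.Red.BRingChartInv
import Fermat.Agent.GL.Red.RatFinal
import Fermat.Agent.GL.Fibre.CRingInv

/-!
# GATE-L / B1-INV-RED : the chart ring at infinity of a good level over `R₀` and its reduction
(helper96)

`ℓ ∤ N'`, `A | ℓ` a valuation subring of `ℚ̄`, `K₀ = ℚ̄^{I_A}`, `R₀ = A ∩ K₀`, `F₀ = K₀(X₀(N'))`,
`B_∞ = B1Inv N' A = chartRing (R0 A) (jC N' (K0 A))⁻¹` (the integral closure of `R₀[1/j]` in `F₀`),
`C_∞ = CRingInv N' A` (helper9: the integral closure of `k[1/j~]` in the residue function field).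

* `mem_B1Inv_iff` : `x0 ∈ B_∞ ↔ RegFin K₀ (1/j) x0 ∧ w₁ x0 ≥ 0`;
* `regFin_red` : integrality of the reduction (`redRegFin_bar_inv`);
* `red1Inv : B_∞ →+* C_∞` (`coe_red1Inv` : it is `(redDataBar N' A).red ∘ mapK0Bar`);
* `red1Inv_surjective` (= `RatFinal.lift_K0_inv`);
* `red1Inv_eq_zero_iff` : `ker = {w₁ > 0}`; `dvd_of_mem_nonunits`, `ker_red1Inv` : **`ker = (q)`**;
* `jInvB`, `red1Inv_jInvB` : `red₁ (1/j) = 1/j~`; `cstB`, `red1Inv_cstB` : constants.
-/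

set_option autoImplicit false
set_option linter.unusedSectionVars false
set_option linter.style.haveILetI false
set_option synthInstance.maxHeartbeats 400000

noncomputable section

namespace Fermat.Agent.GL.BRing1Inv

open ModularCurve IntermediateField Polynomial IsLocalRing
open Fermat.Agent.S24 Fermat.Agent.S24_helper62
open Fermat.Agent.GJ.J1 Fermat.Agent.GJ.J1.Val Fermat.Agent.GJ.J1.Haupt
open Fermat.Agent.GK.AL Fermat.Agent.GL.AL Fermat.Agent.GK.QS Fermat.Agent.GK.CuspSep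
open Fermat.Agent.GL.Val.GaussK0 Fermat.Agent.GL.Val.SecondK0 Fermat.Agent.GL.Val.DegBase
open Fermat.Agent.GL.Frame.Inst
open Fermat.Agent.GL.RatLiftK0 Fermat.Agent.GL.RatBRing Fermat.Agent.GL.RatChart
open Fermat.Agent.GL.RatFinal
open Fermat.Agent.GL.BRingChart Fermat.Agent.GL.BRingChartInv Fermat.Agent.GL.CRingInv
open Fermat.Agent.Common_helper32

variable (N' : ℕ) [NeZero N'] {ℓ : ℕ} [Fact ℓ.Prime] (A : ValuationSubring Qb)
variable (hℓN : ¬ ℓ ∣ N') (hA : A.LiesOverPrime ℓ)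

local notation "kA" => IsLocalRing.ResidueField A

/-- the chart ring at infinity of level `N'` over `R₀` -/
abbrev B1Inv : Subring (modularFunctionFieldFullC (K0 A) N') :=
  chartRing (R0 A) (jC N' (K0 A))⁻¹

include hℓN hA in
theorem mem_B1Inv_iff {x0 : modularFunctionFieldFullC (K0 A) N'} :
    x0 ∈ B1Inv N' A ↔ RegFin (K0 A) (jC N' (K0 A))⁻¹ x0 ∧ x0 ∈ RwK0 A N' :=
  mem_chartRing_jC_inv_iff_one A N' Fact.out hA hℓN x0

include hℓN hA in
theorem mapK0Bar_mem_Rw (x0 : B1Inv N' A) :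
    mapK0Bar A N' (x0 : modularFunctionFieldFullC (K0 A) N') ∈ (redDataBar N' A).Rw :=
  (mem_Rw1K0_iff A N' _).1 ((mem_B1Inv_iff N' A hℓN hA).1 x0.2).2

include hℓN hA in
theorem regFin_mapK0Bar (x0 : B1Inv N' A) :
    RegFin Qb (jF N')⁻¹ (mapK0Bar A N' (x0 : modularFunctionFieldFullC (K0 A) N')) := by
  have h1 := ((mem_B1Inv_iff N' A hℓN hA).1 x0.2).1
  rw [regFin_iff_map, map_inv₀, mapK0Bar_jC] at h1
  exact h1

include hℓN hA in
/-- **integrality of the reduction** : the `w₁`-reduction of an element of `B_{1/j}` is integral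
over `k[1/j~]`. -/
theorem regFin_red (x0 : B1Inv N' A) :
    RegFin kA (Fermat.Agent.GK.QS.jt N' A)⁻¹
      ((redDataBar N' A).red ⟨mapK0Bar A N' (x0 : modularFunctionFieldFullC (K0 A) N'),
        mapK0Bar_mem_Rw N' A hℓN hA x0⟩) := by
  obtain ⟨hji, hjr⟩ := isRed1_inv_jF N' A
  have h1 := Fermat.Agent.GJ.Gauss.redRegFin_bar_inv N' hℓN A hA le_rfl
    (Fermat.Agent.GJ.Gauss.isGaussChart_jF N' A) hji _ (mapK0Bar_mem_Rw N' A hℓN hA x0)
    (regFin_mapK0Bar N' A hℓN hA x0)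
  rw [hjr] at h1
  exact h1

/-- `B_{1/j} → Rw₁` (base extension to `ℚ̄`) -/
def toRw : B1Inv N' A →+* (redDataBar N' A).Rw :=
  (mapK0Bar A N').restrict (B1Inv N' A) (redDataBar N' A).Rw.toSubring
    fun x hx => mapK0Bar_mem_Rw N' A hℓN hA ⟨x, hx⟩

@[simp] theorem coe_toRw (x0 : B1Inv N' A) :
    ((toRw N' A hℓN hA x0 : (redDataBar N' A).Rw) : FN N') =
      mapK0Bar A N' (x0 : modularFunctionFieldFullC (K0 A) N') := rfl

/-- **`red₁ : B_{1/j} → C_∞`** : the reduction of the chart ring at infinity of level `N'` over `R₀`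
onto the coordinate ring at infinity `CRingInv N' A` of the special fibre. -/
def red1Inv : B1Inv N' A →+* CRingInv N' A :=
  (((redDataBar N' A).red).comp (toRw N' A hℓN hA)).codRestrict (CRingInv N' A)
    fun x0 => regFin_red N' A hℓN hA x0

theorem coe_red1Inv (x0 : B1Inv N' A) :
    ((red1Inv N' A hℓN hA x0 : CRingInv N' A) : FresBar N' A) =
      (redDataBar N' A).red ⟨mapK0Bar A N' (x0 : modularFunctionFieldFullC (K0 A) N'),
        mapK0Bar_mem_Rw N' A hℓN hA x0⟩ := rfl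

/-- **`red₁ : B_{1/j} → C_∞` is surjective** (J1-SURJ over `R₀` at the chart at infinity) -/
theorem red1Inv_surjective (h2 : ℓ = 2 → 3 ∣ N') (h3 : ℓ = 3 → 2 ∣ N') :
    Function.Surjective (red1Inv N' A hℓN hA) := by
  intro y
  obtain ⟨x0, hw, hreg, hx0, hred⟩ :=
    lift_K0_inv N' A hℓN hA h2 h3 (y := (y : FresBar N' A)) y.2
  exact ⟨⟨x0, (mem_B1Inv_iff N' A hℓN hA).2 ⟨hreg, hw⟩⟩, Subtype.ext hred⟩

/-- **`ker red₁ = {w₁ > 0}`** -/
theorem red1Inv_eq_zero_iff {x0 : B1Inv N' A} :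
    red1Inv N' A hℓN hA x0 = 0 ↔
      (x0 : modularFunctionFieldFullC (K0 A) N') ∈ (RwK0 A N').nonunits := by
  rw [mem_nonunits_Rw1K0_iff]
  have hx1 := mapK0Bar_mem_Rw N' A hℓN hA x0
  constructor
  · intro h0
    have h2 : (redDataBar N' A).red ⟨mapK0Bar A N'
        (x0 : modularFunctionFieldFullC (K0 A) N'), hx1⟩ = 0 := by
      rw [← coe_red1Inv N' A hℓN hA x0, h0]; rfl
    have h3 := ((redDataBar N' A).red_eq_zero_iff _).1 h2
    rw [ValuationSubring.mem_nonunits_iff]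
    exact (ValuationSubring.valuation_lt_one_iff _ _).1 h3
  · intro hn
    rw [ValuationSubring.mem_nonunits_iff] at hn
    have h3 : (⟨mapK0Bar A N' (x0 : modularFunctionFieldFullC (K0 A) N'), hx1⟩ :
        (redDataBar N' A).Rw) ∈ IsLocalRing.maximalIdeal (redDataBar N' A).Rw :=
      (ValuationSubring.valuation_lt_one_iff _ _).2 hn
    have h2 := ((redDataBar N' A).red_eq_zero_iff _).2 h3
    apply Subtype.ext
    rw [coe_red1Inv, h2]
    rfl

/-- `1/j` as an element of `B_{1/j}` -/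
def jInvB : B1Inv N' A :=
  ⟨(jC N' (K0 A))⁻¹, subset_icRing (R0 A) {(jC N' (K0 A))⁻¹} rfl⟩

/-- `red₁ (1/j) = 1/j~` -/
theorem red1Inv_jInvB :
    ((red1Inv N' A hℓN hA (jInvB N' A) : CRingInv N' A) : FresBar N' A) =
      (Fermat.Agent.GK.QS.jt N' A)⁻¹ := by
  obtain ⟨hji, hjr⟩ := isRed1_inv_jF N' A
  rw [coe_red1Inv]
  have e : (⟨mapK0Bar A N' ((jInvB N' A : B1Inv N' A) :
      modularFunctionFieldFullC (K0 A) N'), mapK0Bar_mem_Rw N' A hℓN hA (jInvB N' A)⟩ :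
      (redDataBar N' A).Rw) = ⟨(jF N')⁻¹, hji⟩ := by
    apply Subtype.ext
    show mapK0Bar A N' (jC N' (K0 A))⁻¹ = (jF N')⁻¹
    rw [map_inv₀, mapK0Bar_jC]
  rw [e, hjr]
  rfl

/-- the constants `R₀ → B_{1/j}` -/
def cstB : R0 A →+* B1Inv N' A :=
  ((algebraMap (K0 A) (modularFunctionFieldFullC (K0 A) N')).comp (R0 A).subtype).codRestrict
    (B1Inv N' A) fun a => algebraMap_mem_icRing (R0 A) {(jC N' (K0 A))⁻¹} a

@[simp] theorem coe_cstB (a : R0 A) :
    ((cstB N' A a : B1Inv N' A) : modularFunctionFieldFullC (K0 A) N') =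
      algebraMap (K0 A) _ (a : K0 A) := rfl

/-- `red₁` on the constants is the residue map `R₀ → k₀ → k` -/
theorem red1Inv_cstB (a : R0 A) :
    red1Inv N' A hℓN hA (cstB N' A a) =
      algebraMap kA (CRingInv N' A) (resMapK0 A (IsLocalRing.residue (R0 A) a)) := by
  apply Subtype.ext
  rw [coe_red1Inv]
  have e : (⟨mapK0Bar A N' ((cstB N' A a : B1Inv N' A) :
      modularFunctionFieldFullC (K0 A) N'), mapK0Bar_mem_Rw N' A hℓN hA (cstB N' A a)⟩ :
      (redDataBar N' A).Rw) =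
      ⟨algebraMap Qb (FN N') ((Fermat.Agent.GK.Val.BaseChange.ιA (ι0 A) (R0 A) A (hA0 A) a : A) : Qb),
        ((redDataBar N' A).mem_A_iff _).1
          (Fermat.Agent.GK.Val.BaseChange.ιA (ι0 A) (R0 A) A (hA0 A) a).2⟩ :=
    Subtype.ext (mapK0Bar_algebraMap A N' (a : K0 A))
  have key := (redDataBar N' A).red_algebraMap
    (Fermat.Agent.GK.Val.BaseChange.ιA (ι0 A) (R0 A) A (hA0 A) a)
  rw [e]
  refine key.trans ?_
  rw [Fermat.Agent.GK.Val.BaseChange.resMap_residue]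
  rfl

/-- the uniformiser `q` in `B_{1/j}` -/
abbrev qB : B1Inv N' A := cstB N' A (q0 A ℓ)

include hℓN hA in
/-- `{w₁ > 0} ∩ B_{1/j} = q B_{1/j}` (`e₁ = 1`) -/
theorem dvd_of_mem_nonunits {x0 : B1Inv N' A}
    (hx : (x0 : modularFunctionFieldFullC (K0 A) N') ∈ (RwK0 A N').nonunits) :
    qB N' A (ℓ := ℓ) ∣ x0 := by
  have hℓ : ℓ.Prime := Fact.out
  obtain ⟨y, hy, hxy⟩ := exists_eq_q_mul₁ A N' hℓ hA _ hx
  have hq0 : ((q0 A ℓ : R0 A) : K0 A) ≠ 0 := fun h0 =>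
    (irreducible_q0 A hℓ hA).ne_zero (Subtype.ext h0)
  have hy' : y = algebraMap (K0 A) _ ((q0 A ℓ : R0 A) : K0 A)⁻¹ *
      (x0 : modularFunctionFieldFullC (K0 A) N') := by
    rw [hxy, ← mul_assoc, ← map_mul, inv_mul_cancel₀ hq0, map_one, one_mul]
  have hreg : RegFin (K0 A) (jC N' (K0 A))⁻¹ y := by
    rw [hy']
    exact (regFin_algebraMap _ _).mul ((mem_B1Inv_iff N' A hℓN hA).1 x0.2).1
  exact ⟨⟨y, (mem_B1Inv_iff N' A hℓN hA).2 ⟨hreg, hy⟩⟩, Subtype.ext hxy⟩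

/-- **`ker red₁ = (q)`** -/
theorem ker_red1Inv :
    RingHom.ker (red1Inv N' A hℓN hA) = Ideal.span {qB N' A (ℓ := ℓ)} := by
  have hℓ : ℓ.Prime := Fact.out
  ext x0
  rw [RingHom.mem_ker, Ideal.mem_span_singleton]
  constructor
  · intro h0
    exact dvd_of_mem_nonunits N' A hℓN hA ((red1Inv_eq_zero_iff N' A hℓN hA).1 h0)
  · rintro ⟨y, rfl⟩
    rw [map_mul]
    have : red1Inv N' A hℓN hA (qB N' A (ℓ := ℓ)) = 0 := by
      rw [red1Inv_eq_zero_iff]
      exact (ValuationSubring.mem_nonunits_iff _).2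
        (Fermat.Agent.GL.Val.RamK0.isRamified_Rw1K0 A N' hℓ hA).lt_one
    rw [this, zero_mul]

end Fermat.Agent.GL.BRing1Inv
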