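import Fermat.Agent.GL.Red.BRingK0
import Fermat.Agent.GL.Fibre.CRingInv

/-!
# GATE-L / BRING-K0-INV (helper30): the `1/j` twin of helper96's `BRingK0`

`ℓ ∥ N = N' ℓ`, `A | ℓ` a valuation subring of `ℚ̄`, `K₀ = ℚ̄^{I_A}`, `R = A ∩ K₀`,
`C∞ = CRingInv N' A` (helper9: the integral closure of `k[1/j~]` in `F~_{N'}`, a Dedekind domain).

* `BRingInv N' ℓ A h ⊂ F_{N'ℓ}` : `x` integral over `ℚ̄[1/j]` with `w₁ x ≥ 0`, `w₂ x ≥ 0`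
  (the chart at infinity of the model of `X₀(N'ℓ)`);
* `redInv1`, `redInv2 : BRingInv →+* C∞` (**K-RED at the chart `1/j`**: helper96's
  `redRegFinOn_ball2_inv`; `red₂ (1/j) = (1/j~)^ℓ`), with `cValInv (redInv_i x) = rhoInv_i x`;
* `redInv1_surjective` (J1-SURJ at infinity `exists_lift_bar_inv` + the old lift `α`);
* `BRingK0Inv ⊂ K₀(X₀(N'ℓ))` : `x0` integral over `K₀[1/j₀]`, `w₁ x0 ≥ 0`, `w₂ x0 ≥ 0`
  (`mem_BRingK0Inv`); `redInv1K0`, `redInv2K0 : BRingK0Inv →+* C∞`;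
  `exists_redInvK0_eq` (**`rd(B∞_R) = rd(B∞)`**, helper96's `ratLift_ball2_chart` at `t0 = 1/j₀`);
  **`redInv1K0_surjective`**;
* the `W_ℓ`-twin `BRingK0InvQ = W_ℓ (BRingK0Inv)` : `x0` integral over `K₀[1/j_ℓ]`, `w₁, w₂ ≥ 0`
  (`mem_BRingK0InvQ`), with `redInvQ2K0 : BRingK0InvQ →+* C∞`, `red₂ x0 = red₁ (W_ℓ x0)`,
  **`redInvQ2K0_surjective`** (the second component is reached by `β`-lifts, which are integral
  over `K₀[1/j_ℓ]`, not over `K₀[1/j]`).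
-/

set_option autoImplicit false
set_option linter.unusedSectionVars false
set_option linter.style.haveILetI false

noncomputable section

namespace Fermat.Agent.GL.Red.BRingK0Inv

open HahnSeries ModularCurve IsLocalRing IntermediateField
open Fermat.Agent.S24 Fermat.Agent.S24_helper62
open Fermat.Agent.GJ.J1 Fermat.Agent.GJ.J1.G1 Fermat.Agent.GJ.J1.Val Fermat.Agent.GJ.FiniteLevel
open Fermat.Agent.GK.AL Fermat.Agent.GK.MultiVal Fermat.Agent.GK.Red Fermat.Agent.GK.QS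
open Fermat.Agent.GK.FrobGlue Fermat.Agent.GK.CuspSep
open Fermat.Agent.GL.Val.GaussK0 Fermat.Agent.GL.Val.SecondK0 Fermat.Agent.GL.Val.DegBase
open Fermat.Agent.GL.RatLiftK0 Fermat.Agent.GL.RatBRing Fermat.Agent.GL.RatChart
open Fermat.Agent.GL.RatFinal
open Fermat.Agent.GL.Thick Fermat.Agent.GL.CRingInv
open Fermat.Agent.Common_helper32 Fermat.Agent.GJ.J1.Haupt Fermat.Agent.GJ.HN

variable (N' : ℕ) [NeZero N'] (ℓ : ℕ) [Fact ℓ.Prime] [NeZero ℓ]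
variable (A : ValuationSubring Kbar) (h : ExactDvd ℓ (N' * ℓ))

local notation "kA" => IsLocalRing.ResidueField A
local notation "F0" => modularFunctionFieldFullC (K0 A) (N' * ℓ)

/-! ### The ring `B∞` over `ℚ̄` -/

/-- **the ring `B∞`** of functions regular off the zeros of `j` with `w₁ ≥ 0` and `w₂ ≥ 0` -/
def BRingInv : Subring (FN (N' * ℓ)) where
  carrier := {x | RegFin Kbar (jF (N' * ℓ))⁻¹ x ∧ x ∈ (redDataBar (N' * ℓ) A).Rw ∧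
    x ∈ (redData2 (N' * ℓ) A h).Rw}
  mul_mem' := fun ⟨a1, a2, a3⟩ ⟨b1, b2, b3⟩ => ⟨a1.mul b1, mul_mem a2 b2, mul_mem a3 b3⟩
  one_mem' := ⟨regFin_one _, one_mem _, one_mem _⟩
  add_mem' := fun ⟨a1, a2, a3⟩ ⟨b1, b2, b3⟩ => ⟨a1.add b1, add_mem a2 b2, add_mem a3 b3⟩
  zero_mem' := ⟨regFin_zero _, zero_mem _, zero_mem _⟩
  neg_mem' := fun ⟨a1, a2, a3⟩ => ⟨a1.neg, neg_mem a2, neg_mem a3⟩

variable {N' ℓ A h}

theorem mem_BRingInv {x : FN (N' * ℓ)} :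
    x ∈ BRingInv N' ℓ A h ↔ RegFin Kbar (jF (N' * ℓ))⁻¹ x ∧ x ∈ (redDataBar (N' * ℓ) A).Rw ∧
      x ∈ (redData2 (N' * ℓ) A h).Rw := Iff.rfl

/-- constants of `A` lie in `B∞` -/
theorem algebraMap_mem_BRingInv (a : A) :
    algebraMap Kbar (FN (N' * ℓ)) (a : Kbar) ∈ BRingInv N' ℓ A h :=
  ⟨regFin_algebraMap _ _, ((redDataBar (N' * ℓ) A).mem_A_iff a).1 a.2,
    ((redData2 (N' * ℓ) A h).mem_A_iff a).1 a.2⟩

/-- `1/j ∈ B∞` -/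
theorem inv_jF_mem_BRingInv (hA : A.LiesOverPrime ℓ) : (jF (N' * ℓ))⁻¹ ∈ BRingInv N' ℓ A h :=
  ⟨regFin_self _, (isRed1_inv_jF (N' * ℓ) A).1, (isRed2_inv_jF (N' * ℓ) A h hA).1⟩

/-- `α f ∈ B∞` for `f` integral over `ℚ̄[1/j]` with `w f ≥ 0` -/
theorem alphaB_mem_BRingInv {f : FN N'} (hf : RegFin Kbar (jF N')⁻¹ f) (hw : f ∈ RwBar N' A) :
    alphaB N' ℓ f ∈ BRingInv N' ℓ A h := by
  refine ⟨RegFin.map_algHom (alphaB N' ℓ) ?_ hf, (alpha_mem_RwBar_iff N' ℓ A f).mpr hw, ?_⟩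
  · rw [map_inv₀, alphaB_jF]
    exact regFin_self _
  · rw [mem_Rw2_iff, wAut_alphaB]
    exact (beta_mem_RwBar_iff N' ℓ A f).mpr hw

variable (N' ℓ A h)

/-- `B∞ → Rw₁` -/
def toRwInv1 : BRingInv N' ℓ A h →+* (redDataBar (N' * ℓ) A).Rw where
  toFun x := ⟨x.1, x.2.2.1⟩
  map_one' := Subtype.ext rfl
  map_mul' _ _ := Subtype.ext rfl
  map_zero' := Subtype.ext rfl
  map_add' _ _ := Subtype.ext rfl

/-- `B∞ → Rw₂` -/
def toRwInv2 : BRingInv N' ℓ A h →+* (redData2 (N' * ℓ) A h).Rw where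
  toFun x := ⟨x.1, x.2.2.2⟩
  map_one' := Subtype.ext rfl
  map_mul' _ _ := Subtype.ext rfl
  map_zero' := Subtype.ext rfl
  map_add' _ _ := Subtype.ext rfl

/-- **`red₁` on `B∞`**, with values in `k((Q))` -/
def rhoInv1 : BRingInv N' ℓ A h →+* LaurentSeries kA :=
  (FresBar (N' * ℓ) A).val.toRingHom.comp
    ((redDataBar (N' * ℓ) A).red.comp (toRwInv1 N' ℓ A h))

/-- **`red₂ = red₁ ∘ W_ℓ` on `B∞`**, with values in `k((Q))` -/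
def rhoInv2 : BRingInv N' ℓ A h →+* LaurentSeries kA :=
  (FresBar (N' * ℓ) A).val.toRingHom.comp
    ((redData2 (N' * ℓ) A h).red.comp (toRwInv2 N' ℓ A h))

theorem rhoInv1_apply (x : BRingInv N' ℓ A h) :
    rhoInv1 N' ℓ A h x =
      (((redDataBar (N' * ℓ) A).red ⟨x.1, x.2.2.1⟩ : FresBar (N' * ℓ) A) : LaurentSeries kA) := rfl

theorem rhoInv2_apply (x : BRingInv N' ℓ A h) :
    rhoInv2 N' ℓ A h x =
      (((redData2 (N' * ℓ) A h).red ⟨x.1, x.2.2.2⟩ : FresBar (N' * ℓ) A) : LaurentSeries kA) := rfl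

/-- the coordinate ring at infinity `C∞` inside `k((Q))` -/
def cValInv : CRingInv N' A →ₐ[kA] LaurentSeries kA := (FresBar N' A).val.comp (CRingInv N' A).val

theorem cValInv_apply (a : CRingInv N' A) :
    cValInv N' A a = ((a : FresBar N' A) : LaurentSeries kA) := rfl

theorem cValInv_injective : Function.Injective (cValInv N' A) := fun _ _ hab =>
  Subtype.ext (Subtype.ext hab)

/-- the relative integrality transfer for both Gauss valuations on `Rw₁ ⊓ Rw₂`, chart `1/j` -/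
theorem redRegFinOn_inv_jF (hℓN : ¬ ℓ ∣ N') (hA : A.LiesOverPrime ℓ) :
    RedRegFinOn (redDataBar (N' * ℓ) A)
        (ball2 (redDataBar (N' * ℓ) A) (redData2 (N' * ℓ) A h)) (jF (N' * ℓ))⁻¹ ∧
      RedRegFinOn (redData2 (N' * ℓ) A h)
        (ball2 (redDataBar (N' * ℓ) A) (redData2 (N' * ℓ) A h)) (jF (N' * ℓ))⁻¹ := by
  have := Fermat.Agent.GJ.J1.Val.finiteDimensional_jF (N' * ℓ)
  exact redRegFinOn_ball2_inv (Fermat.Agent.GK.Val.TwoVal.redCompat N' ℓ A h)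
    (Rw1_ne_Rw2 (N' * ℓ) A h hA) (isGaussChart_jF_1 (N' * ℓ) A) (isGaussChart_jF_2 (N' * ℓ) A h)
    (Fermat.Agent.GK.Val.TwoVal.degrees N' ℓ A h hℓN hA _ _).2.2.2.ge
    (isRed1_inv_jF (N' * ℓ) A).1 (isRed2_inv_jF (N' * ℓ) A h hA).1

variable {N' ℓ A h}

/-- `F̃_{N'ℓ} ∋ red₁ (1/j) ↦ 1/j~ ∈ F̃_{N'}` -/
theorem fresIncl_red1_inv_jF (hℓN : ¬ ℓ ∣ N') (hA : A.LiesOverPrime ℓ)
    (hj : (jF (N' * ℓ))⁻¹ ∈ (redDataBar (N' * ℓ) A).Rw) :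
    fresIncl N' ℓ A hℓN hA ((redDataBar (N' * ℓ) A).red ⟨(jF (N' * ℓ))⁻¹, hj⟩) =
      (Fermat.Agent.GK.QS.jt N' A)⁻¹ := by
  obtain ⟨hj', e⟩ := isRed1_inv_jF (N' * ℓ) A
  rw [e, map_inv₀]
  congr 1
  exact fresIncl_red1_jF hℓN hA (jF_mem_Rw (N' * ℓ) A)

/-- `F̃_{N'ℓ} ∋ red₂ (1/j) ↦ (1/j~) ^ ℓ ∈ F̃_{N'}` -/
theorem fresIncl_red2_inv_jF (hℓN : ¬ ℓ ∣ N') (hA : A.LiesOverPrime ℓ)
    (hj : (jF (N' * ℓ))⁻¹ ∈ (redData2 (N' * ℓ) A h).Rw) :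
    fresIncl N' ℓ A hℓN hA ((redData2 (N' * ℓ) A h).red ⟨(jF (N' * ℓ))⁻¹, hj⟩) =
      (Fermat.Agent.GK.QS.jt N' A)⁻¹ ^ ℓ := by
  obtain ⟨hj', e⟩ := isRed2_inv_jF (N' * ℓ) A h hA
  rw [e, map_pow, map_inv₀]
  congr 2
  exact fresIncl_red1_jF hℓN hA (jF_mem_Rw (N' * ℓ) A)

/-- **K-RED at infinity, first component**: every `x ∈ B∞` reduces under `w₁` into `C∞` -/
theorem rhoInv1_mem_range (hℓN : ¬ ℓ ∣ N') (hA : A.LiesOverPrime ℓ) (x : BRingInv N' ℓ A h) :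
    ∃ c : CRingInv N' A, cValInv N' A c = rhoInv1 N' ℓ A h x := by
  have hji := (isRed1_inv_jF (N' * ℓ) A).1
  have hreg := (redRegFinOn_inv_jF N' ℓ A h hℓN hA).1 hji x.1 x.2.2.1
    (mem_ball2.mpr ⟨x.2.2.1, x.2.2.2⟩) x.2.1
  have h2 := regFin_map_of_algHom (fresIncl N' ℓ A hℓN hA) hreg
  rw [fresIncl_red1_inv_jF hℓN hA] at h2
  refine ⟨⟨fresIncl N' ℓ A hℓN hA ((redDataBar (N' * ℓ) A).red ⟨x.1, x.2.2.1⟩), h2⟩, ?_⟩
  rw [cValInv_apply, rhoInv1_apply]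
  exact coe_fresIncl N' ℓ A hℓN hA _

/-- **K-RED at infinity, second component**: every `x ∈ B∞` reduces under `w₂` into `C∞` -/
theorem rhoInv2_mem_range (hℓN : ¬ ℓ ∣ N') (hA : A.LiesOverPrime ℓ) (x : BRingInv N' ℓ A h) :
    ∃ c : CRingInv N' A, cValInv N' A c = rhoInv2 N' ℓ A h x := by
  have hji := (isRed2_inv_jF (N' * ℓ) A h hA).1
  have hreg := (redRegFinOn_inv_jF N' ℓ A h hℓN hA).2 hji x.1 x.2.2.2
    (mem_ball2.mpr ⟨x.2.2.1, x.2.2.2⟩) x.2.1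
  have h2 := regFin_map_of_algHom (fresIncl N' ℓ A hℓN hA) hreg
  rw [fresIncl_red2_inv_jF hℓN hA] at h2
  have h3 : RegFin kA (Fermat.Agent.GK.QS.jt N' A)⁻¹
      (fresIncl N' ℓ A hℓN hA ((redData2 (N' * ℓ) A h).red ⟨x.1, x.2.2.2⟩)) :=
    Fermat.Agent.GJ.J1.Disc.regFin_of_adjoin_le (s' := (Fermat.Agent.GK.QS.jt N' A)⁻¹) (by
      refine Algebra.adjoin_le ?_
      rintro _ rfl
      exact pow_mem (Algebra.self_mem_adjoin_singleton kA _) ℓ) h2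
  refine ⟨⟨fresIncl N' ℓ A hℓN hA ((redData2 (N' * ℓ) A h).red ⟨x.1, x.2.2.2⟩), h3⟩, ?_⟩
  rw [cValInv_apply, rhoInv2_apply]
  exact coe_fresIncl N' ℓ A hℓN hA _

/-- the `w₁`-reduction of `x ∈ B∞` as an element of `C∞` -/
def redInv1 (hℓN : ¬ ℓ ∣ N') (hA : A.LiesOverPrime ℓ) (x : BRingInv N' ℓ A h) : CRingInv N' A :=
  (rhoInv1_mem_range hℓN hA x).choose

/-- the `w₂`-reduction of `x ∈ B∞` as an element of `C∞` -/
def redInv2 (hℓN : ¬ ℓ ∣ N') (hA : A.LiesOverPrime ℓ) (x : BRingInv N' ℓ A h) : CRingInv N' A :=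
  (rhoInv2_mem_range hℓN hA x).choose

theorem cValInv_redInv1 (hℓN : ¬ ℓ ∣ N') (hA : A.LiesOverPrime ℓ) (x : BRingInv N' ℓ A h) :
    cValInv N' A (redInv1 hℓN hA x) = rhoInv1 N' ℓ A h x :=
  (rhoInv1_mem_range hℓN hA x).choose_spec

theorem cValInv_redInv2 (hℓN : ¬ ℓ ∣ N') (hA : A.LiesOverPrime ℓ) (x : BRingInv N' ℓ A h) :
    cValInv N' A (redInv2 hℓN hA x) = rhoInv2 N' ℓ A h x :=
  (rhoInv2_mem_range hℓN hA x).choose_spec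

/-- `redInv1 x` is characterised by its Laurent series -/
theorem redInv1_eq_of_cValInv (hℓN : ¬ ℓ ∣ N') (hA : A.LiesOverPrime ℓ) (x : BRingInv N' ℓ A h)
    {c : CRingInv N' A} (hc : cValInv N' A c = rhoInv1 N' ℓ A h x) : redInv1 hℓN hA x = c :=
  cValInv_injective N' A ((cValInv_redInv1 hℓN hA x).trans hc.symm)

theorem redInv2_eq_of_cValInv (hℓN : ¬ ℓ ∣ N') (hA : A.LiesOverPrime ℓ) (x : BRingInv N' ℓ A h)
    {c : CRingInv N' A} (hc : cValInv N' A c = rhoInv2 N' ℓ A h x) : redInv2 hℓN hA x = c :=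
  cValInv_injective N' A ((cValInv_redInv2 hℓN hA x).trans hc.symm)

/-- **`red₁ : B∞ →+* C∞`** -/
def redInv1Hom (hℓN : ¬ ℓ ∣ N') (hA : A.LiesOverPrime ℓ) :
    BRingInv N' ℓ A h →+* CRingInv N' A where
  toFun := redInv1 hℓN hA
  map_one' := redInv1_eq_of_cValInv hℓN hA 1 (by rw [map_one, map_one])
  map_mul' x y := redInv1_eq_of_cValInv hℓN hA (x * y) (by
    rw [map_mul, map_mul, cValInv_redInv1, cValInv_redInv1])
  map_zero' := redInv1_eq_of_cValInv hℓN hA 0 (by rw [map_zero, map_zero])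
  map_add' x y := redInv1_eq_of_cValInv hℓN hA (x + y) (by
    rw [map_add, map_add, cValInv_redInv1, cValInv_redInv1])

/-- **`red₂ : B∞ →+* C∞`** -/
def redInv2Hom (hℓN : ¬ ℓ ∣ N') (hA : A.LiesOverPrime ℓ) :
    BRingInv N' ℓ A h →+* CRingInv N' A where
  toFun := redInv2 hℓN hA
  map_one' := redInv2_eq_of_cValInv hℓN hA 1 (by rw [map_one, map_one])
  map_mul' x y := redInv2_eq_of_cValInv hℓN hA (x * y) (by
    rw [map_mul, map_mul, cValInv_redInv2, cValInv_redInv2])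
  map_zero' := redInv2_eq_of_cValInv hℓN hA 0 (by rw [map_zero, map_zero])
  map_add' x y := redInv2_eq_of_cValInv hℓN hA (x + y) (by
    rw [map_add, map_add, cValInv_redInv2, cValInv_redInv2])

@[simp] theorem redInv1Hom_apply (hℓN : ¬ ℓ ∣ N') (hA : A.LiesOverPrime ℓ)
    (x : BRingInv N' ℓ A h) : redInv1Hom hℓN hA x = redInv1 hℓN hA x := rfl

@[simp] theorem redInv2Hom_apply (hℓN : ¬ ℓ ∣ N') (hA : A.LiesOverPrime ℓ)
    (x : BRingInv N' ℓ A h) : redInv2Hom hℓN hA x = redInv2 hℓN hA x := rfl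

/-- `red₁ (1/j) = 1/j~` in `C∞` -/
theorem redInv1_inv_jF (hℓN : ¬ ℓ ∣ N') (hA : A.LiesOverPrime ℓ) :
    redInv1 hℓN hA (⟨(jF (N' * ℓ))⁻¹, inv_jF_mem_BRingInv hA⟩ : BRingInv N' ℓ A h) =
      ⟨(Fermat.Agent.GK.QS.jt N' A)⁻¹, inv_jt_mem_CRingInv N' A⟩ := by
  refine redInv1_eq_of_cValInv hℓN hA _ ?_
  rw [cValInv_apply, rhoInv1_apply, ← coe_fresIncl N' ℓ A hℓN hA, fresIncl_red1_inv_jF hℓN hA]

/-- **J1-SURJ at infinity through the old lift `α`**: `red₁ : B∞ → C∞` is onto -/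
theorem redInv1_surjective (hℓN : ¬ ℓ ∣ N') (hA : A.LiesOverPrime ℓ)
    (h2 : ℓ = 2 → 3 ∣ N') (h3 : ℓ = 3 → 2 ∣ N') :
    Function.Surjective (redInv1Hom (h := h) hℓN hA) := by
  intro y
  have hy : RegFin kA (tauF N' A)⁻¹ (y : FresBar N' A) := y.2
  obtain ⟨f, hfw, hfreg, hfy⟩ := exists_lift_bar_inv N' A hℓN hA h2 h3 hy
  have hB : alphaB N' ℓ f ∈ BRingInv N' ℓ A h := alphaB_mem_BRingInv hfreg hfw
  refine ⟨⟨alphaB N' ℓ f, hB⟩, ?_⟩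
  rw [redInv1Hom_apply]
  refine redInv1_eq_of_cValInv hℓN hA _ ?_
  rw [cValInv_apply, rhoInv1_apply]
  have e := coe_red_alpha N' ℓ A ⟨f, hfw⟩ hB.2.1
  exact (congrArg (fun z : FresBar N' A => (z : LaurentSeries kA)) hfy).symm.trans e.symm

/-! ### The ring `B∞` over `R` -/

variable (N' ℓ A h)

set_option linter.dupNamespace false in
/-- **the ring `B∞` over `R`**: the `K₀`-rational functions of `BRingInv N' ℓ A h` -/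
def BRingK0Inv : Subring F0 := (BRingInv N' ℓ A h).comap (mapK0Bar A (N' * ℓ))

variable {N' ℓ A h}

theorem mem_BRingK0Inv_iff_map {x0 : F0} :
    x0 ∈ BRingK0Inv N' ℓ A h ↔ mapK0Bar A (N' * ℓ) x0 ∈ BRingInv N' ℓ A h := Iff.rfl

/-- `x0 ∈ B∞_R` iff `x0` is integral over `K₀[1/j₀]`, `w₁ x0 ≥ 0` and `w₂ x0 ≥ 0` -/
theorem mem_BRingK0Inv {x0 : F0} :
    x0 ∈ BRingK0Inv N' ℓ A h ↔ RegFin (K0 A) (jC (N' * ℓ) (K0 A))⁻¹ x0 ∧
      x0 ∈ RwK0 A (N' * ℓ) ∧ x0 ∈ (redData2K0 A (N' * ℓ) h).Rw := by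
  rw [mem_BRingK0Inv_iff_map, mem_BRingInv, regFin_iff_map, map_inv₀, mapK0Bar_jC, mem_Rw1K0_iff,
    mem_Rw2K0_iff]

variable (N' ℓ A h)

/-- constants of `R` lie in `B∞_R` -/
theorem algebraMap_mem_BRingK0Inv (a : R0 A) :
    algebraMap (K0 A) F0 (a : K0 A) ∈ BRingK0Inv N' ℓ A h := by
  rw [mem_BRingK0Inv_iff_map, mapK0Bar_algebraMap]
  exact algebraMap_mem_BRingInv (⟨ι0 A (a : K0 A), (hA0 A _).1 a.2⟩ : A)

/-- `1/j₀ ∈ B∞_R` -/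
theorem inv_jC_mem_BRingK0Inv (hA : A.LiesOverPrime ℓ) :
    (jC (N' * ℓ) (K0 A))⁻¹ ∈ BRingK0Inv N' ℓ A h := by
  rw [mem_BRingK0Inv_iff_map, map_inv₀, mapK0Bar_jC]
  exact inv_jF_mem_BRingInv hA

/-- the inclusion `B∞_R → B∞` -/
def toBRingInv : BRingK0Inv N' ℓ A h →+* BRingInv N' ℓ A h :=
  (mapK0Bar A (N' * ℓ)).restrict (BRingK0Inv N' ℓ A h) (BRingInv N' ℓ A h) fun _ hx => hx

@[simp] theorem coe_toBRingInv (x0 : BRingK0Inv N' ℓ A h) :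
    ((toBRingInv N' ℓ A h x0 : BRingInv N' ℓ A h) : FN (N' * ℓ)) =
      mapK0Bar A (N' * ℓ) (x0 : F0) := rfl

theorem toBRingInv_injective : Function.Injective (toBRingInv N' ℓ A h) := fun _ _ hab =>
  Subtype.ext ((mapK0Bar A (N' * ℓ)).injective (congrArg Subtype.val hab))

variable {N' ℓ A}
variable (hℓN : ¬ ℓ ∣ N') (hA : A.LiesOverPrime ℓ)

/-- **`red₁ : B∞_R → C∞`** -/
def redInv1K0 : BRingK0Inv N' ℓ A h →+* CRingInv N' A :=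
  (redInv1Hom hℓN hA).comp (toBRingInv N' ℓ A h)

/-- **`red₂ : B∞_R → C∞`** -/
def redInv2K0 : BRingK0Inv N' ℓ A h →+* CRingInv N' A :=
  (redInv2Hom hℓN hA).comp (toBRingInv N' ℓ A h)

theorem redInv1K0_apply (x0 : BRingK0Inv N' ℓ A h) :
    redInv1K0 h hℓN hA x0 = redInv1 hℓN hA (toBRingInv N' ℓ A h x0) := rfl

theorem redInv2K0_apply (x0 : BRingK0Inv N' ℓ A h) :
    redInv2K0 h hℓN hA x0 = redInv2 hℓN hA (toBRingInv N' ℓ A h x0) := rfl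

theorem cValInv_redInv1K0 (x0 : BRingK0Inv N' ℓ A h) :
    cValInv N' A (redInv1K0 h hℓN hA x0) = rhoInv1 N' ℓ A h (toBRingInv N' ℓ A h x0) :=
  cValInv_redInv1 hℓN hA _

theorem cValInv_redInv2K0 (x0 : BRingK0Inv N' ℓ A h) :
    cValInv N' A (redInv2K0 h hℓN hA x0) = rhoInv2 N' ℓ A h (toBRingInv N' ℓ A h x0) :=
  cValInv_redInv2 hℓN hA _

/-- **the row `hrow` over `K₀`, first component**: the Laurent series of `redInv1K0 x0` is the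
base change `k₀ → k` of the `w₁`-reduction of `x0` computed over `K₀` (any membership proof) -/
theorem coe_redInv1K0 (x0 : BRingK0Inv N' ℓ A h) (hx : (x0 : F0) ∈ RwK0 A (N' * ℓ)) :
    coeffMap (resMapK0 A)
        (((redDataK0 A (N' * ℓ)).red ⟨(x0 : F0), hx⟩ : FresK0 A (N' * ℓ)) :
          LaurentSeries (ResidueField (R0 A))) = cValInv N' A (redInv1K0 h hℓN hA x0) := by
  rw [cValInv_redInv1K0, rhoInv1_apply]
  exact (coe_red1K0 A (N' * ℓ) (x0 : F0) hx (toBRingInv N' ℓ A h x0).2.2.1).symm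

/-- **the row `hrow` over `K₀`, second component** -/
theorem coe_redInv2K0 (x0 : BRingK0Inv N' ℓ A h)
    (hx : (x0 : F0) ∈ (redData2K0 A (N' * ℓ) h).Rw) :
    coeffMap (resMapK0 A)
        (((redData2K0 A (N' * ℓ) h).red ⟨(x0 : F0), hx⟩ : FresK0 A (N' * ℓ)) :
          LaurentSeries (ResidueField (R0 A))) = cValInv N' A (redInv2K0 h hℓN hA x0) := by
  rw [cValInv_redInv2K0, rhoInv2_apply]
  exact (coe_red2K0 A (N' * ℓ) h (x0 : F0) hx (toBRingInv N' ℓ A h x0).2.2.2).symm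

/-- **`rd(B∞_R) = rd(B∞)`** : every element of `B∞` has the same reductions in `C∞` as an element
of `B∞_R` (helper96's rational descent at the chart `t0 = 1/j₀`). -/
theorem exists_redInvK0_eq (x : BRingInv N' ℓ A h) :
    ∃ x0 : BRingK0Inv N' ℓ A h, redInv1K0 h hℓN hA x0 = redInv1 hℓN hA x ∧
      redInv2K0 h hℓN hA x0 = redInv2 hℓN hA x := by
  have hℓ : ℓ.Prime := Fact.out
  have hj0 : (jC (N' * ℓ) (K0 A))⁻¹ ≠ 0 := by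
    refine inv_ne_zero fun h0 => jF_ne_zero' (N' * ℓ) ?_
    rw [← mapK0Bar_jC A (N' * ℓ), h0, map_zero]
  have hr : RegFin Qb (mapK0Bar A (N' * ℓ) (jC (N' * ℓ) (K0 A))⁻¹) (x : FN (N' * ℓ)) := by
    rw [map_inv₀, mapK0Bar_jC]
    exact x.2.1
  obtain ⟨x0, hx01, hx02, hreg, h1, h2, e1, e2⟩ :=
    ratLift_ball2_chart A (N' * ℓ) hℓ hA h _ hj0 x.2.2.1 x.2.2.2 hr
  have hB : x0 ∈ BRingK0Inv N' ℓ A h := mem_BRingK0Inv.mpr ⟨hreg, hx01, hx02⟩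
  refine ⟨⟨x0, hB⟩, ?_, ?_⟩
  · rw [redInv1K0_apply]
    refine redInv1_eq_of_cValInv hℓN hA _ ?_
    rw [cValInv_redInv1, rhoInv1_apply, rhoInv1_apply]
    exact (congrArg (fun y : FresBar (N' * ℓ) A => (y : LaurentSeries kA)) e1).symm
  · rw [redInv2K0_apply]
    refine redInv2_eq_of_cValInv hℓN hA _ ?_
    rw [cValInv_redInv2, rhoInv2_apply, rhoInv2_apply]
    exact (congrArg (fun y : FresBar (N' * ℓ) A => (y : LaurentSeries kA)) e2).symm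

/-- **`red₁ : B∞_R → C∞` is onto** (at the aux levels) -/
theorem redInv1K0_surjective (h2 : ℓ = 2 → 3 ∣ N') (h3 : ℓ = 3 → 2 ∣ N') :
    Function.Surjective (redInv1K0 h hℓN hA) := by
  intro a
  obtain ⟨x, hx⟩ := redInv1_surjective (h := h) hℓN hA h2 h3 a
  obtain ⟨x0, e1, -⟩ := exists_redInvK0_eq h hℓN hA x
  exact ⟨x0, e1.trans hx⟩

/-- `red₁ (1/j₀) = 1/j~` -/
theorem redInv1K0_inv_jC :
    redInv1K0 h hℓN hA ⟨(jC (N' * ℓ) (K0 A))⁻¹, inv_jC_mem_BRingK0Inv N' ℓ A h hA⟩ =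
      ⟨(Fermat.Agent.GK.QS.jt N' A)⁻¹, inv_jt_mem_CRingInv N' A⟩ := by
  rw [redInv1K0_apply, ← redInv1_inv_jF (h := h) hℓN hA]
  congr 1
  apply Subtype.ext
  rw [coe_toBRingInv]
  show mapK0Bar A (N' * ℓ) (jC (N' * ℓ) (K0 A))⁻¹ = (jF (N' * ℓ))⁻¹
  rw [map_inv₀, mapK0Bar_jC]

/-! ### The `W_ℓ`-twin: functions integral over `K₀[1/j_ℓ]` -/

variable (N' ℓ A)

/-- `j_ℓ = W_ℓ j₀` over `K₀` -/
def jQ : F0 := wAutK0 A (N' * ℓ) h (jC (N' * ℓ) (K0 A))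

theorem wAutK0_jQ : wAutK0 A (N' * ℓ) h (jQ N' ℓ A h) = jC (N' * ℓ) (K0 A) :=
  wAutK0_wAutK0 A (N' * ℓ) h _

/-- integrality over `K₀[s]` is transported by `W_ℓ` -/
theorem regFin_wAutK0_iff (s x : F0) :
    RegFin (K0 A) (wAutK0 A (N' * ℓ) h s) (wAutK0 A (N' * ℓ) h x) ↔ RegFin (K0 A) s x := by
  constructor
  · intro hx
    have := RegFin.map_algHom ((wAutK0 A (N' * ℓ) h : F0 ≃ₐ[K0 A] F0) : F0 →ₐ[K0 A] F0)
      (s := s) (s' := wAutK0 A (N' * ℓ) h s) (by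
        show RegFin (K0 A) s (wAutK0 A (N' * ℓ) h (wAutK0 A (N' * ℓ) h s))
        rw [wAutK0_wAutK0]
        exact regFin_self _) hx
    have e : ((wAutK0 A (N' * ℓ) h : F0 ≃ₐ[K0 A] F0) : F0 →ₐ[K0 A] F0)
        (wAutK0 A (N' * ℓ) h x) = x := wAutK0_wAutK0 A (N' * ℓ) h x
    rwa [e] at this
  · intro hx
    exact RegFin.map_algHom ((wAutK0 A (N' * ℓ) h : F0 ≃ₐ[K0 A] F0) : F0 →ₐ[K0 A] F0)
      (s := wAutK0 A (N' * ℓ) h s) (s' := s) (regFin_self _) hx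

set_option linter.dupNamespace false in
/-- **the `W_ℓ`-twin of `B∞_R`**: `W_ℓ (B∞_R)`, the `K₀`-rational functions integral over
`K₀[1/j_ℓ]` with `w₁ ≥ 0`, `w₂ ≥ 0` (it contains the `β`-lifts of the functions of level `N'`
integral over `K₀[1/j]`) -/
def BRingK0InvQ : Subring F0 :=
  (BRingK0Inv N' ℓ A h).comap
    (((wAutK0 A (N' * ℓ) h : F0 ≃ₐ[K0 A] F0) : F0 →ₐ[K0 A] F0) : F0 →+* F0)

variable {N' ℓ A h}

theorem mem_BRingK0InvQ_iff_wAutK0 {x0 : F0} :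
    x0 ∈ BRingK0InvQ N' ℓ A h ↔ wAutK0 A (N' * ℓ) h x0 ∈ BRingK0Inv N' ℓ A h := Iff.rfl

/-- `x0 ∈ W_ℓ (B∞_R)` iff `x0` is integral over `K₀[1/j_ℓ]`, `w₁ x0 ≥ 0` and `w₂ x0 ≥ 0` -/
theorem mem_BRingK0InvQ {x0 : F0} :
    x0 ∈ BRingK0InvQ N' ℓ A h ↔ RegFin (K0 A) (jQ N' ℓ A h)⁻¹ x0 ∧
      x0 ∈ RwK0 A (N' * ℓ) ∧ x0 ∈ (redData2K0 A (N' * ℓ) h).Rw := by
  rw [mem_BRingK0InvQ_iff_wAutK0, mem_BRingK0Inv]
  have e1 : RegFin (K0 A) (jC (N' * ℓ) (K0 A))⁻¹ (wAutK0 A (N' * ℓ) h x0) ↔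
      RegFin (K0 A) (jQ N' ℓ A h)⁻¹ x0 := by
    rw [← regFin_wAutK0_iff N' ℓ A h (jQ N' ℓ A h)⁻¹ x0, map_inv₀, wAutK0_jQ]
  have e2 : wAutK0 A (N' * ℓ) h x0 ∈ (redData2K0 A (N' * ℓ) h).Rw ↔ x0 ∈ RwK0 A (N' * ℓ) := by
    rw [mem_Rw2K0_iff_wAutK0, wAutK0_wAutK0]
  rw [e1, e2, ← mem_Rw2K0_iff_wAutK0]
  tauto

theorem wAutK0_mem_BRingK0InvQ {y : F0} (hy : y ∈ BRingK0Inv N' ℓ A h) :
    wAutK0 A (N' * ℓ) h y ∈ BRingK0InvQ N' ℓ A h := by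
  rw [mem_BRingK0InvQ_iff_wAutK0, wAutK0_wAutK0]
  exact hy

variable (N' ℓ A h)

/-- `1/j_ℓ ∈ W_ℓ (B∞_R)` -/
theorem inv_jQ_mem_BRingK0InvQ (hA : A.LiesOverPrime ℓ) :
    (jQ N' ℓ A h)⁻¹ ∈ BRingK0InvQ N' ℓ A h := by
  rw [mem_BRingK0InvQ_iff_wAutK0, map_inv₀, wAutK0_jQ]
  exact inv_jC_mem_BRingK0Inv N' ℓ A h hA

/-- `W_ℓ : W_ℓ (B∞_R) → B∞_R` -/
def wRes : BRingK0InvQ N' ℓ A h →+* BRingK0Inv N' ℓ A h :=
  ((((wAutK0 A (N' * ℓ) h : F0 ≃ₐ[K0 A] F0) : F0 →ₐ[K0 A] F0) : F0 →+* F0)).restrict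
    (BRingK0InvQ N' ℓ A h) (BRingK0Inv N' ℓ A h) fun _ hx => hx

@[simp] theorem coe_wRes (x0 : BRingK0InvQ N' ℓ A h) :
    ((wRes N' ℓ A h x0 : BRingK0Inv N' ℓ A h) : F0) = wAutK0 A (N' * ℓ) h (x0 : F0) := rfl

theorem wRes_surjective : Function.Surjective (wRes N' ℓ A h) := fun y =>
  ⟨⟨wAutK0 A (N' * ℓ) h (y : F0), wAutK0_mem_BRingK0InvQ y.2⟩,
    Subtype.ext (wAutK0_wAutK0 A (N' * ℓ) h (y : F0))⟩

variable {N' ℓ A}
variable (hℓN : ¬ ℓ ∣ N') (hA : A.LiesOverPrime ℓ)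

/-- **`red₂ : W_ℓ (B∞_R) → C∞`**, `red₂ x0 = red₁ (W_ℓ x0)` -/
def redInvQ2K0 : BRingK0InvQ N' ℓ A h →+* CRingInv N' A :=
  (redInv1K0 h hℓN hA).comp (wRes N' ℓ A h)

/-- **`red₁ : W_ℓ (B∞_R) → C∞`**, `red₁ x0 = red₂ (W_ℓ x0)` -/
def redInvQ1K0 : BRingK0InvQ N' ℓ A h →+* CRingInv N' A :=
  (redInv2K0 h hℓN hA).comp (wRes N' ℓ A h)

theorem redInvQ2K0_apply (x0 : BRingK0InvQ N' ℓ A h) :
    redInvQ2K0 h hℓN hA x0 = redInv1K0 h hℓN hA (wRes N' ℓ A h x0) := rfl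

theorem redInvQ1K0_apply (x0 : BRingK0InvQ N' ℓ A h) :
    redInvQ1K0 h hℓN hA x0 = redInv2K0 h hℓN hA (wRes N' ℓ A h x0) := rfl

/-- **the row `hrow` over `K₀` on the twin, second component** -/
theorem coe_redInvQ2K0 (x0 : BRingK0InvQ N' ℓ A h)
    (hx : (x0 : F0) ∈ (redData2K0 A (N' * ℓ) h).Rw) :
    coeffMap (resMapK0 A)
        (((redData2K0 A (N' * ℓ) h).red ⟨(x0 : F0), hx⟩ : FresK0 A (N' * ℓ)) :
          LaurentSeries (ResidueField (R0 A))) = cValInv N' A (redInvQ2K0 h hℓN hA x0) := by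
  rw [red2K0_eq, redInvQ2K0_apply]
  exact coe_redInv1K0 h hℓN hA (wRes N' ℓ A h x0) hx

/-- **the row `hrow` over `K₀` on the twin, first component** -/
theorem coe_redInvQ1K0 (x0 : BRingK0InvQ N' ℓ A h) (hx : (x0 : F0) ∈ RwK0 A (N' * ℓ)) :
    coeffMap (resMapK0 A)
        (((redDataK0 A (N' * ℓ)).red ⟨(x0 : F0), hx⟩ : FresK0 A (N' * ℓ)) :
          LaurentSeries (ResidueField (R0 A))) = cValInv N' A (redInvQ1K0 h hℓN hA x0) := by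
  have hx' : wAutK0 A (N' * ℓ) h (x0 : F0) ∈ (redData2K0 A (N' * ℓ) h).Rw := by
    rw [mem_Rw2K0_iff_wAutK0, wAutK0_wAutK0]
    exact hx
  rw [redInvQ1K0_apply, ← coe_redInv2K0 h hℓN hA (wRes N' ℓ A h x0) hx', red2K0_eq]
  have e : (⟨wAutK0 A (N' * ℓ) h ((wRes N' ℓ A h x0 : BRingK0Inv N' ℓ A h) : F0), hx'⟩ :
      (redDataK0 A (N' * ℓ)).Rw) = ⟨(x0 : F0), hx⟩ :=
    Subtype.ext (wAutK0_wAutK0 A (N' * ℓ) h (x0 : F0))
  rw [e]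

/-- **`red₂ : W_ℓ (B∞_R) → C∞` is onto** (at the aux levels): the second component of the chart at
infinity is reached on the ring of functions integral over `K₀[1/j_ℓ]`. -/
theorem redInvQ2K0_surjective (h2 : ℓ = 2 → 3 ∣ N') (h3 : ℓ = 3 → 2 ∣ N') :
    Function.Surjective (redInvQ2K0 h hℓN hA) :=
  (redInv1K0_surjective h hℓN hA h2 h3).comp (wRes_surjective N' ℓ A h)

/-- `red₂ (1/j_ℓ) = 1/j~` -/
theorem redInvQ2K0_inv_jQ :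
    redInvQ2K0 h hℓN hA ⟨(jQ N' ℓ A h)⁻¹, inv_jQ_mem_BRingK0InvQ N' ℓ A h hA⟩ =
      ⟨(Fermat.Agent.GK.QS.jt N' A)⁻¹, inv_jt_mem_CRingInv N' A⟩ := by
  rw [redInvQ2K0_apply, ← redInv1K0_inv_jC h hℓN hA]
  congr 1
  apply Subtype.ext
  rw [coe_wRes]
  show wAutK0 A (N' * ℓ) h (jQ N' ℓ A h)⁻¹ = (jC (N' * ℓ) (K0 A))⁻¹
  rw [map_inv₀, wAutK0_jQ]

end Fermat.Agent.GL.Red.BRingK0Inv
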