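import Fermat.Agent.GL.Red.BRingK0
import Fermat.Agent.GL.Eta.BRingEta

/-!
# GATE-L / L5e : `g = Δ(z)/Δ(ℓz)` in the ring `B_R` and the power trick over `R` (helper96)

`ℓ ∥ N = N' ℓ`, `A | ℓ`, `K₀ = ℚ̄^{I_A}`, `R = A ∩ K₀` (a DVR with uniformiser `ℓ`),
`B_R = BRingK0 N' ℓ A h`, `P'₂ = P2K0 = {w₂ > 0}`.

* `etaQK0` : the `K₀`-rational function with image `etaQ (N' ℓ) ℓ` (helper16) in `F_N`;
* `etaBK0 ∈ B_R`, `etaBK0 ∈ P'₂`, `cVal (redC1K0 etaBK0) = uInvS k ℓ` (`= pH(j~)`, helper16 Hasse);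
* `exists_eq_natCast_mul_of_mem_P2K0` : over `R` every element of `P'₂` is `ℓ · y` with
  `w₂ y ≥ 0` (`e₂ = 1`: the hypothesis `hy2` of helper16's power trick is AUTOMATIC over `R`);
* **`etaBK0_dvd_pow`** : `z ∈ P'₂ ⟹ etaBK0 ∣ z ^ 12` in `B_R`
  (= `hdiv` of helper28's `EtaThick.exists_lift_pow_eq` with `B' := B_R`, `g := etaBK0`, `n := 12`).
-/

set_option autoImplicit false
set_option linter.unusedSectionVars false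

noncomputable section

namespace Fermat.Agent.GL.EtaK0

open HahnSeries ModularCurve IsLocalRing
open Fermat.Agent.S28 Fermat.Agent.S24 Fermat.Agent.S24_helper62
open Fermat.Agent.GJ.J1 Fermat.Agent.GJ.J1.Val
open Fermat.Agent.GK.AL Fermat.Agent.GK.QS
open Fermat.Agent.GL.Val.GaussK0 Fermat.Agent.GL.Val.SecondK0 Fermat.Agent.GL.Val.DegBase
open Fermat.Agent.GL.RatLiftK0 Fermat.Agent.GL.BRingK0 Fermat.Agent.GL.Eta Fermat.Agent.GL.Thick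
open Fermat.Agent.Common_helper32

variable (N' : ℕ) [NeZero N'] (ℓ : ℕ) [Fact ℓ.Prime] [NeZero ℓ]
variable (A : ValuationSubring Kbar) (h : ExactDvd ℓ (N' * ℓ))

local notation "kA" => IsLocalRing.ResidueField A
local notation "F0" => modularFunctionFieldFullC (K0 A) (N' * ℓ)

theorem exists_etaQK0 :
    ∃ x0 : F0, mapK0Bar A (N' * ℓ) x0 = etaQ (N' * ℓ) ℓ h.dvd :=
  exists_mapK0Bar_of_fixed A (N' * ℓ) _ fun σ _ => galF_etaQ (N' * ℓ) ℓ h.dvd σ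

/-- **`g = Δ(z)/Δ(ℓz)` as a `K₀`-rational function** -/
def etaQK0 : F0 := (exists_etaQK0 N' ℓ A h).choose

theorem mapK0Bar_etaQK0 : mapK0Bar A (N' * ℓ) (etaQK0 N' ℓ A h) = etaQ (N' * ℓ) ℓ h.dvd :=
  (exists_etaQK0 N' ℓ A h).choose_spec

theorem etaQK0_ne_zero : etaQK0 N' ℓ A h ≠ 0 := fun h0 =>
  etaQ_ne_zero (N' * ℓ) ℓ h.dvd (by rw [← mapK0Bar_etaQK0 N' ℓ A h, h0, map_zero])

theorem etaQK0_mem_BRingK0 (hℓA : (ℓ : Kbar) ∈ A) : etaQK0 N' ℓ A h ∈ BRingK0 N' ℓ A h := by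
  rw [mem_BRingK0_iff_map, mapK0Bar_etaQK0]
  exact etaQ_mem_BRing N' ℓ A h hℓA

/-- `g` as an element of `B_R` -/
def etaBK0 (hℓA : (ℓ : Kbar) ∈ A) : BRingK0 N' ℓ A h := ⟨_, etaQK0_mem_BRingK0 N' ℓ A h hℓA⟩

theorem toBRing_etaBK0 (hℓA : (ℓ : Kbar) ∈ A) :
    toBRing N' ℓ A h (etaBK0 N' ℓ A h hℓA) = etaB N' ℓ A h hℓA :=
  Subtype.ext (mapK0Bar_etaQK0 N' ℓ A h)

variable (hℓN : ¬ ℓ ∣ N') (hA : A.LiesOverPrime ℓ)

/-- `red₁ g = Δ~(Q)/Δ~(Q^ℓ)` -/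
theorem cVal_redC1K0_etaBK0 :
    cVal N' A (redC1K0 h hℓN hA (etaBK0 N' ℓ A h (ValuationSubring.nonunits_le hA))) =
      uInvS kA ℓ := by
  rw [cVal_redC1K0, toBRing_etaBK0]
  exact rho1_etaB N' ℓ A h _

/-- `g ∈ P'₂` -/
theorem etaBK0_mem_P2K0 :
    etaBK0 N' ℓ A h (ValuationSubring.nonunits_le hA) ∈ P2K0 h hℓN hA := by
  rw [mem_P2K0]
  refine cVal_injective N' A ?_
  rw [cVal_redC2K0, toBRing_etaBK0, map_zero]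
  exact rho2_etaB N' ℓ A h hA

variable {N' ℓ A}

/-- over `R`, `w₂ > 0` means divisible by `ℓ` (`e₂ = 1`) -/
theorem exists_eq_natCast_mul_of_mem_P2K0 {z : BRingK0 N' ℓ A h} (hz : z ∈ P2K0 h hℓN hA) :
    ∃ y ∈ (redData2K0 A (N' * ℓ) h).Rw, (z : F0) = (ℓ : F0) * y := by
  have hℓ : ℓ.Prime := Fact.out
  obtain ⟨y, hy, hzy⟩ := exists_eq_q_mul₂ A (N' * ℓ) h hℓ hA (z : F0)
    ((mem_P2K0_iff h hℓN hA).1 hz)
  refine ⟨y, hy, ?_⟩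
  rw [hzy]
  congr 1
  apply (mapK0Bar A (N' * ℓ)).injective
  rw [mapK0Bar_algebraMap, ι0_q0, map_natCast, map_natCast]

/-- **the power trick over `R`** (`hdiv`): `z ∈ P'₂ ⟹ g ∣ z ^ 12` in `B_R` -/
theorem etaBK0_dvd_pow {z : BRingK0 N' ℓ A h} (hz : z ∈ P2K0 h hℓN hA) :
    etaBK0 N' ℓ A h (ValuationSubring.nonunits_le hA) ∣ z ^ 12 := by
  obtain ⟨y, hy, hzy⟩ := exists_eq_natCast_mul_of_mem_P2K0 h hℓN hA hz
  have hℓ0 : (ℓ : FN (N' * ℓ)) ≠ 0 := Nat.cast_ne_zero.2 (NeZero.ne ℓ)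
  have hzB : mapK0Bar A (N' * ℓ) (z : F0) ∈ BRing N' ℓ A h := z.2
  have hy2 : mapK0Bar A (N' * ℓ) (z : F0) / (ℓ : FN (N' * ℓ)) ∈
      (redData2 (N' * ℓ) A h).Rw := by
    have : mapK0Bar A (N' * ℓ) (z : F0) / (ℓ : FN (N' * ℓ)) = mapK0Bar A (N' * ℓ) y := by
      rw [hzy, map_mul, map_natCast]
      field_simp
    rw [this]
    exact (mem_Rw2K0_iff A (N' * ℓ) h y).1 hy
  have hc := pow_div_etaQ_mem_BRing hzB hy2
  have hcK0 : (z : F0) ^ 12 / etaQK0 N' ℓ A h ∈ BRingK0 N' ℓ A h := by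
    rw [mem_BRingK0_iff_map, map_div₀, map_pow, mapK0Bar_etaQK0]
    exact hc
  refine ⟨⟨_, hcK0⟩, Subtype.ext ?_⟩
  show (z : F0) ^ 12 = etaQK0 N' ℓ A h * ((z : F0) ^ 12 / etaQK0 N' ℓ A h)
  rw [mul_div_cancel₀ _ (etaQK0_ne_zero N' ℓ A h)]

end Fermat.Agent.GL.EtaK0
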