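import Fermat.Agent.GL.Red.RatBRing
import Fermat.Agent.GK.Red.LfibLiftBar

/-!
# GATE-L / L5e : `K₀`-rational representatives for ANY `K₀`-rational chart; J1-SURJ over `R` at the
chart `1/j` (helper96)

`A | q` a valuation subring of `ℚ̄`, `K₀ = ℚ̄^{I_A}`, `R = A ∩ K₀`.

* `regFin_iff_map` : `x0` integral over `K₀[t0]` `⟺` its image in `F_N` is integral over `ℚ̄[t0]`;
* `exists_rat_lift_w1_chart`, `exists_rat_lift_ball2_chart` : the statements of `RatBRing` for an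
  arbitrary `K₀`-rational chart `t0 ≠ 0` (e.g. `j`, `1/j`, `j j_q`, a Hauptmodul, …);
* `exists_lift_bar_inv` : J1-SURJ over `A` for the chart at infinity `1/j` (cusps included), from
  helper48's `exists_lift_Lfib_jF`;
* `exists_lift_K0_inv` : the same over `R`.
-/

set_option autoImplicit false
set_option linter.style.haveILetI false

noncomputable section

namespace Fermat.Agent.GL.RatChart

open HahnSeries ModularCurve IsLocalRing
open Fermat.Agent.S24 Fermat.Agent.S24_helper62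
open Fermat.Agent.GJ.J1 Fermat.Agent.GJ.J1.G1 Fermat.Agent.GJ.J1.Val Fermat.Agent.GJ.FiniteLevel
open Fermat.Agent.GK.AL Fermat.Agent.GK.MultiVal Fermat.Agent.GK.Red Fermat.Agent.GK.QS
open Fermat.Agent.GL.Val.GaussK0 Fermat.Agent.GL.Val.SecondK0 Fermat.Agent.GL.Val.DegBase
open Fermat.Agent.GL.RatLiftK0 Fermat.Agent.GL.RatBRing
open Fermat.Agent.Common_helper32 Fermat.Agent.GJ.J1.Haupt Fermat.Agent.GJ.HN
open Fermat.Agent.GK.CuspSep

variable (A : ValuationSubring Qb) (N : ℕ) [NeZero N]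

/-- **integrality over `K₀[t0]` can be tested over `ℚ̄`** -/
theorem regFin_iff_map (t0 x0 : modularFunctionFieldFullC (K0 A) N) :
    RegFin (K0 A) t0 x0 ↔ RegFin Qb (mapK0Bar A N t0) (mapK0Bar A N x0) :=
  ⟨regFin_map (ι0 A) (mapK0Bar A N) (mapK0Bar_algebraMap A N),
    regFin_of_map (ι0 A) (mapK0Bar A N) (mapK0Bar_algebraMap A N) (isIntegralElem_ι0 A)⟩

section Main

variable {q : ℕ} (hq : q.Prime) (hA : (q : Qb) ∈ A.nonunits)

include hq hA in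
/-- **`K₀`-rational representatives for `w₁`, any rational chart** -/
theorem exists_rat_lift_w1_chart
    (ho : HasOrthoBases (R0 A) (RwK0 A N).toSubring (vrad (RwK0 A N)))
    (t0 : modularFunctionFieldFullC (K0 A) N) (ht0 : t0 ≠ 0)
    {x : FN N} (hx : x ∈ (redDataBar N A).Rw) (hr : RegFin Qb (mapK0Bar A N t0) x) :
    ∃ x0 : modularFunctionFieldFullC (K0 A) N, x0 ∈ RwK0 A N ∧ RegFin (K0 A) t0 x0 ∧
      ∃ hx0 : mapK0Bar A N x0 ∈ (redDataBar N A).Rw,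
        (redDataBar N A).red ⟨mapK0Bar A N x0, hx0⟩ = (redDataBar N A).red ⟨x, hx⟩ := by
  have ht : mapK0Bar A N t0 ≠ 0 := fun h0 =>
    ht0 ((mapK0Bar A N).injective (h0.trans (map_zero _).symm))
  obtain ⟨n0, hn0⟩ := regFin_mem_Lfib_large ht hr
  obtain ⟨x0, hx0, hx0L, hx0v⟩ := exists_rat_lift_w1 A N hq hA ho
    (fun σ hσ => galF_mapK0Bar A N σ hσ t0) (n0 : ℤ) hx (hn0 n0 le_rfl)
  have hx0' : mapK0Bar A N x0 ∈ (redDataBar N A).Rw := (mem_Rw1K0_iff A N x0).1 hx0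
  refine ⟨x0, hx0, ?_, hx0', red_eq_of_valuation_sub_lt _ hx hx0' hx0v⟩
  rw [regFin_iff_map]
  exact (mem_Lfib_iff_of_isAlgClosed.1 hx0L).1

variable (h : ExactDvd q N)

include hq hA in
/-- **`K₀`-rational representatives for the pair `w₁, w₂`** (`q ∥ N`), any rational chart -/
theorem exists_rat_lift_ball2_chart
    (ho : HasOrthoBases (R0 A) (ball2 (redDataK0 A N) (redData2K0 A N h))
      (rad2 (redDataK0 A N) (redData2K0 A N h)))
    (t0 : modularFunctionFieldFullC (K0 A) N) (ht0 : t0 ≠ 0)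
    {x : FN N} (hx1 : x ∈ (redDataBar N A).Rw) (hx2 : x ∈ (redData2 N A h).Rw)
    (hr : RegFin Qb (mapK0Bar A N t0) x) :
    ∃ x0 : modularFunctionFieldFullC (K0 A) N, x0 ∈ RwK0 A N ∧ x0 ∈ (redData2K0 A N h).Rw ∧
      RegFin (K0 A) t0 x0 ∧
      ∃ (h1 : mapK0Bar A N x0 ∈ (redDataBar N A).Rw)
        (h2 : mapK0Bar A N x0 ∈ (redData2 N A h).Rw),
        (redDataBar N A).red ⟨mapK0Bar A N x0, h1⟩ = (redDataBar N A).red ⟨x, hx1⟩ ∧
        (redData2 N A h).red ⟨mapK0Bar A N x0, h2⟩ = (redData2 N A h).red ⟨x, hx2⟩ := by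
  haveI : NeZero q := ⟨hq.ne_zero⟩
  have ht : mapK0Bar A N t0 ≠ 0 := fun h0 =>
    ht0 ((mapK0Bar A N).injective (h0.trans (map_zero _).symm))
  obtain ⟨n0, hn0⟩ := regFin_mem_Lfib_large ht hr
  obtain ⟨x0, hx01, hx02, hx0L, hv1, hv2⟩ := exists_rat_lift_ball2 A N hq hA h
    (Fermat.Agent.GK.BallTwo.redCompatFN N A h) ho
    (fun σ hσ => galF_mapK0Bar A N σ hσ t0) (n0 : ℤ) hx1 hx2 (hn0 n0 le_rfl)
  have h1 : mapK0Bar A N x0 ∈ (redDataBar N A).Rw := (mem_Rw1K0_iff A N x0).1 hx01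
  have h2 : mapK0Bar A N x0 ∈ (redData2 N A h).Rw := (mem_Rw2K0_iff A N h x0).1 hx02
  refine ⟨x0, hx01, hx02, ?_, h1, h2, red_eq_of_valuation_sub_lt _ hx1 h1 hv1,
    red_eq_of_valuation_sub_lt _ hx2 h2 hv2⟩
  rw [regFin_iff_map]
  exact (mem_Lfib_iff_of_isAlgClosed.1 hx0L).1

end Main

/-! ### J1-SURJ at the chart `1/j` -/

section Surj

variable (N' : ℕ) [NeZero N'] {ℓ : ℕ} [Fact ℓ.Prime] (A : ValuationSubring Kbar)

local notation "kA" => IsLocalRing.ResidueField A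

/-- **J1-SURJ over `A` for the chart at infinity**: every element of `F~_{N'}` integral over
`k[1/j~]` is the reduction of an element of the Gauss valuation ring integral over `ℚ̄[1/j]`. -/
theorem exists_lift_bar_inv (hℓN : ¬ ℓ ∣ N') (hA : A.LiesOverPrime ℓ)
    (h2 : ℓ = 2 → 3 ∣ N') (h3 : ℓ = 3 → 2 ∣ N') {y : FresBar N' A}
    (hy : RegFin kA (tauF N' A)⁻¹ y) :
    ∃ (x : FN N') (hx : x ∈ (redDataBar N' A).Rw), RegFin Kbar (jF N')⁻¹ x ∧
      (redDataBar N' A).red ⟨x, hx⟩ = y := by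
  have hτ0 : tauF N' A ≠ 0 := tauF_ne_zero N' A
  obtain ⟨M1, hM1⟩ := exists_regFin_inv_pow_mul (inv_ne_zero hτ0) hy
  obtain ⟨n0, hn0⟩ := Fermat.Agent.GK.LfibLift.exists_lift_Lfib_jF N' A hA hℓN h2 h3
  set M := max M1 n0 with hM
  have hb : RegFin kA (tauF N' A) (tauF N' A ^ M * y) := by
    have := hM1 M (le_max_left _ _)
    rwa [inv_inv] at this
  have hbL : tauF N' A ^ M * y ∈ Lfib kA (tauF N' A) (M : ℤ) := by
    haveI : IsAlgClosed kA := Fermat.Agent.GJ.ResidueAlgClosed.isAlgClosed_residueField A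
    rw [mem_Lfib_iff_of_isAlgClosed, zpow_natCast]
    refine ⟨hb, ?_⟩
    have e : (tauF N' A)⁻¹ ^ M * (tauF N' A ^ M * y) = y := by
      rw [← mul_assoc, ← mul_pow, inv_mul_cancel₀ hτ0, one_pow, one_mul]
    rw [e]
    exact hy.regOver
  obtain ⟨x', hx', -, -, hx'i, hred⟩ := hn0 M (le_max_right _ _) _ hbL
  obtain ⟨hji, hjr⟩ := isRed1_inv_jF N' A
  have hmem : (jF N')⁻¹ ^ M * x' ∈ (redDataBar N' A).Rw := mul_mem (pow_mem hji M) hx'
  refine ⟨(jF N')⁻¹ ^ M * x', hmem, hx'i, ?_⟩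
  have e1 : (⟨(jF N')⁻¹ ^ M * x', hmem⟩ : (redDataBar N' A).Rw) =
      (⟨(jF N')⁻¹, hji⟩ : (redDataBar N' A).Rw) ^ M * ⟨x', hx'⟩ := Subtype.ext rfl
  rw [e1, map_mul, map_pow, hjr, hred, ← mul_assoc, ← mul_pow, inv_mul_cancel₀ hτ0, one_pow,
    one_mul]

/-- **J1-SURJ over `R` for the chart at infinity** (`ℓ ∤ N'`): every element of `F~_{N'}` integral
over `k[1/j~]` is the reduction of a `K₀`-rational function integral over `K₀[1/j₀]` with
`w₁ ≥ 0`. -/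
theorem exists_lift_K0_inv (hℓN : ¬ ℓ ∣ N') (hA : A.LiesOverPrime ℓ)
    (h2 : ℓ = 2 → 3 ∣ N') (h3 : ℓ = 3 → 2 ∣ N')
    (ho : HasOrthoBases (R0 A) (RwK0 A N').toSubring (vrad (RwK0 A N')))
    {y : FresBar N' A} (hy : RegFin kA (tauF N' A)⁻¹ y) :
    ∃ x0 : modularFunctionFieldFullC (K0 A) N', x0 ∈ RwK0 A N' ∧
      RegFin (K0 A) (jC N' (K0 A))⁻¹ x0 ∧
      ∃ hx0 : mapK0Bar A N' x0 ∈ (redDataBar N' A).Rw,
        (redDataBar N' A).red ⟨mapK0Bar A N' x0, hx0⟩ = y := by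
  have hℓ : ℓ.Prime := Fact.out
  obtain ⟨x, hx, hreg, rfl⟩ := exists_lift_bar_inv N' A hℓN hA h2 h3 hy
  have hj0 : (jC N' (K0 A))⁻¹ ≠ 0 := by
    refine inv_ne_zero fun h0 => jF_ne_zero' N' ?_
    rw [← mapK0Bar_jC A N', h0, map_zero]
  refine exists_rat_lift_w1_chart A N' hℓ hA ho _ hj0 hx ?_
  rwa [map_inv₀, mapK0Bar_jC]

end Surj

end Fermat.Agent.GL.RatChart
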