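import Mathlib
import Fermat.Agent.GK.MultiVal.NormBall

/-!
# GATE-L / L5e : rational lifts — the unit ball commutes with an UNRAMIFIED base change  (helper96)

`K0 ⊂ K` (via `ι0`), `F0 ⊂ F` (via `ι`), e.g. `K0 = ℚ̄^I`, `K = ℚ̄`, `F0 = F_{K0}(N)`, `F = F_ℚ̄(N)`.
`(A, B, I)` a norm pair on `F / K` and `(A0, B0, I0)` its restriction to `F0 / K0`
(`A0 = ι0⁻¹ A`, `B0 = ι⁻¹ B`, `I0 = ι⁻¹ I`), with the SAME residue field
(`hres : ∀ a ∈ A, ∃ a0 ∈ A0, a - ι0 a0 ∈ 𝔪_A`).  If `(A0, B0, I0)` has orthonormal bases then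

* `isOrthoFamily_baseChange` : an `A0`-orthonormal family stays orthonormal over `A`;
* `exists_rational_lift` : every `x ∈ B` in the `K`-span of (the image of) a finite dimensional
  `K0`-subspace `V0 ≤ F0` is congruent modulo `I` to `ι x0` for some `x0 ∈ V0 ∩ B0`
  (all reductions of `x` and `x0` agree);
* `exists_integral_comb` : `B ∩ K·V0 = A · (B0 ∩ V0)`, on an `A0`-orthonormal basis of `V0`.

So over an unramified base extension with the same residue field, the special fibre of the model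
over `A` is the special fibre of the model over `A0 = R`: `B_R / q B_R = B_A / 𝔪_A B_A`.
Mathlib + `GK/MultiVal/NormBall.lean` only.
-/

set_option autoImplicit false

namespace Fermat.Agent.GL.RatLift

open Module Fermat.Agent.GK.MultiVal

variable {K0 K F0 F : Type*} [Field K0] [Field K] [Field F0] [Field F] [Algebra K0 F0]
  [Algebra K F] (ι0 : K0 →+* K) (ι : F0 →+* F)

/-- the restriction of the maximal ideal -/
theorem mem_nonunits_iff_of_comap {A0 : ValuationSubring K0} {A : ValuationSubring K}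
    (hA0 : ∀ a : K0, a ∈ A0 ↔ ι0 a ∈ A) (a : K0) : a ∈ A0.nonunits ↔ ι0 a ∈ A.nonunits := by
  rw [ValuationSubring.mem_nonunits_iff_or, ValuationSubring.mem_nonunits_iff_or, hA0, map_inv₀,
    map_eq_zero]

variable {ι0 ι}
variable (hι : ∀ (a : K0) (x : F0), ι (a • x) = ι0 a • ι x)
  {A0 : ValuationSubring K0} {A : ValuationSubring K}
  {B0 : Subring F0} {I0 : AddSubgroup F0} {B : Subring F} {I : AddSubgroup F}
  (hA0 : ∀ a : K0, a ∈ A0 ↔ ι0 a ∈ A)
  (hres : ∀ a ∈ A, ∃ a0 ∈ A0, a - ι0 a0 ∈ A.nonunits)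
  (hB0 : ∀ x : F0, x ∈ B0 ↔ ι x ∈ B) (hI0 : ∀ x : F0, x ∈ I0 ↔ ι x ∈ I)
  (h : IsNormPair A B I)

include hres in
/-- a choice of approximants: `approx a ∈ A0`, `a - ι0 (approx a) ∈ 𝔪_A` for `a ∈ A`,
`approx 0 = 0` -/
theorem exists_approx :
    ∃ f : K → K0, f 0 = 0 ∧ ∀ a ∈ A, f a ∈ A0 ∧ a - ι0 (f a) ∈ A.nonunits := by
  classical
  choose g hg1 hg2 using hres
  refine ⟨fun a => if ha : a ∈ A then (if a = 0 then 0 else g a ha) else 0, ?_, fun a ha => ?_⟩
  · simp
  · by_cases h0 : a = 0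
    · subst h0
      simp only [dif_pos ha, if_true, map_zero, sub_zero]
      exact ⟨A0.zero_mem, A.nonunits.zero_mem⟩
    · simp only [dif_pos ha, if_neg h0]
      exact ⟨hg1 a ha, hg2 a ha⟩

omit [Algebra K0 F0] [Algebra K F] in
theorem nonunits_add {a b : K} (ha : a ∈ A.nonunits) (hb : b ∈ A.nonunits) :
    a + b ∈ A.nonunits := by
  rw [ValuationSubring.mem_nonunits_iff] at ha hb ⊢
  exact lt_of_le_of_lt (Valuation.map_add _ _ _) (max_lt ha hb)

include hι hA0 hres hB0 hI0 h in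
/-- **an `A0`-orthonormal family of `F0` stays orthonormal over `A`.** -/
theorem isOrthoFamily_baseChange {J : Type*} {e : J → F0} (he : IsOrthoFamily A0 B0 I0 e) :
    IsOrthoFamily A B I (fun j => ι (e j)) := by
  classical
  obtain ⟨f, hf0, hf⟩ := exists_approx (ι0 := ι0) (A0 := A0) hres
  refine ⟨fun j => (hB0 _).mp (he.mem j), fun c hc hmem => ?_⟩
  set c0 : J →₀ K0 := c.mapRange f hf0 with hc0
  have hc0A : ∀ j, c0 j ∈ A0 := fun j => by
    rw [hc0, Finsupp.mapRange_apply]
    exact (hf _ (hc j)).1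
  have hdiff : ∀ j, c j - ι0 (c0 j) ∈ A.nonunits := fun j => by
    rw [hc0, Finsupp.mapRange_apply]
    exact (hf _ (hc j)).2
  -- the image of the `K0`-combination
  have himg : ι (Finsupp.linearCombination K0 e c0)
      = ∑ j ∈ c.support, ι0 (c0 j) • ι (e j) := by
    rw [Finsupp.linearCombination_apply, Finsupp.sum_of_support_subset c0
      (Finsupp.support_mapRange) (fun i a => a • e i) (fun j _ => zero_smul _ _), map_sum]
    exact Finset.sum_congr rfl fun j _ => hι _ _
  have hmem0 : Finsupp.linearCombination K0 e c0 ∈ I0 := by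
    rw [hI0, himg]
    have h1 : ∑ j ∈ c.support, ι0 (c0 j) • ι (e j)
        = Finsupp.linearCombination K (fun j => ι (e j)) c
          - ∑ j ∈ c.support, (c j - ι0 (c0 j)) • ι (e j) := by
      rw [Finsupp.linearCombination_apply, Finsupp.sum, ← Finset.sum_sub_distrib]
      exact Finset.sum_congr rfl fun j _ => by rw [sub_smul]; abel
    rw [h1]
    exact I.sub_mem hmem (I.sum_mem fun j _ =>
      h.smul_mem_rad (hdiff j) ((hB0 _).mp (he.mem j)))
  have h2 := he.indep c0 hc0A hmem0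
  intro j
  have h3 : ι0 (c0 j) ∈ A.nonunits := (mem_nonunits_iff_of_comap ι0 hA0 _).mp (h2 j)
  have h4 : c j = (c j - ι0 (c0 j)) + ι0 (c0 j) := by ring
  rw [h4]
  exact nonunits_add (hdiff j) h3

include hι hA0 hres hB0 hI0 h in
/-- **`B ∩ K·V0 = A·(B0 ∩ V0)`**: every element of the unit ball in the `K`-span of `V0` is an
`A`-combination of an `A0`-orthonormal basis of `V0`. -/
theorem exists_integral_comb (ho : HasOrthoBases A0 B0 I0) (V0 : Submodule K0 F0)
    [FiniteDimensional K0 V0] {x : F} (hxB : x ∈ B)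
    (hxV : x ∈ Submodule.span K (ι '' (V0 : Set F0))) :
    ∃ (e : Fin (finrank K0 V0) → F0) (c : Fin (finrank K0 V0) → K),
      (∀ i, e i ∈ V0) ∧ (∀ i, e i ∈ B0) ∧ IsOrthoFamily A B I (fun i => ι (e i)) ∧
      (∀ i, c i ∈ A) ∧ x = ∑ i, c i • ι (e i) := by
  classical
  obtain ⟨e, heV, heB, -, hspan, he5, he6⟩ := ho.exists_family V0
  -- `e` is an orthonormal family over `A0`
  have heO : IsOrthoFamily A0 B0 I0 e := by
    refine ⟨heB, fun c _ hmem => ?_⟩
    have h1 := (he6 (fun i => c i)).mp (by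
      rw [Finsupp.linearCombination_apply,
        Finsupp.sum_fintype c (fun i a => a • e i) (fun i => zero_smul _ _)] at hmem
      exact hmem)
    exact h1
  have heO' := isOrthoFamily_baseChange hι hA0 hres hB0 hI0 h heO
  -- `x` is a `K`-combination of the `ι (e i)`
  have hsub : Submodule.span K (ι '' (V0 : Set F0))
      ≤ Submodule.span K (Set.range fun i => ι (e i)) := by
    rw [Submodule.span_le]
    rintro _ ⟨v, hv, rfl⟩
    have hv' : v ∈ Submodule.span K0 (Set.range e) := by rw [hspan]; exact hv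
    obtain ⟨a, rfl⟩ := (Submodule.mem_span_range_iff_exists_fun K0).mp hv'
    rw [map_sum]
    refine Submodule.sum_mem _ fun i _ => ?_
    rw [hι]
    exact Submodule.smul_mem _ _ (Submodule.subset_span ⟨i, rfl⟩)
  obtain ⟨c, hc⟩ := (Submodule.mem_span_range_iff_exists_fun K).mp (hsub hxV)
  refine ⟨e, c, heV, heB, heO', ?_, hc.symm⟩
  have h1 := (heO'.linearCombination_mem_iff h (Finsupp.equivFunOnFinite.symm c)).mp (by
    rw [Finsupp.linearCombination_apply, Finsupp.sum_fintype (Finsupp.equivFunOnFinite.symm c)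
      (fun i a => a • ι (e i)) (fun i => zero_smul _ _)]
    simp only [Finsupp.equivFunOnFinite_symm_apply_apply]
    rw [hc]
    exact hxB)
  intro i
  have := h1 i
  simpa using this

include hι hA0 hres hB0 hI0 h in
/-- **rational lifts**: every `x ∈ B` in the `K`-span of `V0` is congruent modulo `I` to a
rational element `x0 ∈ V0 ∩ B0`. -/
theorem exists_rational_lift (ho : HasOrthoBases A0 B0 I0) (V0 : Submodule K0 F0)
    [FiniteDimensional K0 V0] {x : F} (hxB : x ∈ B)
    (hxV : x ∈ Submodule.span K (ι '' (V0 : Set F0))) :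
    ∃ x0 ∈ V0, x0 ∈ B0 ∧ x - ι x0 ∈ I := by
  classical
  obtain ⟨e, c, heV, heB, -, hcA, rfl⟩ :=
    exists_integral_comb hι hA0 hres hB0 hI0 h ho V0 hxB hxV
  obtain ⟨f, -, hf⟩ := exists_approx (ι0 := ι0) (A0 := A0) hres
  refine ⟨∑ i, f (c i) • e i, Submodule.sum_mem _ fun i _ => Submodule.smul_mem _ _ (heV i),
    ?_, ?_⟩
  · refine B0.sum_mem fun i _ => ?_
    rw [hB0, hι]
    exact h.smul_mem_ball ((hA0 _).mp (hf _ (hcA i)).1) ((hB0 _).mp (heB i))
  · rw [map_sum, ← Finset.sum_sub_distrib]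
    refine I.sum_mem fun i _ => ?_
    rw [hι, ← sub_smul]
    exact h.smul_mem_rad (hf _ (hcA i)).2 ((hB0 _).mp (heB i))

end Fermat.Agent.GL.RatLift
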