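import Mathlib
import Fermat.Agent.GL.Red.RatLift
import Fermat.Agent.GL.Coh.SmoothDescent
import Fermat.Agent.GJ.J1.Defs

/-!
# GATE-L / L5e : rational lifts in Galois-stable spaces  (helper96)

`K0 ⊂ K`, `F0 ⊂ F` as in `RatLift.lean`, and a group `H` (the inertia group) acting on `F` by field
automorphisms, semilinearly over its action on the constants `K`, with `F^H = ι F0` and smooth
orbits.  Then Speiser's lemma (helper1, `SmoothDescent.mem_span_invariants`) gives the span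
hypothesis of `RatLift.exists_rational_lift` for EVERY `H`-stable `K`-subspace `V ≤ F`:

* `exists_rational_lift_of_stable` : `x ∈ V ∩ B ⟹ ∃ x0 : F0, x0 ∈ B0 ∧ ι x0 ∈ V ∧ x - ι x0 ∈ I`.

The spaces `Lspace K t m mInf`, `Lfib K t n` of J1 are stable under every semilinear automorphism
fixing the chart `t` (`regFin_map`, `regOver_map`, `map_mem_Lspace`, `map_mem_Lfib`), hence:

* `exists_rational_lift_Lfib` : `x ∈ L(n (t)_∞) ∩ B` has a rational lift in `L(n (t)_∞)`.
-/

set_option autoImplicit false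

namespace Fermat.Agent.GL.RatLift

open Module Polynomial Fermat.Agent.GK.MultiVal Fermat.Agent.GJ.J1
  Fermat.Agent.GL.Coh.SmoothDescent

/-! ### Semilinear automorphisms preserve integrality over `K[s]` -/

section semilinear

variable {K F : Type*} [Field K] [Field F] [Algebra K F] (Φ : F ≃+* F) (τ : K ≃+* K)
  (hΦ : ∀ c : K, Φ (algebraMap K F c) = algebraMap K F (τ c))
include hΦ

theorem map_mem_adjoin {s y : F} (hy : y ∈ Algebra.adjoin K {s}) :
    Φ y ∈ Algebra.adjoin K {Φ s} := by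
  induction hy using Algebra.adjoin_induction with
  | mem x hx =>
    rw [Set.mem_singleton_iff] at hx
    rw [hx]
    exact Algebra.subset_adjoin rfl
  | algebraMap c =>
    rw [hΦ]
    exact Subalgebra.algebraMap_mem _ _
  | add x y _ _ hx hy =>
    rw [map_add]
    exact Subalgebra.add_mem _ hx hy
  | mul x y _ _ hx hy =>
    rw [map_mul]
    exact Subalgebra.mul_mem _ hx hy

theorem regFin_map {s x : F} (hx : RegFin K s x) : RegFin K (Φ s) (Φ x) := by
  let φ : ↥(Algebra.adjoin K {s}) →+* ↥(Algebra.adjoin K {Φ s}) :=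
    RingHom.codRestrict ((Φ : F →+* F).comp (Algebra.adjoin K {s}).val.toRingHom)
      (Algebra.adjoin K {Φ s}) fun y => map_mem_adjoin Φ τ hΦ y.2
  exact IsIntegral.map_of_comp_eq φ (Φ : F →+* F) (by ext y; rfl) hx

theorem aeval_map_semilinear (s : F) (b : K[X]) :
    Φ (aeval s b) = aeval (Φ s) (b.map (τ : K →+* K)) := by
  rw [aeval_def, aeval_def, eval₂_map]
  show (Φ : F →+* F) (eval₂ (algebraMap K F) s b) = _
  rw [hom_eval₂]
  congr 1
  ext c
  exact hΦ c

theorem regOver_map {s x : F} (hx : RegOver K s x) : RegOver K (Φ s) (Φ x) := by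
  obtain ⟨b, hb0, hb⟩ := hx
  refine ⟨b.map (τ : K →+* K), ?_, ?_⟩
  · rw [← coeff_zero_eq_eval_zero, coeff_map, coeff_zero_eq_eval_zero]
    simpa using hb0
  · have h1 := regFin_map Φ τ hΦ hb
    rwa [map_mul, aeval_map_semilinear Φ τ hΦ] at h1

/-- a semilinear automorphism fixing the chart `t` and preserving the weights maps
`L(∑ m c (t = c) + mInf (t = ∞))` into itself -/
theorem map_mem_Lspace {t : F} (ht : Φ t = t) {m : K → ℤ} (hm : ∀ c, m (τ c) = m c) {mInf : ℤ}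
    {x : F} (hx : x ∈ Lspace K t m mInf) : Φ x ∈ Lspace K t m mInf := by
  rw [mem_Lspace] at hx ⊢
  refine ⟨fun c' => ?_, ?_⟩
  · obtain ⟨c, rfl⟩ := τ.surjective c'
    have h1 := regOver_map Φ τ hΦ (hx.1 c)
    rwa [map_mul, map_zpow₀, map_sub, ht, hΦ, ← hm c] at h1
  · have h1 := regOver_map Φ τ hΦ hx.2
    rwa [map_mul, map_zpow₀, map_inv₀, ht] at h1

theorem map_mem_Lfib {t : F} (ht : Φ t = t) {n : ℤ} {x : F} (hx : x ∈ Lfib K t n) :
    Φ x ∈ Lfib K t n :=
  map_mem_Lspace Φ τ hΦ ht (m := 0) (fun _ => rfl) hx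

end semilinear

/-! ### Rational lifts in stable subspaces -/

section stable

variable {K0 K F0 F : Type*} [Field K0] [Field K] [Field F0] [Field F] [Algebra K0 F0]
  [Algebra K F] {ι0 : K0 →+* K} {ι : F0 →+* F}
  (hι : ∀ (a : K0) (x : F0), ι (a • x) = ι0 a • ι x)
  {A0 : ValuationSubring K0} {A : ValuationSubring K}
  {B0 : Subring F0} {I0 : AddSubgroup F0} {B : Subring F} {I : AddSubgroup F}
  (hA0 : ∀ a : K0, a ∈ A0 ↔ ι0 a ∈ A)
  (hres : ∀ a ∈ A, ∃ a0 ∈ A0, a - ι0 a0 ∈ A.nonunits)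
  (hB0 : ∀ x : F0, x ∈ B0 ↔ ι x ∈ B) (hI0 : ∀ x : F0, x ∈ I0 ↔ ι x ∈ I)
  (h : IsNormPair A B I) (ho : HasOrthoBases A0 B0 I0)
  {H : Type*} [Group H] [MulSemiringAction H F]
  (hconst : ∀ (σ : H) (c : K), ∃ c' : K, σ • algebraMap K F c = algebraMap K F c')
  (hinv : ∀ x : F, (∀ σ : H, σ • x = x) → ∃ x0 : F0, ι x0 = x)
  (hsmooth : ∀ x : F, ∃ Y : Set F, Y.Finite ∧ Y ⊆ Set.range (algebraMap K F) ∧
    (∀ (σ : H), ∀ y ∈ Y, σ • y ∈ Y) ∧ ∀ σ : H, (∀ y ∈ Y, σ • y = y) → σ • x = x)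

include hι hA0 hres hB0 hI0 h ho hconst hinv hsmooth in
/-- **rational lifts in a Galois-stable subspace**: `V ≤ F` an `H`-stable `K`-subspace, `x ∈ V ∩ B`
`⟹` there is a rational `x0 ∈ B0` with `ι x0 ∈ V` and `x ≡ ι x0` modulo `I`. -/
theorem exists_rational_lift_of_stable (V : Submodule K F)
    (hV : ∀ (σ : H), ∀ v ∈ V, σ • v ∈ V) {x : F} (hxB : x ∈ B) (hxV : x ∈ V) :
    ∃ x0 : F0, x0 ∈ B0 ∧ ι x0 ∈ V ∧ x - ι x0 ∈ I := by
  classical
  -- the subfield of constants
  set C : Subfield F := (algebraMap K F).fieldRange with hCdef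
  have hC : ∀ (σ : H), ∀ c ∈ C, σ • c ∈ C := by
    rintro σ _ ⟨c, rfl⟩
    obtain ⟨c', hc'⟩ := hconst σ c
    exact ⟨c', hc'.symm⟩
  -- `V` as a `C`-subspace
  let V' : Submodule ↥C F :=
    { carrier := V
      zero_mem' := V.zero_mem
      add_mem' := V.add_mem
      smul_mem' := by
        rintro ⟨_, c, rfl⟩ v hv
        show algebraMap K F c * v ∈ V
        rw [← Algebra.smul_def]
        exact V.smul_mem c hv }
  obtain ⟨Y, hYfin, hYC, hYstab, hYx⟩ := hsmooth x
  have hYC' : Y ⊆ C := fun y hy => by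
    obtain ⟨c, rfl⟩ := hYC hy
    exact ⟨c, rfl⟩
  have hsp := mem_span_invariants C hC V' hV x hxV Y hYfin hYC' hYstab hYx
  -- pass to a finite combination of invariant elements of `V`
  obtain ⟨n, c, w, hcw⟩ := Submodule.mem_span_set'.mp hsp
  choose v hv using fun i : Fin n => hinv (w i : F) (w i).2.2
  let V0 : Submodule K0 F0 := Submodule.span K0 (Set.range v)
  have hV0fd : FiniteDimensional K0 V0 := FiniteDimensional.span_of_finite K0 (Set.finite_range v)
  have hV0V : ∀ y ∈ V0, ι y ∈ V := by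
    intro y hy
    induction hy using Submodule.span_induction with
    | mem y hy =>
      obtain ⟨i, rfl⟩ := hy
      rw [hv i]
      exact (w i).2.1
    | zero => rw [map_zero]; exact V.zero_mem
    | add y z _ _ hy hz => rw [map_add]; exact V.add_mem hy hz
    | smul a y _ hy => rw [hι]; exact V.smul_mem _ hy
  have hxspan : x ∈ Submodule.span K (ι '' (V0 : Set F0)) := by
    rw [← hcw]
    refine Submodule.sum_mem _ fun i _ => ?_
    obtain ⟨_, ci, rfl⟩ := c i
    have h1 : (⟨algebraMap K F ci, ⟨ci, rfl⟩⟩ : ↥C) • (w i : F) = ci • (w i : F) := by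
      rw [Algebra.smul_def ci]
      rfl
    rw [h1]
    refine Submodule.smul_mem _ _ (Submodule.subset_span ⟨v i, ?_, hv i⟩)
    exact Submodule.subset_span ⟨i, rfl⟩
  obtain ⟨x0, hx0V, hx0B, hx0I⟩ :=
    exists_rational_lift hι hA0 hres hB0 hI0 h ho V0 hxB hxspan
  exact ⟨x0, hx0B, hV0V x0 hx0V, hx0I⟩

include hι hA0 hres hB0 hI0 h ho hconst hinv hsmooth in
/-- **rational lifts in `L(n (t)_∞)`**, `t` a rational chart: `x ∈ L(n (t)_∞) ∩ B` is congruent
modulo `I` to `ι x0`, `x0 ∈ B0` rational with `ι x0 ∈ L(n (t)_∞)`. -/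
theorem exists_rational_lift_Lfib (τ : H → K ≃+* K)
    (hτ : ∀ (σ : H) (c : K), σ • algebraMap K F c = algebraMap K F (τ σ c))
    {t : F} (ht : ∀ σ : H, σ • t = t) (n : ℤ) {x : F} (hxB : x ∈ B) (hxV : x ∈ Lfib K t n) :
    ∃ x0 : F0, x0 ∈ B0 ∧ ι x0 ∈ Lfib K t n ∧ x - ι x0 ∈ I :=
  exists_rational_lift_of_stable hι hA0 hres hB0 hI0 h ho hconst hinv hsmooth (Lfib K t n)
    (fun σ _ hv => map_mem_Lfib (MulSemiringAction.toRingEquiv H F σ) (τ σ) (hτ σ) (ht σ) hv)
    hxB hxV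

end stable

end Fermat.Agent.GL.RatLift
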